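import Fermat.Agent.RED.Flat.LinAlg

/-!
# Integral bases of subspaces, fixed by a group of automorphisms

`exists_fixed_integral_basis`: a stable subspace has a fixed integral basis that stays independent
modulo the maximal ideal.
-/

set_option autoImplicit false

noncomputable section

open IsLocalRing

namespace Fermat.RED.Flat

variable {L : Type*} [Field L] {A : ValuationSubring L} {γ κ : Type*} [Finite κ]

/-- A nonzero stable subspace has a nonzero fixed vector. -/
theorem exists_fixed_ne_zero (φ : γ → L →+* L) {W : Submodule L (κ → L)}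
    (hW : ∀ s, ∀ c ∈ W, (fun j => φ s (c j)) ∈ W) (hne : W ≠ ⊥) :
    ∃ c ∈ W, c ≠ 0 ∧ ∀ s j, φ s (c j) = c j := by
  classical
  have := Fintype.ofFinite κ
  set supp : (κ → L) → Finset κ := fun c => Finset.univ.filter fun j => c j ≠ 0 with hsupp
  have hex : ∃ n, ∃ c ∈ W, c ≠ 0 ∧ (supp c).card = n := by
    obtain ⟨c, hc, hc0⟩ := Submodule.exists_mem_ne_zero_of_ne_bot hne
    exact ⟨_, c, hc, hc0, rfl⟩
  obtain ⟨c, hc, hc0, hcard⟩ := Nat.find_spec hex
  obtain ⟨j₀, hj₀⟩ := Function.ne_iff.mp hc0
  simp only [Pi.zero_apply] at hj₀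
  refine ⟨(c j₀)⁻¹ • c, W.smul_mem _ hc, smul_ne_zero (inv_ne_zero hj₀) hc0, fun s j => ?_⟩
  set u := (c j₀)⁻¹ • c with hu
  have huW : u ∈ W := W.smul_mem _ hc
  have hu1 : u j₀ = 1 := by simp [hu, hj₀]
  set e : κ → L := (fun j => φ s (u j)) - u with he
  have heW : e ∈ W := W.sub_mem (hW s u huW) huW
  by_contra hne'
  have he0 : e ≠ 0 := fun h => hne' (sub_eq_zero.mp (congrFun h j))
  have hlt : (supp e).card < Nat.find hex := by
    rw [← hcard]
    refine Finset.card_lt_card (Finset.ssubset_iff_subset_ne.mpr ⟨fun i hi => ?_, fun h => ?_⟩)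
    · simp only [hsupp, Finset.mem_filter, Finset.mem_univ, true_and] at hi ⊢
      intro h
      exact hi (by simp [he, hu, h])
    · have : j₀ ∈ supp c := by simp [hsupp, hj₀]
      rw [← h] at this
      simp only [hsupp, Finset.mem_filter] at this
      exact this.2 (by simp [he, hu1])
  exact Nat.find_min hex hlt ⟨e, heW, he0, rfl⟩

/-- A stable subspace has a fixed integral basis independent modulo the maximal ideal. -/
theorem exists_fixed_integral_basis (φ : γ → L →+* L) (W : Submodule L (κ → L))
    (hW : ∀ s, ∀ c ∈ W, (fun j => φ s (c j)) ∈ W) :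
    ∃ v : Fin (Module.finrank L W) → κ → A, (∀ i, (fun j => (v i j : L)) ∈ W) ∧
      (∀ s i j, φ s (v i j : L) = v i j) ∧
      LinearIndependent (ResidueField A) fun i j => residue A (v i j) := by
  classical
  have := Fintype.ofFinite κ
  suffices ∀ d, ∀ W : Submodule L (κ → L), (∀ s, ∀ c ∈ W, (fun j => φ s (c j)) ∈ W) →
      Module.finrank L W = d →
      ∃ v : Fin d → κ → A, (∀ i, (fun j => (v i j : L)) ∈ W) ∧
        (∀ s i j, φ s (v i j : L) = v i j) ∧
        LinearIndependent (ResidueField A) fun i j => residue A (v i j) from this _ W hW rfl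
  intro d
  induction d with
  | zero =>
    exact fun W _ _ => ⟨fun i => i.elim0, fun i => i.elim0, fun _ i => i.elim0,
      linearIndependent_empty_type⟩
  | succ d ih =>
    intro W hW hd
    -- a fixed vector, scaled to be integral with a coordinate `1`
    obtain ⟨c, hcW, hc0, hcfix⟩ := exists_fixed_ne_zero φ hW fun e => by
      rw [e, finrank_bot] at hd
      omega
    obtain ⟨l, hl, w, hw, -, j₀, hj₀⟩ := exists_scale_primitive (A := A) hc0
    have hwW : (fun j => (w j : L)) ∈ W := by
      have : (fun j => (w j : L)) = l • c := funext fun j => hw j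
      rw [this]
      exact W.smul_mem l hcW
    have hlfix : ∀ s, φ s l = l := fun s => by
      rw [eq_inv_of_mul_eq_one_left hj₀, map_inv₀, hcfix]
    have hwfix : ∀ s j, φ s (w j : L) = w j := fun s j => by rw [hw, map_mul, hlfix, hcfix]
    have hw1 : w j₀ = 1 := Subtype.ext (by rw [hw, hj₀]; rfl)
    -- recurse in the stable hyperplane where that coordinate vanishes
    let ψ : W →ₗ[L] L := (LinearMap.proj j₀).comp W.subtype
    have hrange : Module.finrank L (LinearMap.range ψ) = 1 := by
      have : LinearMap.range ψ = ⊤ := LinearMap.range_eq_top.mpr fun a =>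
        ⟨a • ⟨_, hwW⟩, by simp [ψ, hw1]⟩
      rw [this, finrank_top, Module.finrank_self]
    set W' : Submodule L (κ → L) := (LinearMap.ker ψ).map W.subtype with hW'
    have hW'd : Module.finrank L W' = d := by
      rw [hW', Submodule.finrank_map_subtype_eq]
      have := ψ.finrank_range_add_finrank_ker
      omega
    have hW's : ∀ s, ∀ c ∈ W', (fun j => φ s (c j)) ∈ W' := by
      rintro s _ ⟨u, hu, rfl⟩
      refine ⟨⟨_, hW s _ u.2⟩, ?_, rfl⟩
      change φ s ((u : κ → L) j₀) = 0
      rw [show (u : κ → L) j₀ = 0 from hu, map_zero]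
    obtain ⟨v, hv, hvfix, hind⟩ := ih W' hW's hW'd
    refine ⟨Fin.cons w v, fun i => ?_, fun s i j => ?_, ?_⟩
    · refine Fin.cases ?_ (fun i => ?_) i
      · simpa using hwW
      · simp only [Fin.cons_succ]
        obtain ⟨u, -, hu⟩ := hv i
        exact hu ▸ u.2
    · refine Fin.cases ?_ (fun i => ?_) i
      · simpa using hwfix s j
      · simpa using hvfix s i j
    · have e : (fun i j => residue A ((Fin.cons w v : Fin (d + 1) → κ → A) i j))
          = Fin.cons (fun j => residue A (w j)) (fun i j => residue A (v i j)) := by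
        funext i
        refine Fin.cases ?_ (fun i => ?_) i <;> simp
      rw [e, linearIndependent_finCons]
      refine ⟨hind, fun hmem => ?_⟩
      -- independent: the others have residue `0` at `j₀` and `w` has `1`
      have hle : Submodule.span (ResidueField A) (Set.range fun i j => residue A (v i j)) ≤
          LinearMap.ker (LinearMap.proj j₀) := by
        rw [Submodule.span_le]
        rintro _ ⟨i, rfl⟩
        obtain ⟨u, hu, hu'⟩ := hv i
        change residue A (v i j₀) = 0
        have h1 : (v i j₀ : L) = 0 := (congrFun hu' j₀).symm.trans hu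
        rw [show v i j₀ = 0 from Subtype.ext h1, map_zero]
      have := hle hmem
      simp [hw1] at this

/-- A subspace has an integral basis which stays independent modulo the maximal ideal. -/
theorem exists_integral_basis (W : Submodule L (κ → L)) :
    ∃ v : Fin (Module.finrank L W) → κ → A, (∀ i, (fun j => (v i j : L)) ∈ W) ∧
      LinearIndependent (ResidueField A) fun i j => residue A (v i j) :=
  have ⟨v, hv, _, hind⟩ := exists_fixed_integral_basis (A := A) (γ := Empty) (fun e => e.elim) W
    fun e => e.elim
  ⟨v, hv, hind⟩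

end Fermat.RED.Flat
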