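import Fermat.Agent.RED.Flat.Model
import Fermat.Agent.RED.Flat.Fixed
import Fermat.Agent.RED.Model.Torsion
import Fermat.Agent.RED.Model.X0Normal
import Fermat.Agent.HT.Cusp.Places
import Fermat.Prelude.Def_ModularCurve_ArithmeticGalois

/-!
# Curves over `ℚ` given by `q`-expansions, with a good model at a place

Such a curve is an `IntCurve` whose bases of `L(n ∞)` are fixed by Galois, so finite Galois
modules of classes have models (`nonempty_model_of_goodModel`): used for `X_H(K)` in `GammaH` and
for `X₀(N)` in `X0Data`.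
-/

set_option autoImplicit false
set_option linter.unusedSectionVars false

noncomputable section

open AlgebraicCurve IsLocalRing ModularCurve Fermat.RED.Model
open Fermat.RED.Cusps (regSeries mem_regSeries_iff)
open Fermat.HT.Cusp (seriesPlace SeriesPole ord_seriesPlace mem_regSeries_iff_order)

namespace Fermat.RED.Flat

-- all three lead to searches that are slow to fail on subfields of Laurent series
attribute [-instance] IsLocalRing.ResidueField.algebraOfIsIntegral IntermediateField.algebra'
  IsScalarTower.of_algHom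

local notation "ℚbar" => AlgebraicClosure ℚ
local notation "Γℚ" => (AlgebraicClosure ℚ ≃ₐ[ℚ] AlgebraicClosure ℚ)

-- giving the field explicitly avoids a slow comparison of `Algebra` instances at each occurrence
local notation "galF" => arithmeticGalois (L := AlgebraicClosure ℚ)

variable {A : ValuationSubring ℚbar} (F₀ : IntermediateField ℚ (LaurentSeries ℚ))

/-- The function field over `ℚbar`. -/
abbrev FB : IntermediateField ℚbar (LaurentSeries ℚbar) := laurentBaseChange ℚbar F₀

/-- Its expansion at the cusp. -/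
abbrev ιB : FB F₀ →+* LaurentSeries ℚbar := (FB F₀).val.toRingHom

/-- The coefficients at a finite set of exponents. -/
def coeffsAt (S : Finset ℤ) : (FB F₀) →ₗ[ℚbar] (S → ℚbar) where
  toFun f n := (f : LaurentSeries ℚbar).coeff n
  map_add' f g := funext fun n => by simp
  map_smul' c f := funext fun n => by
    rw [Pi.smul_apply, RingHom.id_apply, smul_eq_mul, Algebra.smul_def,
      MulMemClass.coe_mul]
    change ((algebraMap ℚbar (LaurentSeries ℚbar) c) * (f : LaurentSeries ℚbar)).coeff n = _
    rw [algebraMap_laurentSeries_eq_single, HahnSeries.coeff_single_zero_mul]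

/-- Galois acts on the coefficients of the expansions. -/
theorem coeff_smul_eq (σ : Γℚ) (f : (FB F₀)) (n : ℤ) :
    ((galF F₀ σ • f : (FB F₀)) : LaurentSeries ℚbar).coeff n =
      σ ((f : LaurentSeries ℚbar).coeff n) := by
  rw [coe_arithmeticGalois_smul, coeffMap_coeff]
  rfl

/-- The Galois action preserves regularity of the expansions. -/
theorem mem_regSeries_smul_iff (σ : Γℚ) (f : (FB F₀)) :
    ((galF F₀ σ • f : (FB F₀)) : LaurentSeries ℚbar) ∈ regSeries ℚbar ↔
      (f : LaurentSeries ℚbar) ∈ regSeries ℚbar := by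
  simp only [mem_regSeries_iff, coeff_smul_eq]
  exact forall₂_congr fun n _ => by rw [map_eq_zero]

variable [IsAlgClosed (ResidueField A)] [FF.IsFunctionField ℚbar (FB F₀)]
variable [FF.IsFunctionField (ResidueField A) (specField (residue A) (ιB F₀))]

variable {F₀} {x : (FB F₀)} {d : ℕ}

/-- Some expansion has a pole, as `x` has order `-1`. -/
theorem seriesPole_of_order (hx : (x : LaurentSeries ℚbar).order = -1) :
    SeriesPole (IntermediateField.val (FB F₀)) := ⟨x, fun hm => by
  have hne : (x : LaurentSeries ℚbar) ≠ 0 := fun h0 => by simp [h0] at hx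
  rw [IntermediateField.coe_val, mem_regSeries_iff_order hne, hx] at hm
  omega⟩

/-- The cusp of the expansion. -/
def cuspPt (hx : (x : LaurentSeries ℚbar).order = -1) : Place ℚbar (FB F₀) :=
  seriesPlace (seriesPole_of_order hx)

/-- The order at the cusp is the order of the expansion. -/
theorem ord_cuspPt (hx : (x : LaurentSeries ℚbar).order = -1) (f : FB F₀) :
    (cuspPt hx).ord f = (f : LaurentSeries ℚbar).order :=
  ord_seriesPlace _ (t := x) hx f

/-- Galois fixes the cusp. -/
theorem smul_cuspPt (hx : (x : LaurentSeries ℚbar).order = -1) (σ : Γℚ) :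
    galF F₀ σ • cuspPt hx = cuspPt hx := by
  refine Place.ext (SetLike.ext fun f => ?_)
  rw [SemilinearAut.smul_toValuationSubring, ValuationSubring.mem_pointwise_smul_iff_inv_smul_mem,
    ← map_inv]
  exact mem_regSeries_smul_iff F₀ σ⁻¹ f

/-- Galois preserves the functions with bounded pole only at the cusp. -/
theorem smul_mem_cusp (hx : (x : LaurentSeries ℚbar).order = -1) (σ : Γℚ) {n : ℕ} {w : FB F₀}
    (hw : w ∈ riemannRochSpace (Finsupp.single (cuspPt hx) (n : ℤ))) :
    galF F₀ σ • w ∈ riemannRochSpace (Finsupp.single (cuspPt hx) (n : ℤ)) := by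
  have := FF.smul_mem_riemannRochSpace (galF F₀ σ) hw
  rwa [SemilinearAut.smul_single, smul_cuspPt] at this

/-- Multiplying by a constant multiplies the coefficients. -/
theorem coeff_algebraMap_mul {K : Type*} [Field K] {E : IntermediateField K (LaurentSeries K)}
    (c : K) (z : E) (i : ℤ) :
    ((algebraMap K E c * z : E) : LaurentSeries K).coeff i = c * (z : LaurentSeries K).coeff i := by
  rw [MulMemClass.coe_mul]
  change ((algebraMap K (LaurentSeries K) c) * (z : LaurentSeries K)).coeff i = _
  rw [algebraMap_laurentSeries_eq_single, HahnSeries.coeff_single_zero_mul]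

variable {r : Place ℚbar (FB F₀) → Place (ResidueField A) (specField (residue A) (ιB F₀))} {n : ℕ}
variable (h : GoodModel (residue A) (ιB F₀) x d)
  (hn : Fermat.RED.Model.Normal A (residue A) (ιB F₀) x)
  (hn' : Fermat.RED.Model.Normal A (residue A) (ιB F₀) x⁻¹)
  (hx : (x : LaurentSeries ℚbar).order = -1)
  (hr : IsReduction A (residue A) (ιB F₀) x r)

local notation "LVn" hx:max n:max => riemannRochSpace (Finsupp.single (cuspPt hx) (n : ℤ))

include h hn hn' hr in
/-- Sections are scalars times integral sections reducing to sections. -/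
theorem exists_scale_section {w : FB F₀} (hw : w ∈ LVn hx n) (hw0 : w ≠ 0) :
    ∃ (c : ℚbar) (w' : FB F₀), c ≠ 0 ∧
      w' ∈ chart A x ∧ w = algebraMap ℚbar (FB F₀) c * w' ∧ redS (residue A) (ιB F₀) w' ≠ 0 ∧
      redS (residue A) (ιB F₀) w' ∈ riemannRochSpace (Finsupp.single (r (cuspPt hx)) (n : ℤ)) := by
  classical
  -- `w` is integral over the polynomials in `x`, so a scalar multiple is primitive
  have hint : w ∈ FF.intClosure ℚbar x := by
    refine FF.mem_intClosure_iff.mpr fun v hv => ?_
    have h1 := FF.mem_riemannRochSpace.mp hw v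
    rwa [Finsupp.single_apply, if_neg, neg_zero] at h1
    rintro rfl
    have := hv.le_ord h.ne_zero
    rw [ord_cuspPt hx, hx] at this
    omega
  obtain ⟨a, ha, -, haw⟩ := exists_scale_of_mem_intClosure hint
  obtain ⟨b, -, hb, w', hw', hw'0, e⟩ := h.exists_eq_smul_primitive haw
    (mul_ne_zero ((_root_.map_ne_zero _).mpr ha) hw0)
  have e' : w = algebraMap ℚbar (FB F₀) (b / a) * w' := by
    rw [map_div₀, div_mul_eq_mul_div, ← e,
      mul_div_cancel_left₀ _ ((_root_.map_ne_zero _).mpr ha)]
  have hS : redS (residue A) (ιB F₀) w' ≠ 0 := fun h0 => hw'0 (congrArg Subtype.val h0)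
  -- the primitive multiple is still a section
  have hw'L : w' ∈ LVn hx n := by
    have : w' = (b / a)⁻¹ • w := by
      rw [Algebra.smul_def, e', ← mul_assoc, ← map_mul,
        inv_mul_cancel₀ (div_ne_zero hb ha), map_one, one_mul]
    rw [this]
    exact Submodule.smul_mem _ _ hw
  refine ⟨b / a, w', div_ne_zero hb ha, hw', e', hS, ?_⟩
  have hw'ne : w' ≠ 0 := fun h0 => hS (by rw [h0, redS_zero])
  have h1 := (FF.nonneg_add_divOf_iff hw'ne).mpr hw'L
  -- its reduction is a section, as divisors push forward along `r`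
  refine (FF.nonneg_add_divOf_iff hS).mp (Finsupp.le_def.mpr fun Q => ?_)
  have h2 : (0 : ℤ) ≤
      Finsupp.mapDomain r (Finsupp.single (cuspPt hx) (n : ℤ) + FF.divOf ℚbar w') Q := by
    rw [Finsupp.mapDomain, Finsupp.sum_apply]
    refine Finset.sum_nonneg fun P _ => ?_
    simp only [Finsupp.single_apply]
    split_ifs
    · exact Finsupp.le_def.mp h1 P
    · exact le_rfl
  rwa [Finsupp.mapDomain_add, Finsupp.mapDomain_single,
    h.mapDomain_divOf hn hn' hr (h.int_chart w' hw') hS] at h2

/-- The reduced coefficients. -/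
def redCoeff (i : ℤ) : specField (residue A) (ιB F₀) →ₗ[ResidueField A] ResidueField A where
  toFun z := (z : LaurentSeries (ResidueField A)).coeff i
  map_add' _ _ := by rw [AddMemClass.coe_add, HahnSeries.coeff_add]
  map_smul' c z := by rw [RingHom.id_apply, smul_eq_mul, Algebra.smul_def, coeff_algebraMap_mul]

/-- The coefficients of the reduction are the reduced coefficients. -/
theorem redCoeff_redS {w : FB F₀} (hint : ιB F₀ w ∈ intSeries A) (i : ℤ) :
    redCoeff (A := A) (F₀ := F₀) i (redS (residue A) (ιB F₀) w) =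
      residue A ⟨(w : LaurentSeries ℚbar).coeff i, mem_intSeries_iff.mp hint i⟩ := by
  change (redF (residue A) (ιB F₀) w).coeff i = _
  rw [redF_of_mem hint, redHom_coeff]
  rfl

/-- A finite set of exponents separates the reduced sections. -/
theorem exists_separates (Q : Place (ResidueField A) (specField (residue A) (ιB F₀))) (n : ℕ) :
    ∃ S : Finset ℤ, ∀ z ∈ riemannRochSpace (Finsupp.single Q (n : ℤ)),
      (∀ i ∈ S, redCoeff (A := A) (F₀ := F₀) i z = 0) → z = 0 := by
  obtain ⟨S, -, hS⟩ := exists_separating_finset (redCoeff (A := A) (F₀ := F₀))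
    (fun z hz => Subtype.ext (HahnSeries.ext (funext fun i => hz i)))
    (riemannRochSpace (Finsupp.single Q (n : ℤ)))
  exact ⟨S, hS⟩

variable {S : Finset ℤ} (hS : ∀ z ∈ riemannRochSpace (Finsupp.single (r (cuspPt hx)) (n : ℤ)),
  (∀ i ∈ S, redCoeff (A := A) (F₀ := F₀) i z = 0) → z = 0)

include h hn hn' hr hS in
/-- The separating coefficients detect integrality. -/
theorem int_of_separates {w : FB F₀} (hw : w ∈ LVn hx n) (hwS : ∀ i, coeffsAt F₀ S w i ∈ A) :
    ιB F₀ w ∈ intSeries A ∧ redS (residue A) (ιB F₀) w ∈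
      riemannRochSpace (Finsupp.single (r (cuspPt hx)) (n : ℤ)) := by
  rcases eq_or_ne w 0 with rfl | hw0
  · exact ⟨by rw [map_zero]; exact zero_mem _, by rw [redS_zero]; exact zero_mem _⟩
  obtain ⟨c, w', hc, hw', e, hS', hL⟩ := exists_scale_section h hn hn' hx hr hw hw0
  obtain ⟨i, hi, hne⟩ : ∃ i ∈ S,
      redCoeff (A := A) (F₀ := F₀) i (redS (residue A) (ιB F₀) w') ≠ 0 := by
    by_contra! hall
    exact hS' (hS _ hL hall)
  have hint := h.int_chart w' hw'
  rw [redCoeff_redS hint] at hne
  obtain ⟨u, hu⟩ := (residue_ne_zero_iff_isUnit _).mp hne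
  have h1 : (w : LaurentSeries ℚbar).coeff i = c * ((u : A) : ℚbar) := by
    rw [e, coeff_algebraMap_mul, hu]
  have hcA : c ∈ A := by
    have h2 : c = (w : LaurentSeries ℚbar).coeff i * (((u⁻¹ : Aˣ) : A) : ℚbar) := by
      rw [h1, mul_assoc, ← MulMemClass.coe_mul, Units.mul_inv, OneMemClass.coe_one, mul_one]
    rw [h2]
    exact mul_mem (hwS ⟨i, hi⟩) (SetLike.coe_mem _)
  refine ⟨by rw [e, map_mul]; exact mul_mem (h.int_algebraMap hcA) hint, ?_⟩
  rw [e, redS_mul (h.int_algebraMap hcA) hint, h.redS_algebraMap hcA, ← Algebra.smul_def]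
  exact Submodule.smul_mem _ _ hL

include h hn hn' hr hS in
/-- The separating coefficients separate the sections. -/
theorem inj_of_separates {w : FB F₀} (hw : w ∈ LVn hx n) (h0 : coeffsAt F₀ S w = 0) : w = 0 := by
  by_contra hw0
  obtain ⟨c, w', hc, hw', e, hS', hL⟩ := exists_scale_section h hn hn' hx hr hw hw0
  refine hS' (hS _ hL fun i hi => ?_)
  rw [redCoeff_redS (h.int_chart w' hw')]
  have h1 := congrFun h0 ⟨i, hi⟩
  change (w : LaurentSeries ℚbar).coeff i = 0 at h1
  rw [e, coeff_algebraMap_mul, mul_eq_zero, or_iff_right hc] at h1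
  simp only [h1]
  exact map_zero _

include h hn hn' hr hS in
/-- Fixed integral bases of the sections. -/
theorem exists_basis (hn2 : 2 * genusFF ℚbar (FB F₀) ≤ n) :
    ∃ b : Idx (genusFF ℚbar (FB F₀)) n → FB F₀,
      (∀ i, b i ∈ LVn hx n ∧ ιB F₀ (b i) ∈ intSeries A ∧
        redS (residue A) (ιB F₀) (b i) ∈
          riemannRochSpace (Finsupp.single (r (cuspPt hx)) (n : ℤ))) ∧
      (∀ (σ : Γℚ) i, galF F₀ σ • b i = b i) ∧
      LinearIndependent ℚbar b ∧
      LinearIndependent (ResidueField A) fun i => redS (residue A) (ιB F₀) (b i) := by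
  classical
  set W : Submodule ℚbar (S → ℚbar) := (LVn hx n).map (coeffsAt F₀ S)
  -- the coefficient vectors span a stable space of Riemann-Roch dimension
  have hWd : Module.finrank ℚbar W = n + 1 - genusFF ℚbar (FB F₀) := by
    have hdeg : Divisor.degree (Finsupp.single (cuspPt hx) (n : ℤ)) = n := by
      rw [Divisor.degree_single, FF.deg_eq_one]
      simp
    have h1 := FF.ell_of_degree_ge (D := Finsupp.single (cuspPt hx) (n : ℤ)) (by rw [hdeg]; omega)
    rw [hdeg] at h1
    have h2 : Module.finrank ℚbar W = FF.ell (Finsupp.single (cuspPt hx) (n : ℤ)) := by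
      refine (LinearEquiv.finrank_eq (LinearEquiv.ofBijective
        (((coeffsAt F₀ S).domRestrict (LVn hx n)).codRestrict W
          fun w => ⟨w, w.2, rfl⟩) ⟨?_, ?_⟩)).symm
      · rw [← LinearMap.ker_eq_bot, Submodule.eq_bot_iff]
        exact fun w hw => Subtype.ext (inj_of_separates h hn hn' hx hr hS w.2
          (congrArg Subtype.val (LinearMap.mem_ker.mp hw)))
      · rintro ⟨_, w, hw, rfl⟩
        exact ⟨⟨w, hw⟩, rfl⟩
    omega
  have hWσ : ∀ σ : Γℚ, ∀ c ∈ W, (fun j => (σ : ℚbar →+* ℚbar) (c j)) ∈ W := by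
    rintro σ _ ⟨w, hw, rfl⟩
    exact ⟨_, smul_mem_cusp hx σ hw, funext fun j => coeff_smul_eq F₀ σ w j⟩
  obtain ⟨v, hv, hvfix, hvind⟩ :=
    exists_fixed_integral_basis (A := A) (fun σ : Γℚ => (σ : ℚbar →+* ℚbar)) W hWσ
  -- lift a fixed integral basis of it to functions
  choose b hb hbv using fun i : Idx (genusFF ℚbar (FB F₀)) n => hv (finCongr hWd.symm i)
  have hbint := fun i => int_of_separates h hn hn' hx hr hS (hb i) fun j => by
    rw [hbv]; exact SetLike.coe_mem _
  refine ⟨b, fun i => ⟨hb i, hbint i⟩, fun σ i => ?_, ?_, ?_⟩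
  · refine sub_eq_zero.mp (inj_of_separates h hn hn' hx hr hS
      (sub_mem (smul_mem_cusp hx σ (hb i)) (hb i)) (funext fun j => ?_))
    rw [map_sub, Pi.sub_apply, Pi.zero_apply, sub_eq_zero]
    change ((galF F₀ σ • b i : FB F₀) : LaurentSeries ℚbar).coeff j = _
    rw [coeff_smul_eq, show (b i : LaurentSeries ℚbar).coeff j = _ from congrFun (hbv i) j]
    exact (hvfix σ _ j).trans (congrFun (hbv i) j).symm
  · refine LinearIndependent.of_comp (coeffsAt F₀ S) ?_
    rw [show (⇑(coeffsAt F₀ S) ∘ b) = fun i j => (v (finCongr hWd.symm i) j : ℚbar) from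
      funext hbv]
    exact (linearIndependent_of_residue hvind).comp _ (finCongr hWd.symm).injective
  · refine LinearIndependent.of_comp
      (LinearMap.pi fun j : S => redCoeff (A := A) (F₀ := F₀) (j : ℤ)) ?_
    rw [show (⇑(LinearMap.pi fun j : S => redCoeff (A := A) (F₀ := F₀) (j : ℤ)) ∘
        fun i => redS (residue A) (ιB F₀) (b i)) =
        fun i j => residue A (v (finCongr hWd.symm i) j) from funext fun i => funext fun j =>
      (redCoeff_redS (hbint i).1 _).trans
        (congrArg (residue A) (Subtype.ext (congrFun (hbv i) j)))]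
    exact hvind.comp _ (finCongr hWd.symm).injective

include h hn hn' hx hr in
/-- **Good models give curves with good reduction along a given reduction of places, with rational
bases at the cusp.** -/
theorem exists_intCurve_red :
    ∃ C : IntCurve A (FB F₀) (specField (residue A) (ιB F₀)) (genusFF ℚbar (FB F₀)),
      RatAct C (galF F₀) ∧ C.red = r := by
  classical
  -- a separating set and a rational integral basis in each degree `≥ 2 g`
  choose S hS using fun n => exists_separates (A := A) (r (cuspPt hx)) n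
  have hex : ∀ n, ∃ b : Idx (genusFF ℚbar (FB F₀)) n → FB F₀, 2 * genusFF ℚbar (FB F₀) ≤ n →
      (∀ i, b i ∈ LVn hx n ∧ ιB F₀ (b i) ∈ intSeries A ∧
        redS (residue A) (ιB F₀) (b i) ∈
          riemannRochSpace (Finsupp.single (r (cuspPt hx)) (n : ℤ))) ∧
      (∀ (σ : Γℚ) i, galF F₀ σ • b i = b i) ∧
      LinearIndependent ℚbar b ∧
      LinearIndependent (ResidueField A) fun i => redS (residue A) (ιB F₀) (b i) := by
    intro n
    by_cases hn2 : 2 * genusFF ℚbar (FB F₀) ≤ n
    · exact (exists_basis h hn hn' hx hr (hS n) hn2).imp fun b hb _ => hb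
    · exact ⟨fun _ => 0, fun h2 => absurd h2 hn2⟩
  choose b hb using hex
  -- the curve: these bases at the cusp, the reduction `r`, and Gauss values
  refine ⟨
    { base := ⟨cuspPt hx, rfl, b, fun n hn2 i => ((hb n hn2).1 i).1, fun n hn2 => (hb n hn2).2.2.1⟩
      spec := ⟨r (cuspPt hx), h.genus_eq_of_normal hn hn',
        fun n i => redS (residue A) (ιB F₀) (b n i),
        fun n hn2 i => ((hb n hn2).1 i).2.2, fun n hn2 => (hb n hn2).2.2.2⟩
      red := r
      red_surj := h.surjective_of_isReduction hn hn' hr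
      red_pt := rfl
      ring := gInt (residue A) (ιB F₀)
      const_mem := fun a => h.algebraMap_mem_gInt a.2
      gv :=
        { toFun := fun f => gVal (residue A) (ιB F₀) f
          map_one' := gVal_one
          map_mul' := fun f f' => gVal_mul f.2 f'.2
          map_zero' := gVal_zero
          map_add' := fun f f' => gVal_add f.2 f'.2 }
      gv_const := fun a => h.gVal_algebraMap a.2
      b_mem_ring := fun n hn2 i => mem_gInt_of_int ((hb n hn2).1 i).2.1
      gv_b := fun n hn2 i => gVal_of_int ((hb n hn2).1 i).2.1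
      div_gv := fun f D hD hf Q => ?_ },
    ⟨fun σ a => rfl, smul_cuspPt hx, fun σ i => (hb _ (by omega)).2.1 σ i⟩, rfl⟩
  -- Gauss values commute with divisors, as `r` is the reduction of places
  obtain rfl : D = FF.divOf ℚbar (f : FB F₀) :=
    Finsupp.ext fun P => (hD P).trans (FF.divOf_apply _ P).symm
  rw [h.mapDomain_divOf_gVal hn hn' hr f.2 hf, FF.divOf_apply]
  rfl

/-- **Good models give models of finite modules of classes.** -/
theorem nonempty_model_of_goodModel {p : ℕ} [Fact p.Prime] (hA : Fermat.EC.Val.IsPlace A p)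
    (h : GoodModel (residue A) (ιB F₀) x d) (hn : Fermat.RED.Model.Normal A (residue A) (ιB F₀) x)
    (hn' : Fermat.RED.Model.Normal A (residue A) (ιB F₀) x⁻¹)
    (hx : (x : LaurentSeries ℚbar).order = -1)
    {M : Type*} [AddCommGroup M] [Finite M] {τ : Type*} [Finite τ]
    (gM : Γℚ →* AddMonoid.End M) (f : τ → M →+ Pic0 ℚbar (FB F₀))
    (hf : ∀ t σ m, f t (gM σ m) = σ • f t m) (hinj : ∀ m, (∀ t, f t m = 0) → m = 0) :
    Nonempty (Fermat.FLAT.Model A (⊤ : Subgroup Γℚ) (fun σ => gM σ)) := by
  obtain ⟨r, hr⟩ := h.exists_isReduction hn hn'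
  obtain ⟨C, hC, -⟩ := exists_intCurve_red h hn hn' hx hr
  exact nonempty_model C hA hC gM f hf hinj

/-- **Good models give models**, in which the points with vanishing reduction are connected. -/
theorem exists_model_of_goodModel {p : ℕ} [Fact p.Prime] (hA : Fermat.EC.Val.IsPlace A p)
    (h : GoodModel (residue A) (ιB F₀) x d) (hn : Fermat.RED.Model.Normal A (residue A) (ιB F₀) x)
    (hn' : Fermat.RED.Model.Normal A (residue A) (ιB F₀) x⁻¹)
    (hx : (x : LaurentSeries ℚbar).order = -1)
    (hr : IsReduction A (residue A) (ιB F₀) x r)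
    (χ : Pic0 ℚbar (FB F₀) →+ Pic0 (ResidueField A) (specField (residue A) (ιB F₀)))
    (hχ : ∀ D : Divisor.degZero (K := ℚbar) (F := FB F₀),
      ∃ h₀, χ (Pic0.mk D) = Pic0.mk ⟨Finsupp.mapDomain r (D : Divisor ℚbar (FB F₀)), h₀⟩)
    {M : Type*} [AddCommGroup M] [Finite M] {τ : Type*} [Finite τ]
    (gM : Γℚ →* AddMonoid.End M) (f : τ → M →+ Pic0 ℚbar (FB F₀))
    (hf : ∀ t σ m, f t (gM σ m) = σ • f t m) (hinj : ∀ m, (∀ t, f t m = 0) → m = 0) :
    ∃ G : Fermat.FLAT.Model A (⊤ : Subgroup Γℚ) (fun σ => gM σ),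
      ∀ m, (∀ t, χ (f t m) = 0) → m ∈ G.conn hA := by
  obtain ⟨C, hC, hCr⟩ := exists_intCurve_red h hn hn' hx hr
  obtain ⟨G, hG⟩ := exists_model C hA hC gM f hf hinj
  refine ⟨G, hG χ fun D => ?_⟩
  obtain ⟨h₀, e⟩ := hχ ⟨D - Finsupp.single C.base.pt (Divisor.degree D), by
    rw [Divisor.mem_degZero, map_sub, Divisor.degree_single, FF.deg_eq_one]
    simp⟩
  refine e.trans (congrArg Pic0.mk (Subtype.ext ?_))
  change Finsupp.mapDomain r (D - _) = C.redD D -
      Finsupp.single C.spec.pt (Divisor.degree (C.redD D))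
  rw [Finsupp.mapDomain_sub, Finsupp.mapDomain_single, C.degree_redD, ← C.red_pt, C.redD_apply, hCr]

end Fermat.RED.Flat
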