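import Fermat.Agent.RED.Flat.Traces
import Fermat.Agent.RED.Flat.Instance
import Fermat.Agent.RED.Full.Eichler
import Fermat.Agent.RED.Full.Spec
import Fermat.Agent.GR.RT.Inputs
import Fermat.Agent.GR.RT.Points

/-!
# Representations of eigen systems of `Γ_H(K)` are flat at `p ∤ K`

`flatInput` proves `FlatInput p` (`GR/RT/Inputs`) for modularity lifting and lowering.
By good reduction (`RED/Full/Spec`), finite Galois modules of classes on `X_H(K)` have models at `p`
(`Instance`).  If the residual image of the attached representation spans all matrices, the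
combinations of Galois elements killing enough torsion of the Jacobian are small in it
(`exists_comboMat_mem`), so it is flat (`isFlatAt_of_annihilator`).
-/

set_option autoImplicit false

noncomputable section

open AlgebraicCurve IsLocalRing Fermat.RED.Model

namespace Fermat.RED.Flat

local notation "ℚbar" => AlgebraicClosure ℚ

open Fermat.MC

/-- **Finite Galois modules of classes on `X_H(N)` have models at `p ∤ N`.** -/
theorem hasModels_gammaH {N : ℕ} [NeZero N] {H : Subgroup (ZMod N)ˣ} [Lvl.NegMem H] {p : ℕ}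
    [Fact p.Prime] (hpN : ¬ p ∣ N) {A : ValuationSubring ℚbar} (hA : Fermat.EC.Val.IsPlace A p) :
    HasModels A (Pic0 ℚbar (Lvl.FL (Lvl.GammaH N H) ℚbar)) := by
  intro M _ _ τ _ gM f hf hinj
  have := isAlgClosed_residue A
  have hπ : Function.Surjective (residue A) := residue_surjective
  have hN : (N : ResidueField A) ≠ 0 := natCast_ne_zero_residue A hA.1 hA.2 hpN
  obtain ⟨h, hn, hn'⟩ :=
    Fermat.RED.Full.goodModel_normal_GammaH (H := H) Fermat.JAC.X0.embC hπ hN
  have := h.toPreModel.isFunctionField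
  have := h.toPreModel.isFunctionField_spec
  exact nonempty_model_of_goodModel (F₀ := Lvl.FQ (Lvl.GammaH N H)) hA h hn hn'
    (Fermat.MC.order_coeffEmb_jq ℚbar) gM f hf hinj

open Fermat.GR Fermat.GR.RT MvPolynomial in
/-- **`FlatInput p`**: good reduction at `p`, for representations whose residual image spans all
matrices. -/
theorem flatInput (p : ℕ) [Fact p.Prime] : FlatInput p := by
  classical
  intro K _ H hneg hpK _ O _ _ _ _ _ _ hpO x hx r hr hres
  have hp : p.Prime := Fact.out
  have : Lvl.NegMem H := ⟨hneg⟩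
  obtain ⟨f, rfl⟩ := IsPoint.exists_factor K H hx
  obtain ⟨A, hA⟩ := Fermat.CFT.exists_place hp
  have hb : matOf (repOf r hr.cont) (Pi.basisFun O (Fin 2)) = r :=
    MonoidHom.ext fun σ => toMatrix_repOf r hr.cont σ
  refine isFlatAt_of_annihilator (repOf r hr.cont) inferInstance (Pi.basisFun O (Fin 2))
    (A := A) ⟨hp, hA⟩ (hasModels_gammaH (H := H) hpK ⟨hp, hA⟩) (fun M => ?_) fun n => ?_
  · have := Fermat.JAC.finite_torsion (K := ℚbar) (F := Lvl.FL (Lvl.GammaH K H) ℚbar) (p ^ M)
      (pow_ne_zero M hp.ne_zero)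
    refine (Set.toFinite (Pic0.torsion ℚbar (Lvl.FL (Lvl.GammaH K H) ℚbar) (p ^ M) :
      Set (Pic0 ℚbar (Lvl.FL (Lvl.GammaH K H) ℚbar)))).subset fun y hy => Pic0.mem_torsion.2 ?_
    rw [natCast_zsmul]
    exact hy
  -- combinations killing the torsion are small: compare traces at Frobenius elements
  rw [hb]
  refine exists_comboMat_mem (Fermat.RED.Full.esData K H p)
    (RingHom.id (Fermat.JAC.XH.heckeGens K H).R) f Function.injective_id hpO hr.cont
    (span_eq_top_of_residue hres) (K * p).primeFactors (fun ℓ hℓ hℓS => ?_) n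
  have hℓKp : ¬ ℓ ∣ K * p := fun h => hℓS (Nat.mem_primeFactors.mpr
    ⟨hℓ, h, mul_ne_zero (NeZero.ne K) hp.ne_zero⟩)
  refine ⟨hℓKp, Fermat.JAC.XH.tES K H ℓ, ℓ * Fermat.JAC.XH.epsES K H ℓ, rfl, rfl,
    fun B hB φ hφ => ?_⟩
  obtain ⟨ht, hd⟩ := hr.frobenius ℓ hℓ hℓKp B hB φ hφ
  have hcop : ℓ.Coprime K := hℓ.coprime_iff_not_dvd.mpr fun h => hℓKp (h.mul_right p)
  have he : eVal (f.comp (Fermat.JAC.XH.ringEval K H)) ℓ = f (Fermat.JAC.XH.epsES K H ℓ) := by
    rw [eVal, dif_pos hcop, RingHom.comp_apply, Fermat.JAC.XH.ringEval_inr,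
      Fermat.JAC.XH.epsES, dif_pos hcop]
  have htv : tVal (f.comp (Fermat.JAC.XH.ringEval K H)) ℓ = f (Fermat.JAC.XH.tOp K H ⟨ℓ, hℓ⟩) := by
    rw [tVal, dif_pos hℓ, RingHom.comp_apply, Fermat.JAC.XH.ringEval_inl]
  refine ⟨?_, ?_⟩
  · rw [ht, htv, he, Fermat.JAC.XH.tES, dif_pos hℓ, map_mul]
  · rw [hd, he, map_mul, map_natCast]

end Fermat.RED.Flat
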