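import Fermat.Agent.RED.Flat.GammaH

/-!
# Models of modules of classes on `X_H(N)` and the Eichler congruence at the place

The models at `p ∤ N` can be chosen so that the points with vanishing reduction are connected, and
`φ² - T_p⟨p⟩ φ + p⟨p⟩` has vanishing reduction for a Frobenius `φ` at the place.
-/

set_option autoImplicit false

attribute [local instance 10000] SubalgebraClass.toAlgebra HahnSeries.powerSeriesAlgebra

noncomputable section

open AlgebraicCurve IsLocalRing Fermat.RED.Model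

namespace Fermat.RED.Flat

local notation "ℚbar" => AlgebraicClosure ℚ
local notation "Γℚ" => (AlgebraicClosure ℚ ≃ₐ[ℚ] AlgebraicClosure ℚ)

section Def

variable {p : ℕ} [Fact p.Prime] {A : ValuationSubring ℚbar}

/-- Models in which the points with all coordinates in `Z` are connected. -/
def HasModelsConn (hA : Fermat.EC.Val.IsPlace A p) {J : Type} [AddCommGroup J]
    [DistribMulAction (AlgebraicClosure ℚ ≃ₐ[ℚ] AlgebraicClosure ℚ) J] (Z : AddSubgroup J) :
    Prop :=
  ∀ (M : Type) [AddCommGroup M] [Finite M] (τ : Type) [Finite τ]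
    (gM : Γℚ →* AddMonoid.End M) (f : τ → M →+ J),
    (∀ t σ m, f t (gM σ m) = σ • f t m) → (∀ m, (∀ t, f t m = 0) → m = 0) →
    ∃ G : Fermat.FLAT.Model A (⊤ : Subgroup Γℚ) (fun σ => gM σ),
      ∀ m, (∀ t, f t m ∈ Z) → m ∈ G.conn hA

end Def

open Fermat.MC Fermat.JAC.XH Fermat.RED.Full
open Fermat.JAC.X0 (Qbar embC)

variable {N : ℕ} [NeZero N] {H : Subgroup (ZMod N)ˣ} [Lvl.NegMem H]

local notation "JH" => Pic0 Qbar (Lvl.FL (Lvl.GammaH N H) Qbar)

/-- **Models and the congruence relation at `p ∤ N`.** -/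
theorem exists_hasModelsConn_gammaH {p : ℕ} [hp : Fact p.Prime] (hpN : ¬ p ∣ N)
    {A : ValuationSubring ℚbar} (hA : Fermat.EC.Val.IsPlace A p) :
    ∃ Z : AddSubgroup JH, HasModelsConn hA Z ∧
      ∀ σ : Γℚ, A.IsFrobeniusAt σ p → ∀ c : JH,
        σ • σ • c - (heckeGens N H).act (tES N H p) (σ • c) +
          p • (heckeGens N H).act (epsES N H p) c ∈ Z := by
  have := isAlgClosed_residue A
  have hπ : Function.Surjective (residue A) := residue_surjective
  have hNk : (N : ResidueField A) ≠ 0 := natCast_ne_zero_residue A hA.1 hA.2 hpN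
  obtain ⟨h, hn, hn'⟩ := goodModel_normal_GammaH (H := H) embC hπ hNk
  have := h.toPreModel.isFunctionField
  have := h.toPreModel.isFunctionField_spec
  obtain ⟨r, hr⟩ := h.exists_isReduction hn hn'
  let R : RedData N H A := ⟨r, isSeriesReduction_of_isReduction h hn hn' hr, h⟩
  refine ⟨R.isRed.classMap.ker, fun M _ _ τ _ gM f hf hinj => ?_, fun σ hσ c => ?_⟩
  · obtain ⟨G, hG⟩ := exists_model_of_goodModel (F₀ := Lvl.FQ (Lvl.GammaH N H)) hA h hn hn'
      (order_coeffEmb_jq ℚbar) hr R.isRed.classMap (fun D => ⟨_, R.isRed.classMap_mk D⟩)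
      gM f hf hinj
    exact ⟨G, fun m hm => hG m fun t => hm t⟩
  · exact AddMonoidHom.mem_ker.mpr (R.classMap_congruence hp.out hpN hA.2 hσ c)

end Fermat.RED.Flat
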