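import Fermat.Agent.RED.Flat.Traces
import Fermat.Agent.RED.Flat.OrdGamma
import Fermat.Agent.FLAT.Ordinary
import Mathlib.Algebra.MonoidAlgebra.Lift

/-!
# Connected parts from annihilators in the group ring over the Hecke ring

When the combinations of Galois elements with Hecke coefficients killing a finite stable set of `J`
kill a finite module `V`, the latter has a model in which the images of the combinations sending
that set into `Z` are connected.  The hypothesis holds for representations with the same traces.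
-/

set_option autoImplicit false
set_option linter.unusedSectionVars false

noncomputable section

open Fermat.EC.Val Fermat.GR

namespace Fermat.RED.Flat

local notation "ℚbar" => AlgebraicClosure ℚ
local notation "Γℚ" => (AlgebraicClosure ℚ ≃ₐ[ℚ] AlgebraicClosure ℚ)

variable {p : ℕ} [hp : Fact p.Prime] {A : ValuationSubring ℚbar}
variable {J : Type} [AddCommGroup J]
  [DistribMulAction (AlgebraicClosure ℚ ≃ₐ[ℚ] AlgebraicClosure ℚ) J]

/-- **Models and connected points from annihilators.** -/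
theorem exists_model_conn_of_annihilator (hA : IsPlace A p) {Z : AddSubgroup J}
    (hJ : HasModelsConn hA Z) {S : Type} [Ring S] (Ψ : S →+* AddMonoid.End J) (ι : Γℚ →* S)
    (hΨ : ∀ σ x, Ψ (ι σ) x = σ • x) {W : Set J} (hW : W.Finite)
    (hWs : ∀ c : S, ∀ x ∈ W, Ψ c x ∈ W) {V : Type} [AddCommGroup V] [Finite V]
    (Φ : S →+* AddMonoid.End V) (hkill : ∀ c : S, (∀ x ∈ W, Ψ c x = 0) → Φ c = 0) :
    ∃ G : Fermat.FLAT.Model A (⊤ : Subgroup Γℚ) (fun σ => Φ (ι σ)),
      ∀ q : S, (∀ x ∈ W, Ψ q x ∈ Z) → ∀ v, Φ q v ∈ G.conn hA := by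
  have : Finite W := hW
  obtain ⟨M, _, _, gM, f, π, hf, hinj, hsurj, heq, hcov⟩ := exists_cover_of_annihilator
    (fun σ c => ι σ * c) 1 Ψ.toAddMonoidHom (fun σ c x => by
      change Ψ (ι σ * c) x = σ • Ψ c x
      rw [map_mul]
      exact hΨ σ _)
    hW hWs (Φ.toMonoidHom.comp ι) Φ.toAddMonoidHom (fun σ c => map_mul Φ _ _) (map_one Φ) hkill
  obtain ⟨G, hG⟩ := hJ M (V × W) gM f hf hinj
  have heq' : ∀ σ ∈ (⊤ : Subgroup Γℚ), ∀ m, π (gM σ m) = Φ (ι σ) (π m) := fun σ _ => heq σ
  -- an element carrying `W` into `Z` carries `V` into the connected part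
  refine ⟨G.quot hA π hsurj heq', fun q hq v => ?_⟩
  obtain ⟨m, hm, hmem⟩ := hcov q v
  rw [show Φ q v = π m from hm.symm]
  refine G.conn_quot π hsurj heq' hA (hG _ fun t => ?_)
  rcases hmem t with h | h <;> rw [h]
  exacts [Z.zero_mem, hq _ t.2.2]

section Hecke

variable {R O : Type} [CommRing R] [Module.Free ℤ R] [Module.Finite ℤ R] [CommRing O]
  [IsLocalRing O] {K : ℕ} {T ε : ℕ → R} (D : ESData R J K p T ε)

/-- The action of the group ring over the Hecke ring. -/
def heckeCombo : MonoidAlgebra R Γℚ →+* AddMonoid.End J :=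
  MonoidAlgebra.liftNCRingHom D.act (galEnd J) fun t σ =>
    AddMonoidHom.ext fun x => (D.galois_act σ t x).symm

/-- The action of a single term. -/
theorem heckeCombo_single (σ : Γℚ) (t : R) (x : J) :
    heckeCombo D (MonoidAlgebra.single σ t) x = D.act t (σ • x) := by
  rw [heckeCombo, MonoidAlgebra.liftNCRingHom_single]
  rfl

/-- `heckeCombo` as a sum. -/
theorem heckeCombo_apply (c : MonoidAlgebra R Γℚ) (x : J) :
    heckeCombo D c x = ∑ σ ∈ c.coeff.support, D.act (c.coeff σ) (σ • x) := by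
  conv_lhs => rw [← MonoidAlgebra.sum_coeff_single c]
  rw [Finsupp.sum, map_sum]
  refine (AddMonoidHom.finsetSum_apply _ _ _).trans ?_
  exact Finset.sum_congr rfl fun σ _ => heckeCombo_single D σ _ x

variable (π : R →+* O) (r : Γℚ →* Matrix (Fin 2) (Fin 2) O)

/-- The combination of matrices with coefficients through an eigen system. -/
def heckeMat : MonoidAlgebra R Γℚ →+* Matrix (Fin 2) (Fin 2) O :=
  MonoidAlgebra.liftNCRingHom ((Matrix.scalar (Fin 2)).comp π) r fun t σ =>
    Matrix.scalar_commute (π t) (fun _ => Commute.all _ _) (r σ)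

/-- The matrix of a single term. -/
theorem heckeMat_single (σ : Γℚ) (t : R) :
    heckeMat π r (MonoidAlgebra.single σ t) = π t • r σ := by
  rw [heckeMat, MonoidAlgebra.liftNCRingHom_single, RingHom.comp_apply, Matrix.scalar_apply,
    ← Matrix.smul_one_eq_diagonal, smul_mul_assoc, one_mul]

/-- `heckeMat` as a sum. -/
theorem heckeMat_apply (c : MonoidAlgebra R Γℚ) :
    heckeMat π r c = ∑ σ ∈ c.coeff.support, π (c.coeff σ) • r σ := by
  conv_lhs => rw [← MonoidAlgebra.sum_coeff_single c]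
  rw [Finsupp.sum, map_sum]
  exact Finset.sum_congr rfl fun σ _ => heckeMat_single π r σ _

include D in
/-- **Annihilators with Hecke coefficients kill spanning representations with the same traces.** -/
theorem exists_heckeMat_mem (hpO : (p : O) ∈ IsLocalRing.maximalIdeal O) (hr : MatCont r)
    (hspan : Submodule.span O (Set.range r) = ⊤) (S : Finset ℕ)
    (hfrob : ∀ ℓ : ℕ, ℓ.Prime → ℓ ∉ S → ¬ ℓ ∣ K * p ∧
      ∀ A : ValuationSubring ℚbar, A.LiesOverPrime ℓ → ∀ φ : Γℚ, A.IsFrobeniusAt φ ℓ →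
        (r φ).trace = π (T ℓ) ∧ (r φ).det = π (ℓ * ε ℓ)) (n : ℕ) :
    ∃ M : ℕ, ∀ c : MonoidAlgebra R Γℚ, (∀ x : J, p ^ M • x = 0 → heckeCombo D c x = 0) →
      ∀ a b, heckeMat π r c a b ∈ IsLocalRing.maximalIdeal O ^ n := by
  classical
  obtain ⟨M, hM⟩ := exists_trace_sum_mem D (RingHom.id R) π (fun _ _ h => h) hpO hr S
    (fun ℓ hℓ hℓS => ⟨(hfrob ℓ hℓ hℓS).1, T ℓ, ℓ * ε ℓ, rfl, rfl, (hfrob ℓ hℓ hℓS).2⟩) n
  refine ⟨M, fun c hc => entries_mem_of_trace_mul_mem hspan fun g => ?_⟩
  rw [show r g * heckeMat π r c = heckeMat π r (MonoidAlgebra.single g 1 * c) by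
    rw [map_mul, heckeMat_single, map_one, one_smul], heckeMat_apply]
  refine hM _ _ fun x hx => (heckeCombo_apply D _ x).symm.trans ?_
  rw [map_mul]
  change heckeCombo D (MonoidAlgebra.single g 1) (heckeCombo D c x) = 0
  rw [hc x hx, map_zero]

end Hecke

end Fermat.RED.Flat
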