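import Fermat.Agent.FLAT.Curve.Flat
import Fermat.Agent.GR.Deform.MatrixRep
import Mathlib.Data.Finsupp.Basic

/-!
# Flatness from annihilators in the group ring

If a Galois module `J` is such that finite modules mapping equivariantly and jointly injectively to
it have models (`HasModels`), then so has every finite module `V` killed by the combinations of
Galois elements which kill a finite stable set of `J`; hence `isFlatAt_of_annihilator`, the
criterion applied to representations of eigen systems in `GammaH` and `HeckeFlat`.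
-/

set_option autoImplicit false

noncomputable section

open Fermat.EC.Val

namespace Fermat.RED.Flat

local notation "ℚbar" => AlgebraicClosure ℚ
local notation "Γℚ" => (AlgebraicClosure ℚ ≃ₐ[ℚ] AlgebraicClosure ℚ)

variable {p : ℕ} [hp : Fact p.Prime] {A : ValuationSubring ℚbar}
variable {J : Type} [AddCommGroup J]
  [DistribMulAction (AlgebraicClosure ℚ ≃ₐ[ℚ] AlgebraicClosure ℚ) J]

/-- Finite modules mapping jointly injectively to `J` have models at `A`. -/
def HasModels (A : ValuationSubring ℚbar) (J : Type) [AddCommGroup J]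
    [DistribMulAction (AlgebraicClosure ℚ ≃ₐ[ℚ] AlgebraicClosure ℚ) J] : Prop :=
  ∀ (M : Type) [AddCommGroup M] [Finite M] (τ : Type) [Finite τ]
    (gM : Γℚ →* AddMonoid.End M) (f : τ → M →+ J),
    (∀ t σ m, f t (gM σ m) = σ • f t m) → (∀ m, (∀ t, f t m = 0) → m = 0) →
    Nonempty (Fermat.FLAT.Model A (⊤ : Subgroup Γℚ) (fun σ => gM σ))

section Combination

variable {X : Type} [AddCommGroup X]

/-- The endomorphism given by a combination of Galois elements. -/
def comboHom (g : Γℚ →* AddMonoid.End X) : (Γℚ →₀ ℤ) →+ AddMonoid.End X :=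
  Finsupp.liftAddHom fun σ => (zmultiplesHom (AddMonoid.End X) (g σ))

/-- The value of `comboHom` at a single element. -/
theorem comboHom_single (g : Γℚ →* AddMonoid.End X) (σ : Γℚ) (z : ℤ) :
    comboHom g (Finsupp.single σ z) = z • g σ := by
  simp [comboHom]

/-- `comboHom` as a sum over the combination. -/
theorem comboHom_apply (g : Γℚ →* AddMonoid.End X) (c : Γℚ →₀ ℤ) (x : X) :
    comboHom g c x = c.sum fun σ z => z • g σ x := by
  induction c using Finsupp.induction with
  | zero => simp
  | single_add σ z c hσ hz ih =>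
    rw [map_add, comboHom_single, Finsupp.sum_add_index' (fun _ => by simp)
      (fun _ a b => add_smul a b _), Finsupp.sum_single_index (by simp)]
    change (z • g σ) x + comboHom g c x = _
    rw [ih]
    rfl

/-- Translating a combination composes with the translating element. -/
theorem comboHom_mapDomain_mul (g : Γℚ →* AddMonoid.End X) (σ : Γℚ) (c : Γℚ →₀ ℤ) :
    comboHom g (c.mapDomain (σ * ·)) = g σ * comboHom g c := by
  induction c using Finsupp.induction with
  | zero => simp
  | single_add τ z c hτ hz ih =>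
    rw [Finsupp.mapDomain_add, map_add, Finsupp.mapDomain_single, comboHom_single, ih, map_add,
      comboHom_single, map_mul, mul_add, mul_smul_comm]

end Combination

variable (J) in
/-- The Galois action as endomorphisms. -/
def galEnd : Γℚ →* AddMonoid.End J := DistribMulAction.toAddMonoidEnd Γℚ J

/-- **A cover from annihilators.** If the elements of `S` killing a finite stable set `W` of `J`
kill a finite module `V`, then `V` is an equivariant quotient of a finite module `M` mapping jointly
injectively to `J`, and the image of `c` is covered by an element whose images lie in `c W ∪ 0`. -/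
theorem exists_cover_of_annihilator {S : Type} [AddCommGroup S] (tr : Γℚ → S → S) (e : S)
    (Ψ : S →+ AddMonoid.End J) (hΨ : ∀ σ c x, Ψ (tr σ c) x = σ • Ψ c x) {W : Set J}
    (hW : W.Finite) (hWs : ∀ c, ∀ x ∈ W, Ψ c x ∈ W) {V : Type} [AddCommGroup V] [Finite V]
    (gV : Γℚ →* AddMonoid.End V) (Φ : S →+ AddMonoid.End V)
    (hΦ : ∀ σ c, Φ (tr σ c) = gV σ * Φ c) (he : Φ e = 1)
    (hkill : ∀ c, (∀ x ∈ W, Ψ c x = 0) → Φ c = 0) :
    ∃ (M : Type) (_ : AddCommGroup M) (_ : Finite M) (gM : Γℚ →* AddMonoid.End M)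
      (f : V × W → M →+ J) (π : M →+ V),
      (∀ t σ m, f t (gM σ m) = σ • f t m) ∧ (∀ m, (∀ t, f t m = 0) → m = 0) ∧
      Function.Surjective π ∧ (∀ σ m, π (gM σ m) = gV σ (π m)) ∧
      ∀ c v, ∃ m, π m = Φ c v ∧ ∀ t, f t m = 0 ∨ f t m = Ψ c t.2 := by
  classical
  have : Finite W := hW
  let res : S →+ (W → J) :=
    { toFun := fun c x => Ψ c x.1
      map_zero' := by funext x; simp
      map_add' := fun a b => funext fun x => by rw [map_add]; rfl }
  set E : AddSubgroup (W → J) := res.range with hE
  have : Finite E := by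
    refine Finite.of_injective (fun e : E => fun x : W => (⟨e.1 x, ?_⟩ : W)) fun a b h =>
      Subtype.ext (funext fun x => congrArg Subtype.val (congrFun h x))
    obtain ⟨c, hc⟩ := e.2
    rw [← hc]
    exact hWs c _ x.2
  have hEσ : ∀ σ : Γℚ, ∀ e ∈ E, (fun x => σ • e x) ∈ E := by
    rintro σ _ ⟨c, rfl⟩
    exact ⟨tr σ c, funext fun x => hΨ σ c x.1⟩
  have hex : ∀ e : E, ∃ c, res c = e.1 := fun e => e.2
  choose lift hlift using hex
  have hwd : ∀ c (e : E), res c = e.1 → Φ c = Φ (lift e) := by
    intro c e he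
    refine sub_eq_zero.mp ?_
    rw [← map_sub]
    refine hkill _ fun x hx => ?_
    have h1 := congrFun (he.trans (hlift e).symm) ⟨x, hx⟩
    rw [map_sub]
    exact sub_eq_zero.mpr h1
  let Φ' : E →+ AddMonoid.End V :=
    { toFun := fun e => Φ (lift e)
      map_zero' := by
        rw [← hwd 0 0 (map_zero res)]
        exact map_zero _
      map_add' := fun a b => by
        rw [← hwd (lift a + lift b) (a + b) (by rw [map_add, hlift, hlift]; rfl), map_add] }
  let gM : Γℚ →* AddMonoid.End (V → E) :=
    { toFun := fun σ =>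
        { toFun := fun f v => ⟨fun x => σ • (f v).1 x, hEσ σ _ (f v).2⟩
          map_zero' := funext fun v => Subtype.ext (funext fun x => smul_zero σ)
          map_add' := fun a b => funext fun v => Subtype.ext (funext fun x =>
            smul_add σ ((a v).1 x) ((b v).1 x)) }
      map_one' := AddMonoidHom.ext fun f => funext fun v => Subtype.ext (funext fun x =>
        one_smul _ _)
      map_mul' := fun σ τ => AddMonoidHom.ext fun f => funext fun v => Subtype.ext (funext fun x =>
        mul_smul _ _ _) }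
  have := Fintype.ofFinite V
  let π : (V → E) →+ V :=
    { toFun := fun f => ∑ v, Φ' (f v) v
      map_zero' := by simp
      map_add' := fun a b => by
        rw [← Finset.sum_add_distrib]
        exact Finset.sum_congr rfl fun v _ => by rw [Pi.add_apply, map_add]; rfl }
  have hπ : ∀ (c : S) (v₀ : V), π (Pi.single v₀ ⟨res c, ⟨_, rfl⟩⟩) = Φ c v₀ := by
    intro c v₀
    change ∑ v, Φ' _ v = _
    rw [Finset.sum_eq_single v₀]
    · rw [Pi.single_eq_same]
      change Φ (lift _) v₀ = _
      rw [← hwd c _ rfl]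
    · intro v _ hv
      rw [Pi.single_eq_of_ne hv, map_zero]
      rfl
    · simp
  -- `V → E` maps jointly injectively to `J`, and `V` is its quotient
  refine ⟨V → E, inferInstance, inferInstance, gM,
    fun t => { toFun := fun f => (f t.1).1 t.2, map_zero' := rfl, map_add' := fun _ _ => rfl }, π,
    fun _ _ _ => rfl, fun f hf => funext fun v => Subtype.ext (funext fun x => hf (v, x)),
    fun v₀ => ⟨_, (hπ e v₀).trans (by rw [he]; rfl)⟩, fun σ f => ?_,
    fun c v₀ => ⟨_, hπ c v₀, fun t => ?_⟩⟩
  · change ∑ v, Φ' (gM σ f v) v = gV σ (∑ v, Φ' (f v) v)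
    rw [map_sum]
    refine Finset.sum_congr rfl fun v _ => ?_
    have h1 : res (tr σ (lift (f v))) = (gM σ f v).1 := funext fun x => by
      change Ψ (tr σ (lift (f v))) x.1 = σ • (f v).1 x
      rw [hΨ, ← hlift (f v)]
      rfl
    change Φ (lift (gM σ f v)) v = gV σ (Φ (lift (f v)) v)
    rw [← hwd _ _ h1, hΦ]
    rfl
  · change ((Pi.single v₀ (⟨res c, ⟨_, rfl⟩⟩ : E) : V → E) t.1).1 t.2 = 0 ∨
      ((Pi.single v₀ (⟨res c, ⟨_, rfl⟩⟩ : E) : V → E) t.1).1 t.2 = Ψ c t.2
    rcases eq_or_ne t.1 v₀ with h | h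
    · exact Or.inr (by rw [h, Pi.single_eq_same]; rfl)
    · exact Or.inl (by rw [Pi.single_eq_of_ne h]; rfl)

/-- **Models from annihilators.** A finite module killed by what kills a finite stable part of a
group with models has a model. -/
theorem nonempty_model_of_annihilator (hA : IsPlace A p) (hJ : HasModels A J) {W : Set J}
    (hW : W.Finite) (hWg : ∀ c : Γℚ →₀ ℤ, ∀ x ∈ W, comboHom (galEnd J) c x ∈ W)
    {V : Type} [AddCommGroup V] [Finite V] (gV : Γℚ →* AddMonoid.End V)
    (hkill : ∀ c : Γℚ →₀ ℤ, (∀ x ∈ W, comboHom (galEnd J) c x = 0) → comboHom gV c = 0) :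
    Nonempty (Fermat.FLAT.Model A (⊤ : Subgroup Γℚ) (fun σ => gV σ)) := by
  have : Finite W := hW
  obtain ⟨M, _, _, gM, f, π, hf, hinj, hsurj, heq, -⟩ := exists_cover_of_annihilator
    (fun σ c => c.mapDomain (σ * ·)) (Finsupp.single 1 1) (comboHom (galEnd J))
    (fun σ c x => by rw [comboHom_mapDomain_mul]; rfl) hW hWg gV (comboHom gV)
    (fun σ c => comboHom_mapDomain_mul gV σ c)
    (by rw [comboHom_single, map_one, one_smul]) hkill
  obtain ⟨G⟩ := hJ M (V × W) gM f hf hinj
  exact ⟨G.quot hA π hsurj fun σ _ => heq σ⟩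

/-- The combination of matrices. -/
def comboMat {O : Type} [CommRing O] (r : Γℚ →* Matrix (Fin 2) (Fin 2) O) (c : Γℚ →₀ ℤ) :
    Matrix (Fin 2) (Fin 2) O := c.sum fun σ z => z • r σ

/-- **Flatness from annihilators.** A representation killed modulo each `𝔪 ^ n` by what kills some
`p ^ M`-torsion of a group with models is flat at `p`. -/
theorem isFlatAt_of_annihilator {O : Type} [CommRing O] [IsLocalRing O]
    (ρ : GaloisRepAdic O) (hres : Finite (IsLocalRing.ResidueField O))
    (b : Module.Basis (Fin 2) O ρ.V) (hA : IsPlace A p) (hJ : HasModels A J)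
    (hfin : ∀ M : ℕ, {x : J | p ^ M • x = 0}.Finite)
    (hkill : ∀ n : ℕ, ∃ M : ℕ, ∀ c : Γℚ →₀ ℤ,
      (∀ x : J, p ^ M • x = 0 → comboHom (galEnd J) c x = 0) →
      ∀ i j, comboMat (Fermat.GR.matOf ρ b) c i j ∈ IsLocalRing.maximalIdeal O ^ n) :
    ρ.IsFlatAt p := by
  refine Fermat.FLAT.isFlatAt_of_models ρ hres fun I hI => ⟨A, hA, ?_⟩
  -- an ideal of finite index contains a power of the maximal ideal
  obtain ⟨n, hn⟩ : ∃ n, IsLocalRing.maximalIdeal O ^ n ≤ I := by
    rcases eq_or_ne I ⊤ with rfl | hIne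
    · exact ⟨0, le_top⟩
    have := Ideal.Quotient.nontrivial_iff.mpr hIne
    have := IsLocalRing.of_surjective' (Ideal.Quotient.mk I) Ideal.Quotient.mk_surjective
    obtain ⟨n, hn⟩ := IsArtinianRing.isNilpotent_jacobson_bot (R := O ⧸ I)
    refine ⟨n, fun y hy => Ideal.Quotient.eq_zero_iff_mem.mp ?_⟩
    rw [IsLocalRing.jacobson_eq_maximalIdeal ⊥ bot_ne_top] at hn
    have h1 : (IsLocalRing.maximalIdeal O ^ n).map (Ideal.Quotient.mk I) ≤
        IsLocalRing.maximalIdeal (O ⧸ I) ^ n := by
      rw [Ideal.map_pow]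
      refine Ideal.pow_right_mono (Ideal.map_le_iff_le_comap.mpr fun a ha => ?_) n
      have : IsLocalHom (Ideal.Quotient.mk I) :=
        Ideal.Quotient.mk_surjective.isLocalHom
      exact map_nonunit (Ideal.Quotient.mk I) a ha
    have := h1 (Ideal.mem_map_of_mem _ hy)
    rwa [hn] at this
  have : Finite (ρ.V ⧸ (I • (⊤ : Submodule O ρ.V))) := by
    have : Module.Finite (O ⧸ I) (ρ.V ⧸ (I • (⊤ : Submodule O ρ.V))) :=
      Module.Finite.of_restrictScalars_finite O (O ⧸ I) _
    exact Module.finite_of_finite (O ⧸ I)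
  obtain ⟨M, hM⟩ := hkill n
  refine nonempty_model_of_annihilator (W := {x : J | p ^ M • x = 0}) hA hJ (hfin M)
    (fun c x hx => ?_) (Fermat.FLAT.levelHom ρ I) fun c hc => ?_
  · change p ^ M • comboHom (galEnd J) c x = 0
    rw [← map_nsmul, hx, map_zero]
  · refine AddMonoidHom.ext fun y => ?_
    obtain ⟨v, rfl⟩ := Submodule.Quotient.mk_surjective _ y
    refine (comboHom_apply _ c _).trans ?_
    change _ = (0 : ρ.V ⧸ (I • (⊤ : Submodule O ρ.V)))
    have e : (c.sum fun σ z => z • Fermat.FLAT.levelHom ρ I σ (Submodule.Quotient.mk v)) =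
        Submodule.Quotient.mk (c.sum fun σ z => z • ρ.ρ σ v) := by
      rw [Finsupp.sum, Finsupp.sum]
      refine Eq.trans ?_ (map_sum (Submodule.mkQ (I • (⊤ : Submodule O ρ.V))) _ _).symm
      exact Finset.sum_congr rfl fun σ _ => by rw [map_zsmul]; rfl
    rw [e, Submodule.Quotient.mk_eq_zero]
    set w := c.sum fun σ z => z • ρ.ρ σ v
    have hw : ∀ i, b.repr w i ∈ I := fun i => by
      have : b.repr w i = ∑ j, comboMat (Fermat.GR.matOf ρ b) c i j * b.repr v j := by
        simp only [w, comboMat, Finsupp.sum, map_sum, map_zsmul, Finsupp.coe_finsetSum,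
          Finset.sum_apply, Finsupp.coe_smul, Pi.smul_apply, Matrix.sum_apply, Matrix.smul_apply,
          Finset.sum_mul]
        rw [Finset.sum_comm]
        refine Finset.sum_congr rfl fun σ _ => ?_
        have h2 := congrFun (LinearMap.toMatrix_mulVec_repr b b (ρ.ρ σ) v) i
        rw [← h2, Matrix.mulVec, dotProduct, Finset.smul_sum]
        exact Finset.sum_congr rfl fun j _ => (smul_mul_assoc _ _ _).symm
      rw [this]
      exact Ideal.sum_mem _ fun j _ => Ideal.mul_mem_right _ _ (hn (hM c hc i j))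
    rw [← b.sum_repr w]
    exact Submodule.sum_mem _ fun i _ => Submodule.smul_mem_smul (hw i) Submodule.mem_top

end Fermat.RED.Flat
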