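import Fermat.Agent.RED.Flat.IntCurve

/-!
# Families of divisors over a ring of functions on points

A family is given by vectors over the ring which, at every point, span `L(n ∞ - E)` and stay
independent after reduction.  Families are closed under complements and sums, so the classes they
define (`Regular`) are closed under addition (`Regular.add`): the group law used in `Model`.
-/

set_option autoImplicit false
set_option linter.unusedSectionVars false

noncomputable section

open AlgebraicCurve IsLocalRing Matrix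

namespace Fermat.RED.Flat

variable {L : Type*} [Field L] {A : ValuationSubring L}
variable [IsAlgClosed L] [IsAlgClosed (ResidueField A)]
variable {F Fk : Type*} [Field F] [Field Fk] [Algebra L F] [Algebra (ResidueField A) Fk]
variable [FF.IsFunctionField L F] [FF.IsFunctionField (ResidueField A) Fk]
variable {g : ℕ} (C : IntCurve A F Fk g)
variable {R : Type*} [CommRing R] {S : Type*} (P : Pts A R S)

/-- The vectors `B` give the family `E` of divisors of degree `e` at level `n`. -/
structure IsFam (n e : ℕ) (E : S → Divisor L F) (B : Fin (n - e + 1 - g) → Idx g n → R) : Prop where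
  /-- The level is large enough for `E`. -/
  le : e + 2 * g ≤ n
  /-- The divisors are effective. -/
  nonneg : ∀ s, 0 ≤ E s
  /-- The divisors have degree `e`. -/
  degree : ∀ s, Divisor.degree (E s) = (e : ℤ)
  /-- At every point the vectors lie in `L(n ∞ - E)`. -/
  mem : ∀ i s, C.val P n s (B i) ∈ LL (C.base.lv n - E s)
  /-- The reductions of the vectors are independent. -/
  indep : LinearIndependent (ResidueField A) fun i => C.redv P n (B i)

/-- The classes are those of some family of divisors given by vectors over the ring. -/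
def Regular (x : S → Pic0 L F) : Prop :=
  ∃ (n e : ℕ) (E : S → Divisor L F) (B : Fin (n - e + 1 - g) → Idx g n → R),
    IsFam C P n e E B ∧ ∀ s, C.base.cls (E s) = x s

namespace IsFam

variable {C P} {n e : ℕ} {E : S → Divisor L F} {B : Fin (n - e + 1 - g) → Idx g n → R}

/-- The level of a family is at least `2 g`. -/
theorem two_mul_le (h : IsFam C P n e E B) : 2 * g ≤ n := by
  have := h.le
  omega

/-- The reduced divisors have degree `e`. -/
theorem degree_redD (h : IsFam C P n e E B) (s : S) :
    Divisor.degree (C.redD (E s)) = (e : ℤ) := by rw [C.degree_redD, h.degree s]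

/-- The reduced vectors lie in the reduced spaces. -/
theorem redv_mem (h : IsFam C P n e E B) (i : Fin (n - e + 1 - g)) (s : S) :
    C.redv P n (B i) ∈ LL (C.spec.lv n - C.redD (E s)) := by
  have := C.redv_mem_LL P h.two_mul_le (h.mem i s)
  rwa [map_sub, C.redD_lv] at this

/-- At each point the vectors span `L(n ∞ - E)`. -/
theorem span_val (h : IsFam C P n e E B) (s : S) :
    Submodule.span L (Set.range fun i => C.val P n s (B i)) = LL (C.base.lv n - E s) :=
  Submodule.eq_of_le_of_finrank_le (Submodule.span_le.mpr (by rintro _ ⟨i, rfl⟩; exact h.mem i s))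
    (by
      rw [C.base.finrank_LL_sub (h.degree s) h.le,
        finrank_span_eq_card (C.linearIndependent_val P h.two_mul_le h.indep s), Fintype.card_fin])

/-- The reduced vectors span the reduced space. -/
theorem span_redv (h : IsFam C P n e E B) (s : S) :
    Submodule.span (ResidueField A) (Set.range fun i => C.redv P n (B i)) =
      LL (C.spec.lv n - C.redD (E s)) :=
  Submodule.eq_of_le_of_finrank_le
    (Submodule.span_le.mpr (by rintro _ ⟨i, rfl⟩; exact h.redv_mem i s))
    (by rw [C.spec.finrank_LL_sub (h.degree_redD s) h.le, finrank_span_eq_card h.indep,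
      Fintype.card_fin])

/-- A family has at least one vector. -/
theorem card_pos (h : IsFam C P n e E B) : 0 < n - e + 1 - g := by
  have := h.le
  omega

end IsFam

/-! ### The colon construction -/

/-- Combinations of the rows of the colon matrix. -/
theorem comb_colon {K F' : Type*} [Field K] [Field F'] [Algebra K F'] (T : Frame K F' g)
    [IsAlgClosed K] [FF.IsFunctionField K F']
    (f : R →+* K) {c b q a N : ℕ} {J Z' : Type*} [Fintype J] [DecidableEq J] [Fintype Z']
    (u : Idx g q → R) (W : J → Idx g b → R) (Z : Z' → Idx g a → R)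
    (hW : ∀ (v : Idx g c → R) (j : J), T.comb N (fun k => f (C.mulv P N v (W j) k)) =
      T.comb c (fun i => f (v i)) * T.comb b fun i => f (W j i))
    (hZ : ∀ l, T.comb N (fun k => f (C.mulv P N u (Z l) k)) =
      T.comb q (fun i => f (u i)) * T.comb a fun i => f (Z l i))
    (M : Matrix (J × Idx g N) (Idx g c ⊕ J × Z') R)
    (hM : M = Matrix.of fun jk => Sum.elim
      (fun i => C.mulv P N (Pi.single i 1) (W jk.1) jk.2)
      fun jl => if jl.1 = jk.1 then -C.mulv P N u (Z jl.2) jk.2 else 0)
    (x : Idx g c ⊕ J × Z' → K) (j : J) :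
    T.comb N (fun k => (M.map f *ᵥ x) (j, k)) =
      T.comb c (fun i => x (Sum.inl i)) * T.comb b (fun i => f (W j i)) -
        T.comb q (fun i => f (u i)) *
          ∑ l, x (Sum.inr (j, l)) • T.comb a fun i => f (Z l i) := by
  classical
  subst hM
  have hb : ∀ i : Idx g c, T.comb c (fun i' => f ((Pi.single i 1 : Idx g c → R) i')) = T.b c i := by
    intro i
    rw [T.comb_apply, Finset.sum_eq_single i]
    · simp
    · intro i' _ hi'
      simp [Pi.single_eq_of_ne hi']
    · simp
  have e : (fun k => ((Matrix.of fun jk : J × Idx g N => Sum.elim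
      (fun i => C.mulv P N (Pi.single i 1) (W jk.1) jk.2)
      fun jl : J × Z' => if jl.1 = jk.1 then -C.mulv P N u (Z jl.2) jk.2 else 0).map f *ᵥ x) (j, k))
      = (∑ i, x (Sum.inl i) • fun k => f (C.mulv P N (Pi.single i 1) (W j) k)) -
        ∑ l, x (Sum.inr (j, l)) • fun k => f (C.mulv P N u (Z l) k) := by
    funext k
    simp only [Matrix.mulVec, dotProduct, Fintype.sum_sum_type, Matrix.map_apply, Matrix.of_apply,
      Sum.elim_inl, Sum.elim_inr, Pi.sub_apply, Finset.sum_apply, Pi.smul_apply, smul_eq_mul,
      Fintype.sum_prod_type, apply_ite f, map_neg, map_zero, ite_mul, zero_mul]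
    rw [Fintype.sum_eq_single j fun j' hj' => Finset.sum_eq_zero fun l _ => if_neg hj']
    simp only [if_true, Finset.sum_neg_distrib, sub_eq_add_neg, mul_comm, mul_neg]
  -- each row of `M` multiplies by a fixed vector; distribute
  rw [e, map_sub, map_sum, map_sum]
  congr 1
  · rw [T.comb_apply c, Finset.sum_mul]
    exact Finset.sum_congr rfl fun i _ => by rw [map_smul, hW, hb, smul_mul_assoc]
  · rw [Finset.mul_sum]
    exact Finset.sum_congr rfl fun l _ => by rw [map_smul, hZ, mul_smul_comm]

/-- **Colon spaces of families are families.** -/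
theorem exists_fam_colon [Nonempty S] {c b q a N e : ℕ} (hN : c + b = N) (hN' : q + a = N)
    (hb : 2 * g ≤ b) (hq : 2 * g ≤ q) (ha : 2 * g ≤ a) (hle : e + 2 * g ≤ c)
    {J Z' : Type*} [Fintype J] [Fintype Z'] {u : Idx g q → R} (hu : C.redv P q u ≠ 0)
    (W : J → Idx g b → R) (Z : Z' → Idx g a → R)
    (hZ : LinearIndependent (ResidueField A) fun l => C.redv P a (Z l))
    {E : S → Divisor L F} (hE0 : ∀ s, 0 ≤ E s) (hEd : ∀ s, Divisor.degree (E s) = (e : ℤ))
    (hgen : ∀ s, ∀ v ∈ LL (C.base.lv c - E s), ∀ j,
      ∃ y ∈ Submodule.span L (Set.range fun l => C.val P a s (Z l)),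
        v * C.val P b s (W j) = C.val P q s u * y)
    (hsp : ∃ s, ∀ v ∈ LL (C.spec.lv c), (∀ j,
      ∃ y ∈ Submodule.span (ResidueField A) (Set.range fun l => C.redv P a (Z l)),
        v * C.redv P b (W j) = C.redv P q u * y) → v ∈ LL (C.spec.lv c - C.redD (E s))) :
    ∃ B, IsFam C P c e E B := by
  classical
  have hc : 2 * g ≤ c := by omega
  have hN0 : 2 * g ≤ N := by omega
  set M : Matrix (J × Idx g N) (Idx g c ⊕ J × Z') R := Matrix.of fun jk => Sum.elim
      (fun i => C.mulv P N (Pi.single i 1) (W jk.1) jk.2)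
      fun jl => if jl.1 = jk.1 then -C.mulv P N u (Z jl.2) jk.2 else 0 with hM
  have hgs : ∀ (s : S) (x : Idx g c ⊕ J × Z' → L) (j : J),
      C.base.comb N (fun k => (M.map (P.evL s) *ᵥ x) (j, k)) =
        C.base.comb c (fun i => x (Sum.inl i)) * C.val P b s (W j) -
          C.val P q s u * ∑ l, x (Sum.inr (j, l)) • C.val P a s (Z l) := fun s =>
    comb_colon C P C.base (P.evL s) u W Z (fun v j => C.val_mulv P hc hb hN s v (W j))
      (fun l => C.val_mulv P hq ha hN' s u (Z l)) M hM
  have hks : ∀ (x : Idx g c ⊕ J × Z' → ResidueField A) (j : J),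
      C.spec.comb N (fun k => (M.map P.res *ᵥ x) (j, k)) =
        C.spec.comb c (fun i => x (Sum.inl i)) * C.redv P b (W j) -
          C.redv P q u * ∑ l, x (Sum.inr (j, l)) • C.redv P a (Z l) :=
    comb_colon C P C.spec P.res u W Z (fun v j => C.redv_mulv P hc hb hN v (W j))
      (fun l => C.redv_mulv P hq ha hN' u (Z l)) M hM
  -- the points
  have hdim : ∀ s, c - e + 1 - g ≤ Module.finrank L (LinearMap.ker (M.map (P.evL s)).mulVecLin) ∧
      LL (C.base.lv c - E s) ≤ (LinearMap.ker (M.map (P.evL s)).mulVecLin).map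
        ((C.base.comb c).comp (LinearMap.funLeft L L Sum.inl)) := by
    intro s
    have hle' : LL (C.base.lv c - E s) ≤ (LinearMap.ker (M.map (P.evL s)).mulVecLin).map
        ((C.base.comb c).comp (LinearMap.funLeft L L Sum.inl)) := by
      intro v hv
      choose y hy hy' using fun j => hgen s v hv j
      choose r hr using fun j => (Submodule.mem_span_range_iff_exists_fun L).mp (hy j)
      have hvc : v ∈ LL (C.base.lv c) := C.base.LL_sub_le c (hE0 s) hv
      refine ⟨Sum.elim (C.base.crd c v) fun jl => r jl.1 jl.2, LinearMap.mem_ker.mpr ?_,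
        C.base.comb_crd hc hvc⟩
      funext jk
      obtain ⟨j, k⟩ := jk
      have h1 := hgs s (Sum.elim (C.base.crd c v) fun jl => r jl.1 jl.2) j
      simp only [Sum.elim_inl, Sum.elim_inr, hr j, C.base.comb_crd hc hvc, hy' j, sub_self] at h1
      exact congrFun (C.base.comb_injective hN0 (h1.trans (map_zero _).symm)) k
    refine ⟨?_, hle'⟩
    rw [← C.base.finrank_LL_sub (hEd s) hle]
    exact (Submodule.finrank_mono hle').trans (Submodule.finrank_map_le _ _)
  -- the reduction
  obtain ⟨s₀, hs₀⟩ := hsp
  let ψ : LinearMap.ker (M.map P.res).mulVecLin →ₗ[ResidueField A] Fk :=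
    ((C.spec.comb c).comp (LinearMap.funLeft _ _ Sum.inl)).domRestrict _
  have hker : ∀ x ∈ LinearMap.ker (M.map P.res).mulVecLin, ∀ j,
      C.spec.comb c (fun i => x (Sum.inl i)) * C.redv P b (W j) =
        C.redv P q u * ∑ l, x (Sum.inr (j, l)) • C.redv P a (Z l) := by
    intro x hx j
    refine sub_eq_zero.mp ((hks x j).symm.trans ?_)
    rw [show (fun k => (M.map P.res *ᵥ x) (j, k)) = 0 from
      funext fun k => congrFun (LinearMap.mem_ker.mp hx) (j, k), map_zero]
  have hψ : Function.Injective ψ := by
    rw [← LinearMap.ker_eq_bot, Submodule.eq_bot_iff]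
    intro x hx
    have hx' : C.spec.comb c (fun i => (x : Idx g c ⊕ J × Z' → ResidueField A) (Sum.inl i)) = 0 :=
      LinearMap.mem_ker.mp hx
    refine Subtype.ext (funext ?_)
    rintro (i | ⟨j, l⟩)
    · exact congrFun (C.spec.comb_injective hc (hx'.trans (map_zero _).symm)) i
    · have h1 := hker x x.2 j
      rw [hx', zero_mul, eq_comm, mul_eq_zero, or_iff_right hu] at h1
      exact Fintype.linearIndependent_iff.mp hZ _ h1 l
  have hrange : LinearMap.range ψ ≤ LL (C.spec.lv c - C.redD (E s₀)) := by
    rintro _ ⟨x, rfl⟩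
    refine hs₀ _ (C.spec.comb_mem hc _) fun j => ⟨_, ?_, hker x x.2 j⟩
    exact Submodule.sum_mem _ fun l _ => Submodule.smul_mem _ _ (Submodule.subset_span ⟨l, rfl⟩)
  have hsp' : Module.finrank (ResidueField A) (LinearMap.ker (M.map P.res).mulVecLin) ≤
      c - e + 1 - g := by
    rw [← C.spec.finrank_LL_sub (n := c) (e := e) (E := C.redD (E s₀))
      (by rw [C.degree_redD, hEd s₀]) hle]
    exact (LinearMap.finrank_range_of_inj hψ).symm.le.trans (Submodule.finrank_mono hrange)
  obtain ⟨hdimeq, v, hv, hvi⟩ := P.exists_kernel_basis M (c - e + 1 - g)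
    (fun s => (hdim s).1) hsp'
  refine ⟨fun i j => v i (Sum.inl j), hle, hE0, hEd, fun i s => ?_, ?_⟩
  · have heq : LL (C.base.lv c - E s) = (LinearMap.ker (M.map (P.evL s)).mulVecLin).map
        ((C.base.comb c).comp (LinearMap.funLeft L L Sum.inl)) :=
      Submodule.eq_of_le_of_finrank_le (hdim s).2
        ((Submodule.finrank_map_le _ _).trans (le_of_eq
          ((hdimeq s).trans (C.base.finrank_LL_sub (hEd s) hle).symm)))
    rw [heq]
    exact ⟨_, LinearMap.mem_ker.mpr (hv i s), rfl⟩
  · have hres : ∀ i, (fun j => P.res (v i j)) ∈ LinearMap.ker (M.map P.res).mulVecLin := fun i =>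
      P.res_mem_ker M (v i) (Classical.arbitrary S) (hv i _)
    have h1 : LinearIndependent (ResidueField A)
        (fun i => (⟨_, hres i⟩ : LinearMap.ker (M.map P.res).mulVecLin)) :=
      LinearIndependent.of_comp (Submodule.subtype _) hvi
    exact h1.map' ψ (LinearMap.ker_eq_bot.mpr hψ)

/-! ### Complements and sums -/

section Ops

variable {C P} [Nonempty S] {n e : ℕ} {E : S → Divisor L F}
  {B : Fin (n - e + 1 - g) → Idx g n → R}

/-- The first vector of a family. -/
def first (h : IsFam C P n e E B) : Idx g n → R := B ⟨0, h.card_pos⟩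

/-- The first vector does not reduce to zero. -/
theorem IsFam.redv_first_ne_zero (h : IsFam C P n e E B) : C.redv P n (first h) ≠ 0 :=
  h.indep.ne_zero _

/-- The complementary divisors. -/
def flipDiv (h : IsFam C P n e E B) (s : S) : Divisor L F :=
  C.base.compl n (E s) (C.val P n s (first h))

/-- The complementary divisors are effective. -/
theorem IsFam.flipDiv_nonneg (h : IsFam C P n e E B) (s : S) : 0 ≤ flipDiv h s :=
  C.base.compl_nonneg (h.mem _ s) (C.val_ne_zero P h.two_mul_le h.redv_first_ne_zero s)

/-- The complementary divisors have degree `n - e`. -/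
theorem IsFam.degree_flipDiv (h : IsFam C P n e E B) (s : S) :
    Divisor.degree (flipDiv h s) = ((n - e : ℕ) : ℤ) := by
  have := h.le
  exact C.base.degree_compl (h.degree s) (by omega) _

/-- The complementary classes are the negatives. -/
theorem IsFam.cls_flipDiv (h : IsFam C P n e E B) (s : S) :
    C.base.cls (flipDiv h s) = -C.base.cls (E s) := C.base.cls_compl _ _ _

/-- Complements commute with reduction. -/
theorem IsFam.redD_flipDiv (h : IsFam C P n e E B) (s : S) :
    C.redD (flipDiv h s) = C.spec.compl n (C.redD (E s)) (C.redv P n (first h)) := by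
  rw [flipDiv, Frame.compl, map_sub, map_add, C.redD_lv,
    C.redD_divOf_val P h.two_mul_le h.redv_first_ne_zero s]
  rfl

/-- **Complements of families.** A family at level `n` gives the family of complements at any large
enough level. -/
theorem IsFam.exists_flip (h : IsFam C P n e E B) {m : ℕ} (hm : n - e + 2 * g ≤ m) :
    ∃ B', IsFam C P m (n - e) (flipDiv h) B' := by
  classical
  have hn := h.two_mul_le
  have hm2 : 2 * g ≤ m := by omega
  have hsingle : ∀ i : Idx g m,
      C.redv P m (Pi.single i 1) = C.spec.b m i := by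
    intro i
    rw [IntCurve.redv, Frame.comb_apply, Finset.sum_eq_single i]
    · simp
    · intro j _ hj
      simp [Pi.single_eq_of_ne hj]
    · simp
  -- the complement is the colon of `L(m ∞)` by the family, divided by its first vector
  refine exists_fam_colon C P (c := m) (b := n) (q := n) (a := m) (N := m + n) rfl (add_comm n m)
    hn hn hm2 hm h.redv_first_ne_zero B (fun i : Idx g m => Pi.single i 1) ?_ h.flipDiv_nonneg
    h.degree_flipDiv (fun s v hv j => ?_) ⟨Classical.arbitrary S, fun v hv hy => ?_⟩
  · simp only [hsingle]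
    exact C.spec.b_indep m hm2
  · have hu := C.val_ne_zero P hn h.redv_first_ne_zero s
    have hcol : v ∈ LL (C.base.lv m - (C.base.lv n - E s) -
        FF.divOf L (C.val P n s (first h))) := by
      rwa [show C.base.lv m - (C.base.lv n - E s) - FF.divOf L (C.val P n s (first h)) =
        C.base.lv m - flipDiv h s by rw [flipDiv, Frame.compl]; abel]
    obtain ⟨y, hy, e'⟩ := (mem_colon_iff hu (C.base.two_mul_genus_le (h.degree s) h.le)).mpr hcol
      _ (h.mem j s)
    refine ⟨y, ?_, e'⟩
    rw [show (fun i : Idx g m => C.val P m s (Pi.single i 1)) = C.base.b m from funext fun i => by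
      rw [IntCurve.val, Frame.comb_apply, Finset.sum_eq_single i]
      · simp
      · intro j _ hj
        simp [Pi.single_eq_of_ne hj]
      · simp]
    rw [← C.base.comb_crd hm2 hy, C.base.comb_apply]
    exact Submodule.sum_mem _ fun i _ =>
      Submodule.smul_mem _ _ (Submodule.subset_span (Set.mem_range_self i))
  · rw [h.redD_flipDiv, show C.spec.lv m - C.spec.compl n (C.redD (E (Classical.arbitrary S)))
        (C.redv P n (first h)) = C.spec.lv m - (C.spec.lv n - C.redD (E (Classical.arbitrary S))) -
          FF.divOf (ResidueField A) (C.redv P n (first h)) by rw [Frame.compl]; abel]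
    refine (mem_colon_iff h.redv_first_ne_zero
      (C.spec.two_mul_genus_le (h.degree_redD _) h.le)).mp fun w hw => ?_
    rw [← h.span_redv (Classical.arbitrary S)] at hw
    induction hw using Submodule.span_induction with
    | mem w hw =>
      obtain ⟨j, rfl⟩ := hw
      obtain ⟨y, hy', e'⟩ := hy j
      refine ⟨y, ?_, e'⟩
      have hle : Submodule.span (ResidueField A)
          (Set.range fun i : Idx g m => C.redv P m (Pi.single i 1)) ≤ LL (C.spec.lv m) :=
        Submodule.span_le.mpr (by rintro _ ⟨i, rfl⟩; exact C.redv_mem P hm2 _)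
      exact hle hy'
    | zero => exact ⟨0, zero_mem _, by simp⟩
    | add w w' _ _ hw hw' =>
      obtain ⟨y, hy1, e1⟩ := hw
      obtain ⟨y', hy2, e2⟩ := hw'
      exact ⟨y + y', add_mem hy1 hy2, by rw [mul_add, mul_add, e1, e2]⟩
    | smul t w _ hw =>
      obtain ⟨y, hy1, e1⟩ := hw
      exact ⟨t • y, Submodule.smul_mem _ t hy1, by rw [mul_smul_comm, mul_smul_comm, e1]⟩

/-- Change of level and degree. -/
theorem IsFam.exists_renorm (h : IsFam C P n e E B) {e' m : ℕ} (he : 2 * g ≤ e')
    (hm : e' + 2 * g ≤ m) :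
    ∃ E' B', IsFam C P m e' E' B' ∧ ∀ s, C.base.cls (E' s) = C.base.cls (E s) := by
  have := h.le
  obtain ⟨B₁, h₁⟩ := h.exists_flip (m := e' + (n - e)) (by omega)
  obtain ⟨B₂, h₂⟩ := h₁.exists_flip (m := m) (by omega)
  have key : ∀ (a : ℕ), a = e' → ∀ (E₂ : S → Divisor L F) (B₂ : Fin (m - a + 1 - g) → Idx g m → R),
      IsFam C P m a E₂ B₂ → ∃ B', IsFam C P m e' E₂ B' := by
    rintro a rfl E₂ B₂ h
    exact ⟨B₂, h⟩
  obtain ⟨B', h'⟩ := key _ (by omega) _ _ h₂
  exact ⟨_, B', h', fun s => by rw [h₁.cls_flipDiv, h.cls_flipDiv, neg_neg]⟩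

/-- **Sums of families.** Two families give the family of the sums of their divisors at a large
enough level. -/
theorem IsFam.exists_add (h : IsFam C P n e E B) {m e' : ℕ} {E₂ : S → Divisor L F}
    {B₂ : Fin (m - e' + 1 - g) → Idx g m → R} (h₂ : IsFam C P m e' E₂ B₂)
    (hn : n - e + 2 * g ≤ n) (hm : e + e' + 2 * g ≤ m) :
    ∃ B', IsFam C P m (e + e') (fun s => E s + E₂ s) B' := by
  classical
  have hn2 := h.two_mul_le
  have := h.le
  obtain ⟨B₁, h₁⟩ := h.exists_flip (m := n) hn
  -- the sum is the colon of the second family by the complement of the first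
  refine exists_fam_colon C P (c := m) (b := n) (q := n) (a := m) (N := m + n) rfl (add_comm n m)
    hn2 hn2 h₂.two_mul_le hm h.redv_first_ne_zero B₁ B₂ h₂.indep
    (fun s => add_nonneg (h.nonneg s) (h₂.nonneg s))
    (fun s => by rw [map_add, h.degree, h₂.degree]; push_cast; rfl) (fun s v hv j => ?_)
    ⟨Classical.arbitrary S, fun v hv hy => ?_⟩
  · have hu := C.val_ne_zero P hn2 h.redv_first_ne_zero s
    have hcol : v ∈ LL (C.base.lv m - E₂ s - (C.base.lv n - flipDiv h s) -
        FF.divOf L (C.val P n s (first h))) := by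
      rwa [show C.base.lv m - E₂ s - (C.base.lv n - flipDiv h s) -
          FF.divOf L (C.val P n s (first h)) = C.base.lv m - (E s + E₂ s) by
        rw [flipDiv, Frame.compl]; abel]
    obtain ⟨y, hy, e'⟩ := (mem_colon_iff hu (C.base.two_mul_genus_le (h₁.degree s) h₁.le)).mpr hcol
      _ (h₁.mem j s)
    exact ⟨y, h₂.span_val s ▸ hy, e'⟩
  · set s := Classical.arbitrary S
    rw [show C.spec.lv m - C.redD (E s + E₂ s) = C.spec.lv m - C.redD (E₂ s) -
        (C.spec.lv n - C.redD (flipDiv h s)) - FF.divOf (ResidueField A) (C.redv P n (first h)) by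
      rw [h.redD_flipDiv, map_add, Frame.compl]; abel]
    refine (mem_colon_iff h.redv_first_ne_zero
      (C.spec.two_mul_genus_le (h₁.degree_redD _) h₁.le)).mp fun w hw => ?_
    rw [← h₁.span_redv s] at hw
    induction hw using Submodule.span_induction with
    | mem w hw =>
      obtain ⟨j, rfl⟩ := hw
      obtain ⟨y, hy', e'⟩ := hy j
      exact ⟨y, h₂.span_redv s ▸ hy', e'⟩
    | zero => exact ⟨0, zero_mem _, by simp⟩
    | add w w' _ _ hw hw' =>
      obtain ⟨y, hy1, e1⟩ := hw
      obtain ⟨y', hy2, e2⟩ := hw'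
      exact ⟨y + y', add_mem hy1 hy2, by rw [mul_add, mul_add, e1, e2]⟩
    | smul t w _ hw =>
      obtain ⟨y, hy1, e1⟩ := hw
      exact ⟨t • y, Submodule.smul_mem _ t hy1, by rw [mul_smul_comm, mul_smul_comm, e1]⟩

/-- A regular family of classes has families of any admissible degree and level. -/
theorem Regular.exists_fam {x : S → Pic0 L F} (h : Regular C P x) {e' m : ℕ} (he : 2 * g ≤ e')
    (hm : e' + 2 * g ≤ m) : ∃ E' B', IsFam C P m e' E' B' ∧ ∀ s, C.base.cls (E' s) = x s := by
  obtain ⟨n, e, E, B, hB, hx⟩ := h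
  obtain ⟨E', B', hB', hcls⟩ := hB.exists_renorm he hm
  exact ⟨E', B', hB', fun s => (hcls s).trans (hx s)⟩

/-- **Regular families of classes are closed under addition.** -/
theorem Regular.add {x y : S → Pic0 L F} (hx : Regular C P x) (hy : Regular C P y) :
    Regular C P (x + y) := by
  obtain ⟨E, B, hB, hxc⟩ := hx.exists_fam (e' := 2 * g) (m := 4 * g) le_rfl (by omega)
  obtain ⟨E₂, B₂, hB₂, hyc⟩ := hy.exists_fam (e' := 2 * g) (m := 6 * g) le_rfl (by omega)
  obtain ⟨B', h'⟩ := hB.exists_add hB₂ (by omega) (by omega)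
  exact ⟨_, _, _, B', h', fun s => by rw [map_add, hxc, hyc]; rfl⟩

end Ops

end Fermat.RED.Flat
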