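import Mathlib

/-!
# Coefficient vectors of determinants of linear forms

`detForm` is the determinant of a matrix of linear forms, and `evalW_detForm` evaluates it through
its vector of coefficients `wvec`.
-/

set_option autoImplicit false

noncomputable section

open MvPolynomial

namespace Fermat.RED.Flat

variable {R : Type*} [CommRing R] {C V : Type*} [Fintype C] [DecidableEq C] [Fintype V]

/-- The exponent of a word. -/
def wexp (w : C → V) : V →₀ ℕ := ∑ c, Finsupp.single (w c) 1

/-- The coefficient vector along words. -/
def wvec (P : MvPolynomial V R) (w : C → V) : R := coeff (wexp w) P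

/-- A list as a multiset is the sum of its singletons. -/
theorem sum_singleton_get {α : Type*} :
    ∀ l : List α, ∑ i : Fin l.length, ({l.get i} : Multiset α) = ↑l
  | [] => by simp
  | a :: t => by
    refine (Fin.sum_univ_succ _).trans ?_
    have := sum_singleton_get t
    simp only [List.get_eq_getElem, Fin.val_zero, List.getElem_cons_zero, Fin.val_succ,
      List.getElem_cons_succ] at this ⊢
    rw [this, ← Multiset.cons_coe, Multiset.singleton_add]

omit [DecidableEq C] [Fintype V] in
/-- Every monomial of degree the number of columns comes from a choice of variables. -/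
theorem exists_wexp_eq {d : V →₀ ℕ} (hd : d.degree = Fintype.card C) :
    ∃ w : C → V, wexp w = d := by
  classical
  set l := (Finsupp.toMultiset d).toList with hl
  have hlen : l.length = Fintype.card C := by
    rw [hl, Multiset.length_toList, Finsupp.card_toMultiset]
    rw [← hd]
    rfl
  let e : C ≃ Fin l.length := (Fintype.equivFin C).trans (finCongr hlen.symm)
  refine ⟨fun c => l.get (e c), ?_⟩
  rw [wexp, e.sum_comp fun i => Finsupp.single (l.get i) 1]
  suffices h : Finsupp.toMultiset (∑ i : Fin l.length, Finsupp.single (l.get i) 1) =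
      Finsupp.toMultiset d by
    have := congrArg Multiset.toFinsupp h
    rwa [Finsupp.toMultiset_toFinsupp, Finsupp.toMultiset_toFinsupp] at this
  rw [map_sum]
  simp only [Finsupp.toMultiset_single, one_smul]
  rw [← Multiset.coe_toList (Finsupp.toMultiset d), ← hl]
  exact sum_singleton_get l

open Classical in
/-- The exponents of words. -/
def wmons (C V : Type*) [Fintype C] [DecidableEq C] [Fintype V] : Finset (V →₀ ℕ) :=
  (Finset.univ : Finset (C → V)).image wexp

open Classical in
/-- A word of given exponent. -/
def wpick (d : wmons C V) : C → V := (Finset.mem_image.mp d.2).choose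

/-- The chosen word has the given exponent. -/
theorem wexp_wpick (d : wmons C V) : wexp (wpick d) = d := by
  classical
  exact (Finset.mem_image.mp d.2).choose_spec.2

open Classical in
/-- The value at `t` of the form with coefficient vector `v`. -/
def evalW (v : (C → V) → R) (t : V → R) : R :=
  ∑ d : wmons C V, v (wpick d) * ∏ x, t x ^ ((d : V →₀ ℕ) x)

/-- A homogeneous form evaluates through its vector of coefficients. -/
theorem eval_eq_evalW {P : MvPolynomial V R} (hP : P.IsHomogeneous (Fintype.card C)) (t : V → R) :
    eval t P = evalW (wvec (C := C) P) t := by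
  classical
  rw [MvPolynomial.eval_eq', evalW]
  have h1 : ∑ d : wmons C V, wvec P (wpick d) * ∏ x, t x ^ ((d : V →₀ ℕ) x) =
      ∑ d : wmons C V, coeff (d : V →₀ ℕ) P * ∏ x, t x ^ ((d : V →₀ ℕ) x) :=
    Finset.sum_congr rfl fun d _ => by rw [wvec, wexp_wpick]
  rw [h1, Finset.sum_coe_sort (wmons C V) fun d => coeff d P * ∏ x, t x ^ (d x)]
  refine Finset.sum_subset (fun d hd => ?_) fun d _ hd => ?_
  · by_contra hmem
    refine MvPolynomial.mem_support_iff.mp hd (hP.coeff_eq_zero fun hdeg => hmem ?_)
    obtain ⟨w, hw⟩ := exists_wexp_eq (C := C) hdeg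
    exact Finset.mem_image.mpr ⟨w, Finset.mem_univ w, hw⟩
  · rw [MvPolynomial.notMem_support_iff.mp hd, zero_mul]

/-- Ring maps commute with `evalW`. -/
theorem evalW_map {R' : Type*} [CommRing R'] (f : R →+* R') (v : (C → V) → R) (t : V → R) :
    f (evalW v t) = evalW (fun w => f (v w)) fun x => f (t x) := by
  simp [evalW, map_sum, map_prod]

/-- `evalW` is linear in the coefficients. -/
theorem evalW_smul (a : R) (v : (C → V) → R) (t : V → R) :
    evalW (fun w => a * v w) t = a * evalW v t := by
  simp [evalW, Finset.mul_sum, mul_assoc]

/-- The determinant of a matrix of linear forms, with coefficients `Q`. -/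
def detForm (Q : C → C → V → R) : MvPolynomial V R :=
  Matrix.det (Matrix.of fun i c => ∑ x, MvPolynomial.C (Q i c x) * X x)

/-- The determinant form is homogeneous. -/
theorem isHomogeneous_detForm (Q : C → C → V → R) :
    (detForm Q).IsHomogeneous (Fintype.card C) := by
  rw [detForm, Matrix.det_apply']
  refine IsHomogeneous.sum _ _ _ fun σ _ => ?_
  rw [← map_intCast (MvPolynomial.C : R →+* MvPolynomial V R)]
  have h : (∏ i, Matrix.of (fun i c => ∑ x, MvPolynomial.C (Q i c x) * X x) (σ i) i).IsHomogeneous
      (∑ _i : C, 1) := by
    refine IsHomogeneous.prod _ _ _ fun i _ => IsHomogeneous.sum _ _ _ fun x _ => ?_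
    simpa using (isHomogeneous_C V (Q (σ i) i x)).mul (isHomogeneous_X R x)
  have h2 := (isHomogeneous_C V ((Equiv.Perm.sign σ : ℤ) : R)).mul h
  simp only [map_intCast] at h2 ⊢
  simpa [Matrix.of_apply] using h2

/-- The values of the determinant form. -/
theorem eval_detForm (Q : C → C → V → R) (t : V → R) :
    eval t (detForm Q) = Matrix.det (Matrix.of fun i c => ∑ x, Q i c x * t x) := by
  rw [detForm, RingHom.map_det]
  congr 1
  ext i c
  simp [Matrix.of_apply]

/-- Ring maps commute with the determinant form. -/
theorem map_detForm {R' : Type*} [CommRing R'] (f : R →+* R') (Q : C → C → V → R) :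
    MvPolynomial.map f (detForm Q) = detForm fun i c x => f (Q i c x) := by
  rw [detForm, RingHom.map_det, detForm]
  congr 1
  ext1 i c
  simp [Matrix.of_apply]

/-- Ring maps commute with the coefficients of the determinant form. -/
theorem wvec_map {R' : Type*} [CommRing R'] (f : R →+* R') (Q : C → C → V → R) (w : C → V) :
    f (wvec (detForm Q) w) = wvec (detForm fun i c x => f (Q i c x)) w := by
  rw [wvec, wvec, ← map_detForm, coeff_map]

/-- Evaluation of the coefficient vector of a determinant. -/
theorem evalW_detForm (Q : C → C → V → R) (t : V → R) :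
    evalW (wvec (C := C) (detForm Q)) t = Matrix.det (Matrix.of fun i c => ∑ x, Q i c x * t x) := by
  rw [← eval_eq_evalW (isHomogeneous_detForm Q), eval_detForm]

/-- Changing bases multiplies the determinant by a constant. -/
theorem wvec_detForm_change {Q Q' : C → C → V → R} (G H : Matrix C C R)
    (h : ∀ i c x, Q' i c x = ∑ i', ∑ c', G i i' * Q i' c' x * H c' c) (w : C → V) :
    wvec (detForm Q') w = (G.det * H.det) * wvec (detForm Q) w := by
  have e : detForm Q' = MvPolynomial.C (G.det * H.det) * detForm Q := by
    have hM : (Matrix.of fun i c => ∑ x, MvPolynomial.C (Q' i c x) * X x) =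
        G.map MvPolynomial.C * (Matrix.of fun i c => ∑ x, MvPolynomial.C (Q i c x) * X x) *
          H.map MvPolynomial.C := by
      refine Matrix.ext fun i c => ?_
      simp only [Matrix.of_apply, Matrix.mul_apply, Matrix.map_apply, Finset.mul_sum,
        Finset.sum_mul, h, map_sum, map_mul]
      rw [Finset.sum_comm]
      conv_rhs => rw [Finset.sum_comm]
      refine Finset.sum_congr rfl fun i' _ => ?_
      rw [Finset.sum_comm]
      exact Finset.sum_congr rfl fun c' _ => Finset.sum_congr rfl fun x _ => by ring
    rw [detForm, hM, Matrix.det_mul, Matrix.det_mul, ← RingHom.mapMatrix_apply,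
      ← RingHom.mapMatrix_apply, ← RingHom.map_det, ← RingHom.map_det, detForm, map_mul]
    ring
  rw [wvec, wvec, e, coeff_C_mul]

end Fermat.RED.Flat
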