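import Fermat.Agent.FF.API
import Mathlib

/-!
# A function field with a marked place and bases of the spaces `L(n ∞)`

`Frame` carries the bases, with coordinates `crd`; every class of degree zero has an effective
representative avoiding a given finite set (`exists_rep`).
-/

set_option autoImplicit false
set_option linter.unusedSectionVars false

noncomputable section

open AlgebraicCurve

namespace Fermat.RED.Flat

variable {K F : Type*} [Field K] [Field F] [Algebra K F]

/-- The index set of a basis of `L(n ∞)` in genus `g`. -/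
abbrev Idx (g n : ℕ) : Type := Fin (n + 1 - g)

/-- A marked place and bases of the spaces `L(n ∞)` for `n ≥ 2g`. -/
structure Frame (K F : Type*) [Field K] [Field F] [Algebra K F] (g : ℕ) where
  /-- The marked place `∞`. -/
  pt : Place K F
  /-- `g` is the genus. -/
  genus : genusFF K F = g
  /-- The chosen functions at each level. -/
  b : ∀ n, Idx g n → F
  /-- They lie in `L(n ∞)` for `n ≥ 2g`. -/
  b_mem : ∀ n, 2 * g ≤ n → ∀ i, b n i ∈ riemannRochSpace (Finsupp.single pt (n : ℤ))
  /-- They are independent for `n ≥ 2g`. -/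
  b_indep : ∀ n, 2 * g ≤ n → LinearIndependent K (b n)

/-- The Riemann-Roch space `L(D)`. -/
abbrev LL (D : Divisor K F) : Submodule K F := riemannRochSpace D

variable [IsAlgClosed K] [FF.IsFunctionField K F]

section General

/-- Products of sections are sections of the sum. -/
theorem mul_mem_LL {D D' : Divisor K F} {f f' : F} (hf : f ∈ LL D) (hf' : f' ∈ LL D') :
    f * f' ∈ LL (D + D') := by
  rw [FF.mem_riemannRochSpace] at *
  exact fun v => ((hf v).mul (hf' v)).mono (by rw [Finsupp.add_apply]; omega)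

/-- Dividing a section by `u` adds the divisor of `u`. -/
theorem inv_mul_mem_LL {D : Divisor K F} (u : F) {f : F} (hf : f ∈ LL D) :
    u⁻¹ * f ∈ LL (D + FF.divOf K u) := by
  rw [FF.mem_riemannRochSpace] at *
  refine fun v => ((FF.ordGE_ord v u⁻¹).mul (hf v)).mono ?_
  rw [Place.ord_inv, Finsupp.add_apply, FF.divOf_apply]
  omega

/-- `v L(D₁) ⊆ u L(D₂)` exactly for `v` in `L(D₂ - D₁ - div u)`, in degree `≥ 2g`. -/
theorem mem_colon_iff {D₁ D₂ : Divisor K F} {u v : F} (hu : u ≠ 0)
    (hD₁ : 2 * (genusFF K F : ℤ) ≤ Divisor.degree D₁) :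
    (∀ w ∈ LL D₁, ∃ y ∈ LL D₂, v * w = u * y) ↔ v ∈ LL (D₂ - D₁ - FF.divOf K u) := by
  constructor
  · intro h
    rw [FF.mem_riemannRochSpace]
    intro Q
    rcases eq_or_ne v 0 with rfl | hv
    · exact FF.ordGE_zero _ _
    obtain ⟨w, hw, hw0, hwQ⟩ := FF.exists_exact_ord {Q} hD₁
    obtain ⟨y, hy, e⟩ := h w hw
    have hy0 : y ≠ 0 := fun h0 => mul_ne_zero hv hw0 (by rw [e, h0, mul_zero])
    have h1 := congrArg Q.ord e
    rw [Q.ord_mul hv hw0, Q.ord_mul hu hy0, hwQ Q (Finset.mem_singleton_self Q)] at h1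
    have h2 := (FF.mem_riemannRochSpace.mp hy Q).le_ord hy0
    refine (FF.ordGE_iff_of_ne hv).mpr ?_
    simp only [Finsupp.sub_apply, FF.divOf_apply]
    omega
  · intro hv w hw
    refine ⟨u⁻¹ * (v * w), ?_, by rw [← mul_assoc, mul_inv_cancel₀ hu, one_mul]⟩
    have := inv_mul_mem_LL u (mul_mem_LL hv hw)
    rwa [show D₂ - D₁ - FF.divOf K u + D₁ + FF.divOf K u = D₂ by abel] at this

/-- The divisor is determined by the sections in degree `≥ 2g`. -/
theorem le_of_LL_le {D D' : Divisor K F} (hD : 2 * (genusFF K F : ℤ) ≤ Divisor.degree D)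
    (h : LL D ≤ LL D') : D ≤ D' := by
  refine Finsupp.le_def.mpr fun Q => ?_
  obtain ⟨w, hw, hw0, hwQ⟩ := FF.exists_exact_ord {Q} hD
  have h2 := (FF.mem_riemannRochSpace.mp (h hw) Q).le_ord hw0
  rw [hwQ Q (Finset.mem_singleton_self Q)] at h2
  omega

/-- Sections are regular where the divisor is non-positive. -/
theorem ordGE_of_mem_LL {D : Divisor K F} {f : F} (hf : f ∈ LL D) {P : Place K F} (hP : D P ≤ 0) :
    FF.OrdGE P f 0 := (FF.mem_riemannRochSpace.mp hf P).mono (by omega)

/-- Sections vanish where the divisor is negative. -/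
theorem evalAt_eq_zero_of_mem_LL {D : Divisor K F} {f : F} (hf : f ∈ LL D) {P : Place K F}
    (hP : D P < 0) : FF.evalAt P f = 0 :=
  (FF.evalAt_eq_zero_iff (ordGE_of_mem_LL hf hP.le)).mpr
    ((FF.mem_riemannRochSpace.mp hf P).mono (by omega))

end General

namespace Frame

variable {g : ℕ} (T : Frame K F g)

/-- The divisor `n ∞`. -/
def lv (n : ℕ) : Divisor K F := Finsupp.single T.pt (n : ℤ)

/-- `n ∞` has degree `n`. -/
@[simp] theorem degree_lv (n : ℕ) : Divisor.degree (T.lv n) = n := by
  rw [lv, Divisor.degree_single, FF.deg_eq_one]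
  simp

/-- Levels add. -/
theorem lv_add (m n : ℕ) : T.lv m + T.lv n = T.lv (m + n) := by
  rw [lv, lv, lv, ← Finsupp.single_add]
  push_cast
  rfl

/-- `n ∞` vanishes off the marked place. -/
theorem lv_apply_of_ne {P : Place K F} (n : ℕ) (h : P ≠ T.pt) : T.lv n P = 0 :=
  Finsupp.single_eq_of_ne h

/-- `n ∞` is effective. -/
theorem lv_nonneg (n : ℕ) : 0 ≤ T.lv n :=
  Finsupp.single_nonneg.mpr (Int.natCast_nonneg n)

/-- The dimension of a space `L(n ∞ - E)`. -/
theorem ell_sub {n e : ℕ} {E : Divisor K F} (hE : Divisor.degree E = e) (hn : e + 2 * g ≤ n) :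
    FF.ell (T.lv n - E) = n - e + 1 - g := by
  have h := FF.ell_of_degree_ge (D := T.lv n - E)
    (by rw [map_sub, degree_lv, hE, T.genus]; omega)
  rw [map_sub, degree_lv, hE, T.genus] at h
  omega

/-- The dimension of `L(n ∞ - E)` as a rank. -/
theorem finrank_LL_sub {n e : ℕ} {E : Divisor K F} (hE : Divisor.degree E = e)
    (hn : e + 2 * g ≤ n) : Module.finrank K (LL (T.lv n - E)) = n - e + 1 - g :=
  T.ell_sub hE hn

/-- `L(n ∞ - E)` lies in `L(n ∞)` for effective `E`. -/
theorem LL_sub_le (n : ℕ) {E : Divisor K F} (hE : 0 ≤ E) : LL (T.lv n - E) ≤ LL (T.lv n) :=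
  FF.riemannRochSpace_mono (sub_le_self _ hE)

/-- `n ∞ - E` has degree at least `2 g`. -/
theorem two_mul_genus_le {n e : ℕ} {E : Divisor K F} (hE : Divisor.degree E = e)
    (hn : e + 2 * g ≤ n) : 2 * (genusFF K F : ℤ) ≤ Divisor.degree (T.lv n - E) := by
  rw [map_sub, degree_lv, hE, T.genus]
  omega

/-- Combinations of the basis. -/
def comb (n : ℕ) : (Idx g n → K) →ₗ[K] F := Fintype.linearCombination K (T.b n)

/-- The value of `comb`. -/
theorem comb_apply (n : ℕ) (c : Idx g n → K) : T.comb n c = ∑ i, c i • T.b n i :=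
  Fintype.linearCombination_apply _ _ _

/-- Coordinates are unique. -/
theorem comb_injective {n : ℕ} (hn : 2 * g ≤ n) : Function.Injective (T.comb n) :=
  LinearIndependent.fintypeLinearCombination_injective (T.b_indep n hn)

/-- The basis spans `L(n ∞)`. -/
theorem range_comb {n : ℕ} (hn : 2 * g ≤ n) : LinearMap.range (T.comb n) = LL (T.lv n) := by
  refine Submodule.eq_of_le_of_finrank_le ?_ ?_
  · rintro _ ⟨c, rfl⟩
    rw [comb_apply]
    exact Submodule.sum_mem _ fun i _ => Submodule.smul_mem _ _ (T.b_mem n hn i)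
  · rw [LinearMap.finrank_range_of_inj (T.comb_injective hn), Module.finrank_fintype_fun_eq_card,
      Fintype.card_fin]
    have := T.finrank_LL_sub (n := n) (e := 0) (E := 0) (by simp) (by omega)
    rw [sub_zero, Nat.sub_zero] at this
    exact this.le

/-- Combinations lie in `L(n ∞)`. -/
theorem comb_mem {n : ℕ} (hn : 2 * g ≤ n) (c : Idx g n → K) : T.comb n c ∈ LL (T.lv n) :=
  T.range_comb hn ▸ LinearMap.mem_range_self _ c

open Classical in
/-- Coordinates of a function in the basis of `L(n ∞)`. -/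
def crd (n : ℕ) (f : F) : Idx g n → K :=
  if h : ∃ c, T.comb n c = f then h.choose else 0

/-- A section is the combination of its coordinates. -/
theorem comb_crd {n : ℕ} (hn : 2 * g ≤ n) {f : F} (hf : f ∈ LL (T.lv n)) :
    T.comb n (T.crd n f) = f := by
  have h : ∃ c, T.comb n c = f := LinearMap.mem_range.mp (T.range_comb hn ▸ hf)
  rw [crd, dif_pos h]
  exact h.choose_spec

/-- The coordinates of a combination. -/
theorem crd_comb {n : ℕ} (hn : 2 * g ≤ n) (c : Idx g n → K) : T.crd n (T.comb n c) = c :=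
  T.comb_injective hn (T.comb_crd hn (T.comb_mem hn c))

/-- Coordinates are homogeneous. -/
theorem crd_smul {n : ℕ} (hn : 2 * g ≤ n) (a : K) {f : F} (hf : f ∈ LL (T.lv n)) :
    T.crd n (a • f) = a • T.crd n f := by
  refine T.comb_injective hn ?_
  rw [map_smul, T.comb_crd hn hf, T.comb_crd hn (Submodule.smul_mem _ a hf)]

/-- Coordinates are additive. -/
theorem crd_sum {ι : Type*} {n : ℕ} (hn : 2 * g ≤ n) (s : Finset ι) {f : ι → F}
    (hf : ∀ i ∈ s, f i ∈ LL (T.lv n)) :
    T.crd n (∑ i ∈ s, f i) = ∑ i ∈ s, T.crd n (f i) := by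
  refine T.comb_injective hn ?_
  rw [map_sum, T.comb_crd hn (Submodule.sum_mem _ hf)]
  exact Finset.sum_congr rfl fun i hi => (T.comb_crd hn (hf i hi)).symm

/-- The class of a divisor, normalised by the marked place. -/
def cls : Divisor K F →+ Pic0 K F where
  toFun D := Pic0.mk ⟨D - Finsupp.single T.pt (Divisor.degree D), by
    rw [Divisor.mem_degZero, map_sub, Divisor.degree_single, FF.deg_eq_one]
    simp⟩
  map_zero' := by
    refine (congrArg Pic0.mk ?_).trans Pic0.mk_zero
    exact Subtype.ext (by simp)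
  map_add' D E := by
    rw [← Pic0.mk_add]
    refine congrArg Pic0.mk (Subtype.ext ?_)
    simp only [map_add, Finsupp.single_add, AddSubgroup.coe_add]
    abel

/-- `n ∞` has class zero. -/
@[simp] theorem cls_lv (n : ℕ) : T.cls (T.lv n) = 0 := by
  refine (congrArg Pic0.mk ?_).trans Pic0.mk_zero
  refine Subtype.ext ?_
  change T.lv n - Finsupp.single T.pt (Divisor.degree (T.lv n)) = 0
  rw [degree_lv, lv, sub_self]

/-- Principal divisors have class zero. -/
theorem cls_divOf (f : F) : T.cls (FF.divOf K f) = 0 := by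
  rcases eq_or_ne f 0 with rfl | hf
  · rw [show FF.divOf K (0 : F) = 0 from Finsupp.ext fun v => by simp, map_zero]
  refine (QuotientAddGroup.eq_zero_iff _).mpr ?_
  change FF.divOf K f - Finsupp.single T.pt (Divisor.degree (FF.divOf K f))
    ∈ Divisor.principal (K := K) (F := F)
  rw [FF.degree_divOf, Finsupp.single_zero, sub_zero]
  exact ⟨f, hf, fun v => FF.divOf_apply f v⟩

/-- Divisors with equal class and degree differ by the divisor of a function. -/
theorem exists_divOf_of_cls {D E : Divisor K F} (h : T.cls D = T.cls E)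
    (hd : Divisor.degree D = Divisor.degree E) : ∃ f : F, f ≠ 0 ∧ E = D + FF.divOf K f := by
  have h0 : T.cls (E - D) = 0 := by rw [map_sub, h, sub_self]
  have h1 := (QuotientAddGroup.eq_zero_iff _).mp h0
  change E - D - Finsupp.single T.pt (Divisor.degree (E - D))
    ∈ Divisor.principal (K := K) (F := F) at h1
  rw [map_sub, hd, sub_self, Finsupp.single_zero, sub_zero] at h1
  obtain ⟨f, hf, hf'⟩ := h1
  refine ⟨f, hf, Finsupp.ext fun v => ?_⟩
  rw [Finsupp.add_apply, FF.divOf_apply, ← hf' v, Finsupp.sub_apply]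
  ring

/-- Every class has an effective representative avoiding a finite set. -/
theorem exists_rep (x : Pic0 K F) {e : ℕ} (he : 2 * g ≤ e) (S : Finset (Place K F)) :
    ∃ E : Divisor K F, 0 ≤ E ∧ Divisor.degree E = e ∧ T.cls E = x ∧ ∀ P ∈ S, E P = 0 := by
  obtain ⟨⟨D, hD⟩, rfl⟩ := Pic0.mk_surjective x
  have hD' : Divisor.degree D = 0 := Divisor.mem_degZero.mp hD
  have hdeg : Divisor.degree (D + T.lv e) = e := by rw [map_add, hD', degree_lv, zero_add]
  obtain ⟨f, hf, hf0, hfS⟩ := FF.exists_exact_ord (D := D + T.lv e) S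
    (by rw [hdeg, T.genus]; omega)
  refine ⟨D + T.lv e + FF.divOf K f, (FF.nonneg_add_divOf_iff hf0).mpr hf, ?_, ?_, fun P hP => ?_⟩
  · rw [map_add, hdeg, FF.degree_divOf, add_zero]
  · rw [map_add, map_add, cls_lv, cls_divOf, add_zero, add_zero]
    refine congrArg Pic0.mk (Subtype.ext ?_)
    simp [hD']
  · rw [Finsupp.add_apply, FF.divOf_apply, hfS P hP, add_neg_cancel]

/-- The complement of `E` in the zeros of a section of `n ∞ - E`. -/
def compl (n : ℕ) (E : Divisor K F) (f : F) : Divisor K F := FF.divOf K f + T.lv n - E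

/-- The complement is effective. -/
theorem compl_nonneg {n : ℕ} {E : Divisor K F} {f : F} (hf : f ∈ LL (T.lv n - E)) (hf0 : f ≠ 0) :
    0 ≤ T.compl n E f := by
  have := (FF.nonneg_add_divOf_iff hf0).mpr hf
  rwa [compl, show FF.divOf K f + T.lv n - E = T.lv n - E + FF.divOf K f by abel]

/-- The complement has degree `n - e`. -/
theorem degree_compl {n e : ℕ} {E : Divisor K F} (hE : Divisor.degree E = e) (he : e ≤ n) (f : F) :
    Divisor.degree (T.compl n E f) = ((n - e : ℕ) : ℤ) := by
  rw [compl, map_sub, map_add, FF.degree_divOf, degree_lv, hE, zero_add, Nat.cast_sub he]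

/-- The complement has the opposite class. -/
theorem cls_compl (n : ℕ) (E : Divisor K F) (f : F) : T.cls (T.compl n E f) = -T.cls E := by
  rw [compl, map_sub, map_add, cls_lv, cls_divOf, add_zero, zero_sub]

end Frame

end Fermat.RED.Flat
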