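import Fermat.Agent.RED.Flat.Rep

/-!
# Points in general position for the invariant of a class

`Rep.exists_config`: outside any finite set there are points at which the matrices defining the
invariant of `Rep` are invertible. `Recover` evaluates the invariant there.
-/

set_option autoImplicit false

noncomputable section

open AlgebraicCurve

namespace Fermat.RED.Flat

variable {K F : Type*} [Field K] [Field F] [Algebra K F]
variable [IsAlgClosed K] [FF.IsFunctionField K F]

/-- The values of a family of functions at a point. -/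
def evVec {δ : Type*} (a : δ → F) (P : Place K F) : δ → K := fun l => FF.evalAt P (a l)

/-- Off a finite set of places, the values at `P` keep a short list of functionals independent. -/
theorem exists_finite_bad {δ ρ : Type*} [Fintype δ] [Fintype ρ] (a : δ → F)
    (ha : LinearIndependent K a) (v : ρ → δ → K) (hv : LinearIndependent K v)
    (hlt : Fintype.card ρ < Fintype.card δ) :
    ∃ S : Finset (Place K F), ∀ P ∉ S,
      LinearIndependent K (fun o : Option ρ => o.casesOn' (evVec a P) v) := by
  classical
  have hb := LinearMap.ker_ne_bot_of_finrank_lt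
    (f := (Matrix.of fun r l => v r l).mulVecLin) (by
      rw [Module.finrank_fintype_fun_eq_card, Module.finrank_fintype_fun_eq_card]
      exact hlt)
  obtain ⟨c, hc, hc0⟩ := Submodule.exists_mem_ne_zero_of_ne_bot hb
  have hcv : ∀ r, ∑ l, c l * v r l = 0 := fun r => by
    have h1 := congrFun (LinearMap.mem_ker.mp hc) r
    simpa [Matrix.mulVec, dotProduct, mul_comm] using h1
  have hψ : ∑ l, c l • a l ≠ 0 := fun h0 =>
    hc0 (funext (Fintype.linearIndependent_iff.mp ha _ h0))
  refine ⟨(FF.finite_setOf_ord_ne_zero (K := K) (∑ l, c l • a l)).toFinset ∪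
    Finset.univ.biUnion fun l => (FF.finite_setOf_ord_ne_zero (K := K) (a l)).toFinset,
    fun P hP => LinearIndependent.option hv fun hmem => ?_⟩
  simp only [Finset.mem_union, Finset.mem_biUnion, Finset.mem_univ, true_and,
    Set.Finite.mem_toFinset, Set.mem_ofPred_eq, not_or, not_exists, not_not] at hP
  have hl : ∀ l, FF.OrdGE P (a l) 0 := fun l =>
    (FF.ordGE_ord P _).mono (le_of_eq (hP.2 l).symm)
  have hle : Submodule.span K (Set.range v) ≤
      LinearMap.ker (∑ l, c l • LinearMap.proj (R := K) (φ := fun _ : δ => K) l) := by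
    rw [Submodule.span_le]
    rintro _ ⟨r, rfl⟩
    simpa using hcv r
  have h1 := hle hmem
  simp only [LinearMap.mem_ker, LinearMap.coe_sum, Finset.sum_apply, LinearMap.smul_apply,
    LinearMap.proj_apply, smul_eq_mul, evVec] at h1
  refine FF.evalAt_ne_zero hψ hP.1 ?_
  rw [FF.evalAt_sum _ _ fun l _ => (hl l).smul _, ← h1]
  exact Finset.sum_congr rfl fun l _ => FF.evalAt_const_smul _ (hl l)

/-- One more point keeps two groups of lists of functionals independent. -/
theorem exists_extend {δ δ' ρ ρ' : Type*} [Fintype δ] [Fintype δ'] [Fintype ρ] [Fintype ρ']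
    {I' : Type*} [Finite I'] (a : δ → F) (ha : LinearIndependent K a)
    (a' : δ' → F) (ha' : LinearIndependent K a')
    (v : ρ → δ → K) (hv : LinearIndependent K v)
    (v' : I' → ρ' → δ' → K) (hv' : ∀ i, LinearIndependent K (v' i))
    (hlt : Fintype.card ρ < Fintype.card δ) (hlt' : Fintype.card ρ' < Fintype.card δ')
    (bad : Finset (Place K F)) :
    ∃ P ∉ bad, LinearIndependent K (fun o : Option ρ => o.casesOn' (evVec a P) v) ∧
      ∀ i, LinearIndependent K (fun o : Option ρ' => o.casesOn' (evVec a' P) (v' i)) := by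
  classical
  have := Fintype.ofFinite I'
  obtain ⟨S, hS⟩ := exists_finite_bad a ha v hv hlt
  choose S' hS' using fun i => exists_finite_bad a' ha' (v' i) (hv' i) hlt'
  obtain ⟨P, hP⟩ := Infinite.exists_notMem_finset (bad ∪ S ∪ Finset.univ.biUnion S')
  simp only [Finset.mem_union, Finset.mem_biUnion, Finset.mem_univ, true_and, not_or,
    not_exists] at hP
  exact ⟨P, hP.1.1, hS P hP.1.2, fun i => hS' i P (hP.2 i)⟩

/-- An empty list of points keeps independence. -/
theorem sumElim_fin_zero {μ ε : Type*} (w : μ → ε → K) (b : ε → F) (q : Fin 0 → Place K F)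
    (hw : LinearIndependent K w) : LinearIndependent K (Sum.elim w fun r => evVec b (q r)) := by
  convert hw.comp (Equiv.sumEmpty μ (Fin 0)) (Equiv.injective _) using 1
  funext z
  rcases z with r | r
  · rfl
  · exact r.elim0

/-- A new point keeping independence extends the list of points. -/
theorem sumElim_snoc {μ ε : Type*} {N : ℕ} (w : μ → ε → K) (b : ε → F) (p : Fin N → Place K F)
    (P : Place K F) (h : LinearIndependent K (fun o : Option (μ ⊕ Fin N) =>
      o.casesOn' (evVec b P) (Sum.elim w fun r => evVec b (p r)))) :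
    LinearIndependent K
      (Sum.elim w fun r => evVec b ((Fin.snoc p P : Fin (N + 1) → Place K F) r)) := by
  let e : μ ⊕ Fin (N + 1) → Option (μ ⊕ Fin N) :=
    Sum.elim (fun r => some (Sum.inl r)) (Fin.lastCases none fun r => some (Sum.inr r))
  have he : Function.Injective e := by
    rintro (r | r) (r' | r') h
    · simp_all [e]
    · induction r' using Fin.lastCases <;> simp_all [e]
    · induction r using Fin.lastCases <;> simp_all [e]
    · induction r using Fin.lastCases <;> induction r' using Fin.lastCases <;> simp_all [e]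
  convert h.comp e he using 1
  funext z
  rcases z with r | r
  · rfl
  · refine Fin.lastCases ?_ (fun r => ?_) r <;> simp [e]

/-- Finitely many more points keep two groups of lists of functionals independent. -/
theorem exists_extend_many {δ δ' ρ ρ' : Type*} [Fintype δ] [Fintype δ'] [Fintype ρ] [Fintype ρ']
    {I' : Type*} [Finite I'] (a : δ → F) (ha : LinearIndependent K a)
    (a' : δ' → F) (ha' : LinearIndependent K a')
    (v : ρ → δ → K) (hv : LinearIndependent K v)
    (v' : I' → ρ' → δ' → K) (hv' : ∀ i, LinearIndependent K (v' i))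
    (bad : Finset (Place K F)) (N : ℕ)
    (hlt : Fintype.card ρ + N ≤ Fintype.card δ) (hlt' : Fintype.card ρ' + N ≤ Fintype.card δ') :
    ∃ p : Fin N → Place K F, (∀ r, p r ∉ bad) ∧
      LinearIndependent K (Sum.elim v fun r => evVec a (p r)) ∧
      ∀ i, LinearIndependent K (Sum.elim (v' i) fun r => evVec a' (p r)) := by
  classical
  induction N with
  | zero =>
    exact ⟨Fin.elim0, fun r => r.elim0, sumElim_fin_zero _ _ _ hv,
      fun i => sumElim_fin_zero _ _ _ (hv' i)⟩
  | succ N ih =>
    obtain ⟨p, hp, hind, hind'⟩ := ih (by omega) (by omega)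
    obtain ⟨P, hP, hPi, hPi'⟩ := exists_extend a ha a' ha' _ hind _ hind'
      (by rw [Fintype.card_sum, Fintype.card_fin]; omega)
      (by rw [Fintype.card_sum, Fintype.card_fin]; omega) bad
    refine ⟨Fin.snoc p P, fun r => ?_, sumElim_snoc _ _ _ _ hPi,
      fun i => sumElim_snoc _ _ _ _ (hPi' i)⟩
    refine Fin.lastCases ?_ (fun r => ?_) r
    · simpa using hP
    · simpa using hp r

/-! ### Minors -/

variable {ι : Type*} [Fintype ι] [DecidableEq ι]

/-- The matrix of values. -/
def evMat (a : ι → F) (p : ι → Place K F) : Matrix ι ι K :=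
  Matrix.of fun i c => FF.evalAt (p c) (a i)

/-- The combination of the functions given by the cofactors of one column. -/
def minorFun (a : ι → F) (p : ι → Place K F) (j : ι) : F :=
  ∑ i, Matrix.cramer (evMat a p) (Pi.single i 1) j • a i

omit [IsAlgClosed K] in
/-- Cofactor expansion along a column. -/
theorem sum_cramer (M : Matrix ι ι K) (j : ι) (v : ι → K) :
    ∑ i, Matrix.cramer M (Pi.single i 1) j * v i = (M.updateCol j v).det := by
  rw [← Matrix.cramer_apply]
  conv_rhs => rw [show v = ∑ i, v i • (Pi.single i (1 : K) : ι → K) by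
    funext l
    simp [Finset.sum_apply, Pi.single_apply]]
  rw [map_sum, Finset.sum_apply]
  exact Finset.sum_congr rfl fun i _ => by rw [map_smul, Pi.smul_apply, smul_eq_mul, mul_comm]

/-- The values of a minor function are minors. -/
theorem evalAt_minorFun {a : ι → F} {p : ι → Place K F} {j : ι} {Q : Place K F}
    (hQ : ∀ i, FF.OrdGE Q (a i) 0) :
    FF.evalAt Q (minorFun a p j) = (evMat a (Function.update p j Q)).det := by
  rw [minorFun, FF.evalAt_sum _ _ fun i _ => (hQ i).smul _]
  refine Eq.trans (Finset.sum_congr rfl fun i _ => FF.evalAt_const_smul _ (hQ i)) ?_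
  rw [sum_cramer]
  congr 1
  ext i c
  rcases eq_or_ne c j with rfl | hc
  · simp [evMat]
  · simp [evMat, hc]

/-- Minor functions are sections. -/
theorem minorFun_mem {D : Divisor K F} {a : ι → F} (ha : ∀ i, a i ∈ LL D) (p : ι → Place K F)
    (j : ι) : minorFun a p j ∈ LL D :=
  Submodule.sum_mem _ fun i _ => Submodule.smul_mem _ _ (ha i)

/-- A minor function of an invertible matrix is nonzero. -/
theorem minorFun_ne_zero {a : ι → F} {p : ι → Place K F} (ha : LinearIndependent K a) {j : ι}
    (h : (evMat a p).det ≠ 0) : minorFun a p j ≠ 0 := by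
  intro h0
  have h1 := Fintype.linearIndependent_iff.mp ha _ h0
  have h2 := sum_cramer (evMat a p) j (fun i => evMat a p i j)
  simp only [h1, zero_mul, Finset.sum_const_zero] at h2
  rw [show (evMat a p).updateCol j (fun i => evMat a p i j) = evMat a p from
    Matrix.updateCol_eq_self _ j] at h2
  exact h h2.symm

/-- At equal points the minors of two columns are opposite. -/
theorem minorFun_swap {a : ι → F} {p : ι → Place K F} {j j' : ι} (hjj : j ≠ j') (hp : p j = p j') :
    minorFun a p j' = -minorFun a p j := by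
  simp only [minorFun, ← Finset.sum_neg_distrib, ← neg_smul, Matrix.cramer_apply]
  refine Finset.sum_congr rfl fun i _ => ?_
  congr 1
  have h : (evMat a p).updateCol j' (Pi.single i 1) =
      ((evMat a p).updateCol j (Pi.single i 1)).submatrix id (Equiv.swap j j') := by
    ext l c
    rcases eq_or_ne c j' with rfl | hc'
    · simp
    rcases eq_or_ne c j with rfl | hc
    · simp [hjj, evMat, hp, Equiv.swap_apply_left, Ne.symm hjj]
    · simp [hc, hc', Equiv.swap_apply_of_ne_of_ne hc hc']
  rw [h, Matrix.det_permute', Equiv.Perm.sign_swap hjj]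
  simp

/-- Independent value vectors give an invertible matrix. -/
theorem det_evMat_ne_zero {a : ι → F} {p : ι → Place K F}
    (h : LinearIndependent K fun c => evVec a (p c)) : (evMat a p).det ≠ 0 := by
  rw [← isUnit_iff_ne_zero, ← Matrix.isUnit_iff_isUnit_det,
    ← Matrix.linearIndependent_cols_iff_isUnit]
  exact h

/-! ### General position -/

variable {g : ℕ} {T : Frame K F g} {x : Pic0 K F}

/-- The last of the `g + 2` indices. -/
abbrev lastI (g : ℕ) : Fin (g + 2) := Fin.last (g + 1)

/-- The zeros of a section of the second kind. -/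
def Rep.zerosB (ρ : Rep T x) (φ : F) : Divisor K F := T.compl (5 * g + 4) ρ.E' φ

/-- Points in general position for the data. -/
structure Config (ρ : Rep T x) where
  /-- The points for the first block of columns. -/
  q₁ : Fin (g + 2) → Place K F
  /-- The points for the second block of columns. -/
  q₂ : Fin (g + 2) → Place K F
  /-- The last points of the two blocks agree. -/
  last_eq : q₁ (lastI g) = q₂ (lastI g)
  /-- The first points are good. -/
  good₁ : ∀ r, ρ.GoodPt (q₁ r)
  /-- The second points are good. -/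
  good₂ : ∀ r, ρ.GoodPt (q₂ r)
  /-- The point replacing the common last one. -/
  Q : Place K F
  /-- `Q` is good. -/
  goodQ : ρ.GoodPt Q
  /-- The `a`-matrix at all points, with `Q` for the first last one, is invertible. -/
  detA : (evMat ρ.a (Function.update (Sum.elim q₁ q₂) (Sum.inl (lastI g)) Q)).det ≠ 0
  /-- The `b`-matrix at the first points is invertible. -/
  detB₁ : (evMat ρ.b q₁).det ≠ 0
  /-- The `b`-matrix at the second points is invertible. -/
  detB₂ : (evMat ρ.b q₂).det ≠ 0
  /-- The `b`-matrix at the first points with `Q` for the last is invertible. -/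
  detBQ : (evMat ρ.b (Function.update q₁ (lastI g) Q)).det ≠ 0
  /-- The zeros besides `E'` of the two last minor functions are disjoint. -/
  disjoint : ∀ P : Place K F,
    ρ.zerosB (minorFun ρ.b q₁ (lastI g)) P = 0 ∨ ρ.zerosB (minorFun ρ.b q₂ (lastI g)) P = 0

/-- A list of points completed by one more point. -/
private theorem linearIndependent_snoc {m : ℕ} {δ : Type*} (a : δ → F) (p : Fin m → Place K F)
    (P : Place K F)
    (h : LinearIndependent K fun o : Option (Fin m) =>
      o.casesOn' (evVec a P) fun r => evVec a (p r)) :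
    LinearIndependent K fun r => evVec a ((Fin.snoc p P : Fin (m + 1) → Place K F) r) := by
  convert h.comp (finSuccEquivLast (n := m)) (Equiv.injective _) using 1
  funext r
  refine Fin.lastCases ?_ (fun r => ?_) r <;> simp

/-- Two lists with a common last point, the first of them moved to an extra point. -/
private theorem linearIndependent_update {δ : Type*} (a : δ → F) (G H : Fin (g + 1) → Place K F)
    (R Q : Place K F)
    (h : LinearIndependent K fun o : Option (Option (Fin (g + 1) ⊕ Fin (g + 1))) =>
      o.casesOn' (evVec a Q) fun o => o.casesOn' (evVec a R)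
        (Sum.elim (fun r => evVec a (G r)) fun r => evVec a (H r))) :
    LinearIndependent K fun c : Col g => evVec a (Function.update
      (Sum.elim (Fin.snoc G R : Fin (g + 2) → Place K F) (Fin.snoc H R))
      (Sum.inl (lastI g)) Q c) := by
  let e : Col g → Option (Option (Fin (g + 1) ⊕ Fin (g + 1))) :=
    Sum.elim (Fin.lastCases none fun r => some (some (Sum.inl r)))
      (Fin.lastCases (some none) fun r => some (some (Sum.inr r)))
  have he : Function.Injective e := by
    rintro (r | r) (r' | r') h <;> induction r using Fin.lastCases <;>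
      induction r' using Fin.lastCases <;> simp_all [e]
  convert h.comp e he using 1
  funext z
  rcases z with r | r <;> refine Fin.lastCases ?_ (fun r => ?_) r <;>
    simp [e, Fin.castSucc_ne_last]

/-- The minor of the last column does not depend on the last point. -/
private theorem minorFun_snoc_last (a : Fin (g + 2) → F) (p : Fin (g + 1) → Place K F)
    (P P' : Place K F) :
    minorFun a (Fin.snoc p P) (lastI g) = minorFun a (Fin.snoc p P') (lastI g) := by
  simp only [minorFun]
  refine Finset.sum_congr rfl fun i _ => ?_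
  congr 1
  rw [Matrix.cramer_apply, Matrix.cramer_apply]
  congr 1
  ext l c
  rcases eq_or_ne c (lastI g) with rfl | hc
  · simp
  · obtain ⟨c', rfl⟩ : ∃ c', Fin.castSucc c' = c := Fin.exists_castSucc_eq.mpr hc
    simp [evMat]

/-- At every place the sections of the second kind twisted by a suitable function are regular and
do not all vanish. -/
private theorem Rep.exists_twist (ρ : Rep T x) (P : Place K F) :
    ∃ t : F, t ≠ 0 ∧ P.ord t = T.lv (5 * g + 4) P - ρ.E' P ∧
      (∀ l, FF.OrdGE P (t * ρ.b l) 0) ∧
      LinearIndependent K (fun _ : Unit => fun l => FF.evalAt P (t * ρ.b l)) := by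
  obtain ⟨t, ht0, ht⟩ := FF.exists_ord_eq P (T.lv (5 * g + 4) P - ρ.E' P)
  have htb : ∀ l, FF.OrdGE P (t * ρ.b l) 0 := fun l =>
    ((FF.ordGE_ord P t).mul (FF.mem_riemannRochSpace.mp (ρ.b_mem l) P)).mono (by
      rw [ht, Rep.E', Finsupp.sub_apply]; omega)
  refine ⟨t, ht0, ht, htb, LinearIndependent.of_subsingleton () fun h0 => ?_⟩
  obtain ⟨w, hw, hw0, hwP⟩ := FF.exists_exact_ord {P}
    (T.two_mul_genus_le ρ.degree_E' (n := 5 * g + 4) (by omega))
  have hspan : Submodule.span K (Set.range ρ.b) = LL (T.lv (5 * g + 4) - ρ.E') :=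
    Submodule.eq_of_le_of_finrank_le (Submodule.span_le.mpr (by
      rintro _ ⟨l, rfl⟩; exact ρ.b_mem l))
      (by rw [finrank_span_eq_card ρ.b_indep, ρ.finrank_B, Fintype.card_fin])
  obtain ⟨c, hc⟩ := (Submodule.mem_span_range_iff_exists_fun K).mp (hspan.symm.le hw)
  have h1 : P.ord (t * w) = 0 := by
    rw [P.ord_mul ht0 hw0, ht, hwP P (Finset.mem_singleton_self P), Finsupp.sub_apply]
    omega
  refine FF.evalAt_ne_zero (mul_ne_zero ht0 hw0) h1 ?_
  rw [← hc, Finset.mul_sum]
  simp only [mul_smul_comm]
  rw [FF.evalAt_sum _ _ fun l _ => (htb l).smul _]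
  exact Finset.sum_eq_zero fun l _ => by rw [FF.evalAt_const_smul _ (htb l), congrFun h0 l]; simp

/-- The divisor of zeros of a minor avoids a place where a twist keeps its columns independent. -/
private theorem Rep.zerosB_minorFun_eq_zero (ρ : Rep T x) {H : Fin (g + 1) → Place K F}
    (R P : Place K F) {t : F} (ht0 : t ≠ 0) (ht : P.ord t = T.lv (5 * g + 4) P - ρ.E' P)
    (htb : ∀ l, FF.OrdGE P (t * ρ.b l) 0)
    (h : LinearIndependent K (Sum.elim (fun _ : Unit => fun l => FF.evalAt P (t * ρ.b l))
      fun r => evVec ρ.b (H r))) :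
    ρ.zerosB (minorFun ρ.b (Fin.snoc H R) (lastI g)) P = 0 := by
  set φ₂ := minorFun ρ.b (Fin.snoc H R) (lastI g) with hφ₂
  have hval : FF.evalAt P (t * φ₂) ≠ 0 := by
    rw [hφ₂, minorFun, Finset.mul_sum]
    simp only [mul_smul_comm]
    rw [FF.evalAt_sum _ _ fun l _ => (htb l).smul _, Finset.sum_congr rfl fun l _ =>
      FF.evalAt_const_smul _ (htb l), sum_cramer, ← isUnit_iff_ne_zero,
      ← Matrix.isUnit_iff_isUnit_det, ← Matrix.linearIndependent_cols_iff_isUnit]
    let e : Fin (g + 2) → Unit ⊕ Fin (g + 1) := Fin.lastCases (Sum.inl ()) fun r => Sum.inr r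
    have he : Function.Injective e := by
      intro r r' h
      induction r using Fin.lastCases <;> induction r' using Fin.lastCases <;> simp_all [e]
    convert h.comp e he using 1
    funext c l
    refine Fin.lastCases ?_ (fun r => ?_) c <;>
      simp [e, evMat, evVec, Fin.castSucc_ne_last, Matrix.col]
  have hb2 : φ₂ ∈ LL (T.lv (5 * g + 4) - ρ.E') := minorFun_mem ρ.b_mem _ _
  have hφ0 : φ₂ ≠ 0 := fun h0 => hval (by
    rw [h0, mul_zero]
    exact FF.evalAt_eq (by simpa using FF.ordGE_zero P 1))
  have h1 : P.ord (t * φ₂) ≤ 0 := by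
    by_contra hlt
    exact hval ((FF.evalAt_eq_zero_iff ((FF.ordGE_ord P _).mono (by omega))).mpr
      ((FF.ordGE_ord P _).mono (by omega)))
  have h2 := T.compl_nonneg hb2 hφ0
  have h3 := Finsupp.le_def.mp h2 P
  rw [P.ord_mul ht0 hφ0, ht] at h1
  simp only [Rep.zerosB, Frame.compl, Finsupp.coe_zero, Pi.zero_apply, Finsupp.sub_apply,
    Finsupp.add_apply, FF.divOf_apply] at h3 ⊢
  omega

/-- **Points in general position exist**, avoiding any finite set. -/
theorem Rep.exists_config (ρ : Rep T x) (bad : Finset (Place K F)) :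
    ∃ c : Config ρ, (∀ r, c.q₁ r ∉ bad) ∧ (∀ r, c.q₂ r ∉ bad) ∧ c.Q ∉ bad := by
  classical
  set bad' := bad ∪ {T.pt} ∪ ρ.E.support ∪ ρ.E'.support with hbad'
  have hgood : ∀ P ∉ bad', P ∉ bad ∧ ρ.GoodPt P := by
    intro P hP
    simp only [hbad', Finset.mem_union, Finset.mem_singleton, Finsupp.mem_support_iff,
      not_or, not_not] at hP
    exact ⟨hP.1.1.1, hP.1.1.2, hP.1.2, hP.2⟩
  -- the first list
  obtain ⟨G, hG, hGA', hGB'⟩ := exists_extend_many (I' := Unit) ρ.a ρ.a_indep ρ.b ρ.b_indep
    (Fin.elim0 : Fin 0 → Col g → K) linearIndependent_empty_type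
    (fun _ => (Fin.elim0 : Fin 0 → Fin (g + 2) → K)) (fun _ => linearIndependent_empty_type)
    bad' (g + 1) (by simp; omega) (by simp)
  have hGA : LinearIndependent K fun r => evVec ρ.a (G r) := hGA'.comp Sum.inr Sum.inr_injective
  have hGB : LinearIndependent K fun r => evVec ρ.b (G r) :=
    (hGB' ()).comp Sum.inr Sum.inr_injective
  -- a point completing it, to know the first minor
  obtain ⟨P₀, hP₀, hP₀A, hP₀i⟩ := exists_extend (I' := Unit) ρ.a ρ.a_indep ρ.b ρ.b_indep
    _ hGA (fun _ r => evVec ρ.b (G r)) (fun _ => hGB) (by simp; omega) (by simp) bad'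
  set φ₁ := minorFun ρ.b (Fin.snoc G P₀) (lastI g) with hφ₁
  set Z := (ρ.zerosB φ₁).support
  -- the second list
  choose t ht0 ht htb hlam using ρ.exists_twist
  obtain ⟨H, hH, hGHA, hHi⟩ := exists_extend_many (I' := Option Z) ρ.a ρ.a_indep ρ.b ρ.b_indep
    _ hGA (fun o _ l => FF.evalAt (o.elim P₀ Subtype.val) (t (o.elim P₀ Subtype.val) * ρ.b l))
    (fun o => hlam _) bad' (g + 1) (by simp; omega) (by simp; omega)
  have hHB : LinearIndependent K fun r => evVec ρ.b (H r) :=
    (hHi none).comp Sum.inr Sum.inr_injective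
  -- the common last point
  obtain ⟨R₀, hR₀, hR₀A, hR₀i⟩ := exists_extend (I' := Bool) ρ.a ρ.a_indep ρ.b ρ.b_indep
    _ hGHA (fun o r => evVec ρ.b (if o then G r else H r))
    (fun o => by cases o <;> simpa) (by simp; omega) (by simp) bad'
  -- the extra point
  obtain ⟨Q, hQ, hQA, hQi⟩ := exists_extend (I' := Unit) ρ.a ρ.a_indep ρ.b ρ.b_indep
    _ hR₀A (fun _ r => evVec ρ.b (G r)) (fun _ => hGB) (by simp; omega) (by simp) bad'
  refine ⟨⟨Fin.snoc G R₀, Fin.snoc H R₀, by simp, ?_, ?_, Q, (hgood Q hQ).2,
    det_evMat_ne_zero (linearIndependent_update ρ.a G H R₀ Q hQA),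
    det_evMat_ne_zero (linearIndependent_snoc _ G R₀ (by simpa using hR₀i true)),
    det_evMat_ne_zero (linearIndependent_snoc _ H R₀ (by simpa using hR₀i false)), ?_, ?_⟩,
    ?_, ?_, (hgood Q hQ).1⟩
  · exact fun r => Fin.lastCases (by simpa using (hgood R₀ hR₀).2)
      (fun r => by simpa using (hgood _ (hG r)).2) r
  · exact fun r => Fin.lastCases (by simpa using (hgood R₀ hR₀).2)
      (fun r => by simpa using (hgood _ (hH r)).2) r
  · rw [Fin.update_snoc_last]
    exact det_evMat_ne_zero (linearIndependent_snoc _ G Q (hQi ()))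
  · intro P
    rw [minorFun_snoc_last ρ.b G R₀ P₀, ← hφ₁]
    by_cases hP : ρ.zerosB φ₁ P = 0
    · exact Or.inl hP
    · exact Or.inr (ρ.zerosB_minorFun_eq_zero R₀ P (ht0 P) (ht P) (htb P)
        (hHi (some ⟨P, Finsupp.mem_support_iff.mpr hP⟩)))
  · exact fun r => Fin.lastCases (by simpa using (hgood R₀ hR₀).1)
      (fun r => by simpa using (hgood _ (hG r)).1) r
  · exact fun r => Fin.lastCases (by simpa using (hgood R₀ hR₀).1)
      (fun r => by simpa using (hgood _ (hH r)).1) r

end Fermat.RED.Flat
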