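import Fermat.Agent.RED.Flat.Instance
import Fermat.Agent.RED.Model.X0Normal
import Fermat.Agent.HT.Cusp.Places

/-!
# The model of `X₀(N)` at a place prime to the level, for finite modules of classes
-/

set_option autoImplicit false

noncomputable section

open IsLocalRing ModularCurve Fermat.RED.Model

namespace Fermat.RED.Flat

local notation "ℚbar" => AlgebraicClosure ℚ
local notation "Γℚ" => (AlgebraicClosure ℚ ≃ₐ[ℚ] AlgebraicClosure ℚ)

/-- **Finite Galois modules of classes on `X₀(N)` have models at `p ∤ N`.** -/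
theorem nonempty_model_jZero {N : ℕ} [NeZero N] {p : ℕ} [Fact p.Prime] (hpN : ¬ p ∣ N)
    {A : ValuationSubring ℚbar} (hA : Fermat.EC.Val.IsPlace A p)
    {M : Type*} [AddCommGroup M] [Finite M] {τ : Type*} [Finite τ]
    (gM : Γℚ →* AddMonoid.End M) (f : τ → M →+ JZero N)
    (hf : ∀ t σ m, f t (gM σ m) = σ • f t m) (hinj : ∀ m, (∀ t, f t m = 0) → m = 0) :
    Nonempty (Fermat.FLAT.Model A (⊤ : Subgroup Γℚ) (fun σ => gM σ)) := by
  have := isAlgClosed_residue A
  have hπ : Function.Surjective (residue A) := residue_surjective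
  have hN : (N : ResidueField A) ≠ 0 := natCast_ne_zero_residue A hA.1 hA.2 hpN
  let φ : ℚbar →+* ℂ := (IsAlgClosed.lift (R := ℚ) (S := ℚbar) (M := ℂ)).toRingHom
  obtain ⟨d, x, hx, h, hn, hn'⟩ : ∃ (d : ℕ) (x : FB (modularFunctionFieldFull N)),
      (x : LaurentSeries ℚbar).order = -1 ∧
      GoodModel (residue A) (ιB (modularFunctionFieldFull N)) x d ∧
      Fermat.RED.Model.Normal A (residue A) (ιB (modularFunctionFieldFull N)) x ∧
      Fermat.RED.Model.Normal A (residue A) (ιB (modularFunctionFieldFull N)) x⁻¹ := by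
    suffices ∀ S : IntermediateField ℚbar (LaurentSeries ℚbar),
        S = modularFunctionFieldFullC ℚbar N → ∃ (d : ℕ) (x : S),
          (x : LaurentSeries ℚbar).order = -1 ∧ GoodModel (residue A) S.val.toRingHom x d ∧
          Fermat.RED.Model.Normal A (residue A) S.val.toRingHom x ∧
          Fermat.RED.Model.Normal A (residue A) S.val.toRingHom x⁻¹ from
      this _ (fullC_eq_baseChange ℚbar N)
    rintro S rfl
    exact ⟨_, jX ℚbar N, Fermat.HT.Cusp.order_jqModC, goodModel_X0 hπ hN,
      (normal_X0 φ hπ hN).1, (normal_X0 φ hπ hN).2⟩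
  have := h.toPreModel.isFunctionField
  have := h.toPreModel.isFunctionField_spec
  exact nonempty_model_of_goodModel hA h hn hn' hx gM f hf hinj

end Fermat.RED.Flat
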