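import Fermat.Agent.RED.Flat.Traces
import Fermat.Agent.RED.Flat.X0Data
import Fermat.Agent.GR.ES.HasInput
import Fermat.Agent.GR.ES.JZeroGalois

/-!
# Hecke representations of level prime to `p` are flat at `p`
-/

set_option autoImplicit false

noncomputable section

open ModularCurve Fermat.GR

namespace Fermat.RED.Flat

local notation "ℚbar" => AlgebraicClosure ℚ

/-- Finite modules mapping to `J₀(N)` have models at the places over primes not dividing `N`. -/
theorem hasModels_jZero {N : ℕ} [NeZero N] {p : ℕ} [Fact p.Prime] (hpN : ¬ p ∣ N)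
    {A : ValuationSubring ℚbar} (hA : Fermat.EC.Val.IsPlace A p) : HasModels A (JZero N) :=
  fun _ _ _ _ _ gM f hf hinj => nonempty_model_jZero hpN hA gM f hf hinj

variable {N p : ℕ} [NeZero N] [Fact p.Prime] {S : Finset ℕ}

/-- **Flatness of Hecke representations.** The representation of a Hecke datum of level prime to `p`
is flat at `p`. -/
theorem isFlatAt_of_datum {𝒪 : Type} [CommRing 𝒪] [IsDomain 𝒪] [IsDiscreteValuationRing 𝒪]
    [IsAdicComplete (IsLocalRing.maximalIdeal 𝒪) 𝒪] [Finite (IsLocalRing.ResidueField 𝒪)]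
    {θ : CuspForm.heckeAlgebra N 2 (↑S : Set ℕ) →+* IsLocalRing.ResidueField 𝒪}
    {T : Type} [CommRing T] [IsLocalRing T] [IsNoetherianRing T]
    [IsAdicComplete (IsLocalRing.maximalIdeal T) T] [Algebra 𝒪 T] [IsLocalHom (algebraMap 𝒪 T)]
    [Module.Finite 𝒪 T] [Module.Free 𝒪 T]
    (hp𝒪 : (p : 𝒪) ∈ IsLocalRing.maximalIdeal 𝒪) (hpN : ¬ p ∣ N) (hpS : p ∈ S)
    (hNS : ∀ q : ℕ, q.Prime → q ∣ N → q ∈ S)
    (H : CuspForm.HeckeGaloisRepDatum N (↑S : Set ℕ) 𝒪 θ T) :
    H.ρ.IsFlatAt p := by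
  classical
  have hp : p.Prime := Fact.out
  obtain ⟨A, hA⟩ := Fermat.CFT.exists_place hp
  let D₀ := (hasESInput N p).some
  have hpT : (p : T) ∈ IsLocalRing.maximalIdeal T := by
    rw [← map_natCast (algebraMap 𝒪 T)]
    exact map_nonunit (algebraMap 𝒪 T) _ hp𝒪
  -- the residue field of `T` is finite
  have hres : Finite (IsLocalRing.ResidueField T) := by
    refine Finite.of_surjective (IsLocalRing.ResidueField.map (algebraMap 𝒪 T)) fun y => ?_
    obtain ⟨a, rfl⟩ := H.residue_surjective y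
    exact ⟨IsLocalRing.residue 𝒪 a, IsLocalRing.ResidueField.map_residue _ a⟩
  set b := someBasis H.ρ
  -- by absolute irreducibility the matrices span
  have hspan : Submodule.span T (Set.range (matOf H.ρ b)) = ⊤ := by
    refine span_eq_top_of_residue ?_
    have hres' := span_range_toMatrix_eq_top H.ρ.residual H.residual_absIrr
      (Algebra.TensorProduct.basis (IsLocalRing.ResidueField T) b)
    rw [← hres']
    congr 2
    funext g
    exact ((LinearMap.toMatrix_baseChange _ _ b b).trans rfl).symm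
  -- so flatness follows from the models of the torsion of the Jacobian
  refine isFlatAt_of_annihilator H.ρ hres b (A := A) ⟨hp, hA⟩ (hasModels_jZero hpN ⟨hp, hA⟩)
    (fun M => D₀.finite_torsion M) fun n => ?_
  let i : CuspForm.heckeAlgebra N 2 (↑S : Set ℕ) →+* FullHecke N :=
    (Subalgebra.inclusion (CuspForm.heckeAlgebra_mono (Set.empty_subset (↑S : Set ℕ)))).toRingHom
  refine exists_comboMat_mem D₀.toData i H.π (Subalgebra.inclusion_injective _) hpT
    (matCont_matOf H.ρ b) hspan S (fun ℓ hℓ hℓS => ?_) n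
  have hℓN : ¬ ℓ ∣ N := fun h => hℓS (hNS ℓ hℓ h)
  refine ⟨fun h => (hℓ.dvd_mul.mp h).elim hℓN fun h' =>
      hℓS ((Nat.prime_dvd_prime_iff_eq hℓ hp).mp h' ▸ hpS),
    CuspForm.heckeAlgebra.T hℓ hℓN hℓS, ℓ,
    by rw [heckeT0_eq hℓ hℓN]; rfl, by rw [map_natCast, mul_one], fun B hB φ hφ => ?_⟩
  -- where Frobenius has the trace and determinant of the Hecke operators
  have hcp := H.charpoly_frob ℓ hℓ hℓN hℓS B hB φ hφ
  rw [← LinearMap.charpoly_toMatrix (H.ρ.ρ φ) b, ← matOf_apply] at hcp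
  obtain ⟨ht, hd⟩ := trace_det_of_charpoly_matrix hcp
  exact ⟨ht, by rw [map_natCast]; exact hd⟩

end Fermat.RED.Flat
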