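import Mathlib

/-!
# Linear algebra over a local ring of functions on points of a valuation ring

`Pts A R S` is a ring `R` with evaluations at the points of `S` in a valuation ring `A`, all
reducing to one map to the residue field, in which the elements with nonzero reduction are units.
The kernel of a matrix over `R` whose rank is the same at the points and at the special point is
spanned by vectors over `R`.
-/

set_option autoImplicit false

noncomputable section

open IsLocalRing Matrix

namespace Fermat.RED.Flat

variable {L : Type*} [Field L] (A : ValuationSubring L)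

/-- A ring of functions on `S` with values in `A`, local at one residual point. -/
structure Pts (R : Type*) [CommRing R] (S : Type*) where
  /-- Evaluation at the points. -/
  ev : S → R →+* A
  /-- The residual point. -/
  res : R →+* ResidueField A
  /-- All evaluations reduce to the residual point. -/
  residue_ev : ∀ s r, residue A (ev s r) = res r
  /-- The constant functions. -/
  const : A →+* R
  /-- Constants evaluate to themselves. -/
  ev_const : ∀ s a, ev s (const a) = a
  /-- Constants have their residues at the residual point. -/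
  res_const : ∀ a, res (const a) = residue A a
  /-- A function nonzero at the residual point is a unit. -/
  isUnit_of_res : ∀ r, res r ≠ 0 → IsUnit r

namespace Pts

variable {A} {R : Type*} [CommRing R] {S : Type*} (P : Pts A R S)

/-- The value at a point, in the field. -/
def evL (s : S) : R →+* L := A.subtype.comp (P.ev s)

/-- The value of `evL`. -/
lemma evL_apply (s : S) (r : R) : P.evL s r = (P.ev s r : L) := rfl

/-- Constants have constant values. -/
@[simp] lemma evL_const (s : S) (a : A) : P.evL s (P.const a) = (a : L) := by
  rw [evL_apply, P.ev_const]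

end Pts

variable {A}

/-- A nonzero finite family has a multiple with values in `A` and one of them equal to `1`, so
primitive. -/
theorem exists_scale_primitive {ι : Type*} [Finite ι] {c : ι → L} (hc : c ≠ 0) :
    ∃ l : L, l ≠ 0 ∧ ∃ v : ι → A, (∀ i, (v i : L) = l * c i) ∧ (fun i => residue A (v i)) ≠ 0 ∧
      ∃ i, l * c i = 1 := by
  have : Nonempty ι := by
    by_contra h
    exact hc (funext fun i => absurd ⟨i⟩ h)
  obtain ⟨j, hj⟩ := Finite.exists_max fun i => A.valuation (c i)
  have hc0 : c j ≠ 0 := by
    intro hz
    apply hc
    funext i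
    have := hj i
    rw [hz, map_zero, le_zero_iff, map_eq_zero] at this
    exact this
  have hmem : ∀ i, (c j)⁻¹ * c i ∈ A := fun i => by
    rw [← A.valuation_le_one_iff, map_mul, map_inv₀]
    exact inv_mul_le_one_of_le₀ (hj i) zero_le
  refine ⟨(c j)⁻¹, inv_ne_zero hc0, fun i => ⟨_, hmem i⟩, fun i => rfl, fun h0 => ?_,
    j, inv_mul_cancel₀ hc0⟩
  have h1 := congrFun h0 j
  have : (⟨_, hmem j⟩ : A) = 1 := Subtype.ext (inv_mul_cancel₀ hc0)
  simp [this] at h1

/-- Vectors independent modulo the maximal ideal are independent. -/
theorem linearIndependent_of_residue {ι κ : Type*} [Fintype ι] {v : ι → κ → A}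
    (h : LinearIndependent (ResidueField A) fun i j => residue A (v i j)) :
    LinearIndependent L fun i j => (v i j : L) := by
  rw [Fintype.linearIndependent_iff]
  intro c hc
  by_contra! hne
  obtain ⟨i₀, hi₀⟩ := hne
  obtain ⟨l, -, w, hw, hw0, -⟩ := exists_scale_primitive (A := A) (c := c)
    (fun e => hi₀ (congrFun e i₀))
  refine hw0 (funext (Fintype.linearIndependent_iff.mp h (fun i => residue A (w i))
    (funext fun j => ?_)))
  have h1 : ∑ i, w i * v i j = 0 := by
    refine Subtype.ext ?_
    push_cast
    simp only [hw, mul_assoc, ← Finset.mul_sum]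
    have := congrFun hc j
    simp only [Finset.sum_apply, Pi.smul_apply, smul_eq_mul, Pi.zero_apply] at this
    rw [this, mul_zero]
  simpa [map_sum] using congrArg (residue A) h1

universe u

/-- Rows spanning the reduction of a matrix, completed by constant rows to an invertible matrix. -/
private theorem Pts.exists_completion {R : Type*} [CommRing R] {S : Type*} (P : Pts A R S)
    {a : Type u} {b : Type*} [Finite a] [Fintype b] [DecidableEq b] (M : Matrix a b R) :
    ∃ (I : Type u) (_ : Fintype I) (sel : I → a) (n : ℕ) (N : Matrix (I ⊕ Fin n) b R)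
      (e : b ≃ I ⊕ Fin n), (∀ z, N (Sum.inl z) = M (sel z)) ∧
      Submodule.span (ResidueField A) (Set.range fun i : I => fun j => P.res (M (sel i) j)) =
        Submodule.span (ResidueField A) (Set.range fun i : a => fun j => P.res (M i j)) ∧
      IsUnit (N.submatrix e id) := by
  classical
  set κ := ResidueField A
  obtain ⟨I, sel, -, hspan, hrow⟩ :=
    exists_linearIndependent' κ (fun i : a => fun j => P.res (M i j))
  have : Finite I := hrow.finite
  have := Fintype.ofFinite I
  -- complete a basis of the reduced row space by lifts of a complement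
  obtain ⟨Q, hQ⟩ := Submodule.exists_isCompl
    (Submodule.span κ (Set.range fun i : a => fun j => P.res (M i j)))
  let BQ := Module.finBasis κ Q
  set J := Fin (Module.finrank κ Q)
  choose q hq using fun (i : J) (j : b) => IsLocalRing.residue_surjective ((BQ i : b → κ) j)
  let N : Matrix (I ⊕ J) b R :=
    Matrix.of (Sum.elim (fun i j => M (sel i) j) fun i j => P.const (q i j))
  have hN : ∀ i j, P.res (N (Sum.inr i) j) = (BQ i : b → κ) j := fun i j => by
    simp [N, P.res_const, hq]
  have hNind : LinearIndependent κ fun i j => P.res (N i j) := by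
    refine linearIndependent_sum.mpr ⟨by exact hrow, ?_, ?_⟩
    · have : ((fun i j => P.res (N i j)) ∘ Sum.inr) = fun i => (BQ i : b → κ) := by
        funext i j; exact hN i j
      rw [this]
      exact BQ.linearIndependent.map' Q.subtype Q.ker_subtype
    · refine Disjoint.mono ?_ ?_ hQ.disjoint
      · rw [Submodule.span_le]
        rintro _ ⟨i, rfl⟩
        exact Submodule.subset_span ⟨sel i, rfl⟩
      · rw [Submodule.span_le]
        rintro _ ⟨i, rfl⟩
        change (fun j => P.res (N (Sum.inr i) j)) ∈ Q
        rw [show (fun j => P.res (N (Sum.inr i) j)) = (BQ i : b → κ) from funext (hN i)]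
        exact (BQ i).2
  have hcard : Fintype.card (I ⊕ J) = Fintype.card b := by
    have h1 := Submodule.finrank_add_eq_of_isCompl hQ
    rw [Module.finrank_fintype_fun_eq_card] at h1
    rw [Fintype.card_sum, Fintype.card_fin, ← h1, ← hspan, finrank_span_eq_card hrow]
  let e : b ≃ I ⊕ J := Fintype.equivOfCardEq hcard.symm
  refine ⟨I, inferInstance, sel, _, N, e, fun z => rfl, hspan, ?_⟩
  rw [Matrix.isUnit_iff_isUnit_det]
  refine P.isUnit_of_res _ ?_
  rw [RingHom.map_det]
  refine IsUnit.ne_zero ((Matrix.isUnit_iff_isUnit_det _).mp ?_)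
  rw [← Matrix.linearIndependent_rows_iff_isUnit]
  exact hNind.comp e e.injective

/-- The kernel of rows completed to an invertible matrix is spanned, over every field, by columns of
the inverse. -/
private theorem finrank_ker_completion {R K : Type*} [CommRing R] [Field K] {I J b : Type*}
    [Fintype I] [Fintype J] [Fintype b] [DecidableEq b] (N : Matrix (I ⊕ J) b R) (e : b ≃ I ⊕ J)
    (v : J → b → R) (hv : ∀ i z, ∑ j, N z j * v i j = if e.symm z = e.symm (Sum.inr i)
      then 1 else 0)
    (hN : IsUnit (N.submatrix e id)) (f : R →+* K) :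
    Module.finrank K (LinearMap.ker ((Matrix.of fun (i : I) j => N (Sum.inl i) j).map f).mulVecLin)
      = Fintype.card J ∧
    LinearIndependent K fun i j => f (v i j) := by
  classical
  have hinv : IsUnit ((N.submatrix e id).map f) := hN.map f.mapMatrix.toMonoidHom
  have hli : LinearIndependent K fun i j => f (v i j) := by
    rw [Fintype.linearIndependent_iff]
    intro c hc i
    have h1 := congrArg (fun x : b → K => ∑ j, f (N (Sum.inr i) j) * x j) hc
    simp only [Finset.sum_apply, Pi.smul_apply, smul_eq_mul, Finset.mul_sum, Pi.zero_apply,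
      mul_zero, Finset.sum_const_zero] at h1
    rw [Finset.sum_comm] at h1
    have h2 : ∀ x, ∑ j, f (N (Sum.inr i) j) * (c x * f (v x j))
        = c x * f (if e.symm (Sum.inr i) = e.symm (Sum.inr x) then 1 else 0) := fun x => by
      rw [← hv, map_sum, Finset.mul_sum]
      exact Finset.sum_congr rfl fun j _ => by rw [map_mul]; ring
    simpa [h2, apply_ite f] using h1
  -- the last rows are injective on the kernel, and the columns `v` lie in it
  refine ⟨le_antisymm ?_ ?_, hli⟩
  · let φ : (b → K) →ₗ[K] (J → K) :=
      (Matrix.of fun (i : J) j => f (N (Sum.inr i) j)).mulVecLin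
    refine le_trans (LinearMap.finrank_le_finrank_of_injective
      (f := φ.domRestrict _) ?_) (le_of_eq (Module.finrank_fintype_fun_eq_card K))
    rw [← LinearMap.ker_eq_bot, Submodule.eq_bot_iff]
    intro x hx
    refine Subtype.ext ((Matrix.mulVec_injective_iff_isUnit.mpr hinv) ?_)
    rw [ZeroMemClass.coe_zero, Matrix.mulVec_zero]
    funext j
    obtain ⟨z, rfl⟩ := e.symm.surjective j
    rcases z with i | i
    · have h1 := congrFun (LinearMap.mem_ker.mp x.2) i
      simp only [Matrix.mulVecLin_apply, Matrix.mulVec, dotProduct, Matrix.map_apply,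
        Matrix.of_apply, Pi.zero_apply] at h1
      simpa [Matrix.mulVec, dotProduct] using h1
    · have h1 := congrFun (LinearMap.mem_ker.mp hx) i
      simpa [Matrix.mulVec, dotProduct, φ] using h1
  · have hle : Submodule.span K (Set.range fun i j => f (v i j)) ≤ LinearMap.ker
        ((Matrix.of fun (i : I) j => N (Sum.inl i) j).map f).mulVecLin := by
      rw [Submodule.span_le]
      rintro _ ⟨i, rfl⟩
      refine LinearMap.mem_ker.mpr (funext fun z => ?_)
      have h1 := congrArg f (hv i (Sum.inl z))
      simpa [Matrix.mulVec, dotProduct, map_sum] using h1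
    exact le_trans (le_of_eq (finrank_span_eq_card hli).symm) (Submodule.finrank_mono hle)

/-- **Kernels of constant rank are spanned over `R`.** -/
theorem Pts.exists_kernel_basis {R : Type*} [CommRing R] {S : Type*} [Nonempty S] (P : Pts A R S)
    {a b : Type*} [Fintype a] [Fintype b] (M : Matrix a b R) (c : ℕ)
    (hgen : ∀ s, c ≤ Module.finrank L (LinearMap.ker (M.map (P.evL s)).mulVecLin))
    (hsp : Module.finrank (ResidueField A) (LinearMap.ker (M.map P.res).mulVecLin) ≤ c) :
    (∀ s, Module.finrank L (LinearMap.ker (M.map (P.evL s)).mulVecLin) = c) ∧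
    ∃ v : Fin c → b → R, (∀ i s, M.map (P.evL s) *ᵥ (fun j => P.evL s (v i j)) = 0) ∧
      LinearIndependent (ResidueField A) fun i j => P.res (v i j) := by
  classical
  set κ := ResidueField A
  obtain ⟨I, _, sel, n, N, e, hNl, hspan, hunit⟩ := P.exists_completion M
  obtain ⟨U, hU⟩ := id hunit
  -- the candidate vectors
  let v : Fin n → b → R := fun i j => (↑U⁻¹ : Matrix b b R) j (e.symm (Sum.inr i))
  have hv : ∀ i z, ∑ j, N z j * v i j = if e.symm z = e.symm (Sum.inr i) then 1 else 0 := by
    intro i z
    have h1 : (N.submatrix e id * (↑U⁻¹ : Matrix b b R)) (e.symm z) (e.symm (Sum.inr i))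
        = (1 : Matrix b b R) (e.symm z) (e.symm (Sum.inr i)) := by rw [← hU, Units.mul_inv]
    simpa only [Matrix.mul_apply, Matrix.submatrix_apply, Equiv.apply_symm_apply, id_eq,
      Matrix.one_apply] using h1
  have hsel : (Matrix.of fun (i : I) j => N (Sum.inl i) j) = Matrix.of fun i j => M (sel i) j := by
    simp only [hNl]
  -- reduction and points
  obtain ⟨hres, hvres⟩ := finrank_ker_completion N e v hv hunit P.res
  have hpt : ∀ s, Module.finrank L (LinearMap.ker
      ((Matrix.of fun (i : I) j => M (sel i) j).map (P.evL s)).mulVecLin) = n := fun s => by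
    rw [← hsel, (finrank_ker_completion N e v hv hunit (P.evL s)).1, Fintype.card_fin]
  rw [hsel, Fintype.card_fin] at hres
  have hnc : n ≤ c := by
    refine le_trans (le_of_eq hres.symm) (le_trans (Submodule.finrank_mono ?_) hsp)
    intro x hx
    refine LinearMap.mem_ker.mpr (funext fun i => ?_)
    have hle : Submodule.span κ (Set.range fun i : a => fun j => P.res (M i j)) ≤
        LinearMap.ker (∑ j, x j • LinearMap.proj (R := κ) (φ := fun _ : b => κ) j) := by
      rw [← hspan, Submodule.span_le]
      rintro _ ⟨i, rfl⟩
      have h1 := congrFun (LinearMap.mem_ker.mp hx) i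
      simpa [Matrix.mulVec, dotProduct, mul_comm] using h1
    have := hle (Submodule.subset_span ⟨i, rfl⟩)
    simpa [Matrix.mulVec, dotProduct, mul_comm] using this
  have hpoint : ∀ s, LinearMap.ker (M.map (P.evL s)).mulVecLin ≤
      LinearMap.ker ((Matrix.of fun (i : I) j => M (sel i) j).map (P.evL s)).mulVecLin := by
    intro s x hx
    refine LinearMap.mem_ker.mpr (funext fun i => ?_)
    have h1 := congrFun (LinearMap.mem_ker.mp hx) (sel i)
    simpa [Matrix.mulVec, dotProduct] using h1
  have hc' : n = c := by
    inhabit S
    refine le_antisymm hnc ((hgen default).trans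
      (le_trans (Submodule.finrank_mono (hpoint default)) ?_))
    rw [hpt]
  have heq : ∀ s, LinearMap.ker (M.map (P.evL s)).mulVecLin =
      LinearMap.ker ((Matrix.of fun (i : I) j => M (sel i) j).map (P.evL s)).mulVecLin := fun s =>
    Submodule.eq_of_le_of_finrank_le (hpoint s) (by rw [hpt s, hc']; exact hgen s)
  refine ⟨fun s => by rw [heq s, hpt s, hc'], fun i => v (Fin.cast hc'.symm i),
    fun i s => ?_, hvres.comp _ (Fin.cast_injective _)⟩
  refine (LinearMap.mem_ker (f := (M.map (P.evL s)).mulVecLin)).mp ?_
  rw [heq s]
  refine LinearMap.mem_ker.mpr (funext fun z => ?_)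
  have h1 := congrArg (P.evL s) (hv (Fin.cast hc'.symm i) (Sum.inl z))
  simpa [Matrix.mulVec, dotProduct, hNl, map_sum] using h1

/-- A vector killed at some point is killed by the reduction. -/
theorem Pts.res_mem_ker {R : Type*} [CommRing R] {S : Type*} (P : Pts A R S) {a b : Type*}
    [Fintype b] (M : Matrix a b R) (v : b → R) (s : S)
    (hv : M.map (P.evL s) *ᵥ (fun j => P.evL s (v j)) = 0) :
    (fun j => P.res (v j)) ∈ LinearMap.ker (M.map P.res).mulVecLin := by
  refine LinearMap.mem_ker.mpr (funext fun z => ?_)
  have h1 := congrFun hv z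
  simp only [Matrix.mulVec, dotProduct, Matrix.map_apply, Pi.zero_apply, ← map_mul, ← map_sum] at h1
  rw [Matrix.mulVecLin_apply]
  simp only [Matrix.mulVec, dotProduct, Matrix.map_apply, Pi.zero_apply, ← map_mul, ← map_sum]
  rw [← P.residue_ev s, show P.ev s (∑ x, M z x * v x) = 0 from Subtype.ext h1, map_zero]

end Fermat.RED.Flat
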