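import Fermat.Agent.RED.Flat.Rep
import Fermat.Agent.RED.Flat.LinAlg

/-!
# Curves with good reduction, seen through bases of `L(n ∞)`

An `IntCurve` is a function field over an algebraically closed valued field with a reduction to a
function field of the same genus over the residue field: a map of places and a subring with a map to
the residual field matching divisors, and bases of `L(n ∞)` in the subring reducing to bases.
Vectors over a ring of functions on points give families of functions and their common reduction.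

`Family`, `Invariant` and `Recover` prove over it that classes are points of projective space with
addition given by local formulas; `Model` turns this into models, `Instance` provides the curve
from a good model.
-/

set_option autoImplicit false
set_option linter.unusedSectionVars false

noncomputable section

open AlgebraicCurve IsLocalRing

namespace Fermat.RED.Flat

variable {L : Type*} [Field L] (A : ValuationSubring L)

/-- A curve with good reduction, through bases of `L(n ∞)`. -/
structure IntCurve (F Fk : Type*) [Field F] [Field Fk] [Algebra L F]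
    [Algebra (ResidueField A) Fk] (g : ℕ) where
  /-- The frame of the curve over `L`. -/
  base : Frame L F g
  /-- The frame of the reduced curve. -/
  spec : Frame (ResidueField A) Fk g
  /-- Reduction of places. -/
  red : Place L F → Place (ResidueField A) Fk
  /-- Reduction of places is surjective. -/
  red_surj : Function.Surjective red
  /-- The marked place reduces to the marked place. -/
  red_pt : red base.pt = spec.pt
  /-- The integral functions. -/
  ring : Subring F
  /-- Integral constants are integral functions. -/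
  const_mem : ∀ a : A, algebraMap L F a ∈ ring
  /-- Reduction of integral functions. -/
  gv : ring →+* Fk
  /-- Constants reduce to their residues. -/
  gv_const : ∀ a : A, gv ⟨_, const_mem a⟩ = algebraMap (ResidueField A) Fk (residue A a)
  /-- The basis functions are integral. -/
  b_mem_ring : ∀ n, 2 * g ≤ n → ∀ i, base.b n i ∈ ring
  /-- They reduce to the basis functions of the reduced curve. -/
  gv_b : ∀ n (hn : 2 * g ≤ n) i, gv ⟨_, b_mem_ring n hn i⟩ = spec.b n i
  /-- The divisor of an integral function goes to that of its nonzero reduction. -/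
  div_gv : ∀ (f : ring) (D : Divisor L F), (∀ P, D P = P.ord (f : F)) → gv f ≠ 0 →
    ∀ Q, Finsupp.mapDomain red D Q = Q.ord (gv f)

variable {A}
variable [IsAlgClosed L] [IsAlgClosed (ResidueField A)]
variable {F Fk : Type*} [Field F] [Field Fk] [Algebra L F] [Algebra (ResidueField A) Fk]
variable [FF.IsFunctionField L F] [FF.IsFunctionField (ResidueField A) Fk]
variable {g : ℕ}

namespace IntCurve

variable (C : IntCurve A F Fk g)

/-- Reduction of divisors. -/
def redD : Divisor L F →+ Divisor (ResidueField A) Fk := Finsupp.mapDomain.addMonoidHom C.red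

/-- The value of `redD`. -/
theorem redD_apply (D : Divisor L F) : C.redD D = Finsupp.mapDomain C.red D := rfl

/-- Reduction keeps effective divisors effective. -/
theorem redD_nonneg {D : Divisor L F} (h : 0 ≤ D) : 0 ≤ C.redD D := by
  classical
  refine Finsupp.le_def.mpr fun Q => ?_
  rw [redD_apply, Finsupp.mapDomain, Finsupp.sum_apply]
  refine Finset.sum_nonneg fun P _ => ?_
  simp only [Finsupp.single_apply]
  split_ifs
  · exact Finsupp.le_def.mp h P
  · exact le_rfl

/-- Reduction keeps degrees. -/
theorem degree_redD (D : Divisor L F) : Divisor.degree (C.redD D) = Divisor.degree D := by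
  induction D using Finsupp.induction with
  | zero => simp
  | single_add P n D _ _ ih =>
    rw [map_add, map_add, map_add, ih, redD_apply, Finsupp.mapDomain_single, Divisor.degree_single,
      Divisor.degree_single, FF.deg_eq_one, FF.deg_eq_one]

/-- `n ∞` reduces to `n ∞`. -/
theorem redD_lv (n : ℕ) : C.redD (C.base.lv n) = C.spec.lv n := by
  rw [redD_apply, Frame.lv, Finsupp.mapDomain_single, C.red_pt]
  rfl

/-- Divisors of functions reduce to divisors of functions. -/
theorem redD_divOf {f : C.ring} (h : C.gv f ≠ 0) :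
    C.redD (FF.divOf L (f : F)) = FF.divOf (ResidueField A) (C.gv f) :=
  Finsupp.ext fun Q => (C.div_gv f _ (fun P => FF.divOf_apply _ P) h Q).trans
    (FF.divOf_apply _ Q).symm

/-- A function with nonzero reduction is nonzero. -/
theorem coe_ne_zero {f : C.ring} (h : C.gv f ≠ 0) : (f : F) ≠ 0 := fun h0 => h (by
  rw [show f = 0 from Subtype.ext h0, map_zero])

/-- Sections reduce to sections. -/
theorem gv_mem_LL {f : C.ring} {D : Divisor L F} (hf : (f : F) ∈ LL D) :
    C.gv f ∈ LL (C.redD D) := by
  by_cases h : C.gv f = 0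
  · rw [h]; exact zero_mem _
  have h1 := C.redD_nonneg ((FF.nonneg_add_divOf_iff (C.coe_ne_zero h)).mpr hf)
  rw [map_add, C.redD_divOf h] at h1
  exact (FF.nonneg_add_divOf_iff h).mp h1

/-- A combination with integral coefficients, in the subring. -/
def lift {n : ℕ} (hn : 2 * g ≤ n) (c : Idx g n → A) : C.ring :=
  ∑ i, ⟨_, C.const_mem (c i)⟩ * ⟨_, C.b_mem_ring n hn i⟩

/-- The value of `lift`. -/
theorem coe_lift {n : ℕ} (hn : 2 * g ≤ n) (c : Idx g n → A) :
    (C.lift hn c : F) = C.base.comb n fun i => (c i : L) := by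
  rw [lift, Frame.comb_apply, AddSubmonoidClass.coe_finsetSum]
  exact Finset.sum_congr rfl fun i _ => (Algebra.smul_def _ _).symm

/-- The reduction of `lift`. -/
theorem gv_lift {n : ℕ} (hn : 2 * g ≤ n) (c : Idx g n → A) :
    C.gv (C.lift hn c) = C.spec.comb n fun i => residue A (c i) := by
  rw [lift, map_sum, Frame.comb_apply]
  exact Finset.sum_congr rfl fun i _ => by rw [map_mul, C.gv_const, C.gv_b n hn, Algebra.smul_def]

/-- Coordinates of integral sections are integral. -/
theorem crd_mem {n : ℕ} (hn : 2 * g ≤ n) {f : C.ring} (hf : (f : F) ∈ LL (C.base.lv n)) :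
    ∃ c : Idx g n → A, (∀ i, (c i : L) = C.base.crd n f i) ∧ f = C.lift hn c := by
  suffices h : ∀ i, C.base.crd n f i ∈ A by
    refine ⟨fun i => ⟨_, h i⟩, fun i => rfl, Subtype.ext ?_⟩
    rw [coe_lift]
    exact (C.base.comb_crd hn hf).symm
  by_contra! hne
  obtain ⟨i₀, hi₀⟩ := hne
  obtain ⟨l, hl0, v, hv, hv0, i₁, hi₁⟩ := exists_scale_primitive (A := A)
    (c := C.base.crd n (f : F)) (fun h => hi₀ (by rw [h]; exact zero_mem A))
  have hlA : l ∈ A := by
    by_contra hlA
    have hinv := (A.mem_or_inv_mem l).resolve_left hlA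
    refine hi₀ ?_
    have : C.base.crd n (f : F) i₀ = l⁻¹ * (v i₀ : L) := by
      rw [hv, ← mul_assoc, inv_mul_cancel₀ hl0, one_mul]
    rw [this]
    exact mul_mem hinv (v i₀).2
  have hres : residue A (⟨l, hlA⟩ : A) = 0 := by
    by_contra hne
    obtain ⟨u, hu⟩ := (residue_ne_zero_iff_isUnit _).mp hne
    refine hi₀ ?_
    have h1 : l * ((u⁻¹ : Aˣ) : A) = 1 := by
      have := congrArg (fun a : A => (a : L)) u.mul_inv
      rw [hu] at this
      simpa using this
    have : C.base.crd n (f : F) i₀ = (((u⁻¹ : Aˣ) : A) : L) * (v i₀ : L) := by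
      rw [hv, ← mul_assoc, mul_comm _ l, h1, one_mul]
    rw [this]
    exact mul_mem (SetLike.coe_mem _) (v i₀).2
  -- so `C.lift v` would be zero modulo the maximal ideal although `v` is primitive
  have e : C.lift hn v = ⟨_, C.const_mem ⟨l, hlA⟩⟩ * f := Subtype.ext (by
    rw [coe_lift, MulMemClass.coe_mul]
    change _ = algebraMap L F l * (f : F)
    rw [← Algebra.smul_def]
    conv_rhs => rw [← C.base.comb_crd hn hf]
    rw [← map_smul]
    exact congrArg _ (funext fun i => hv i))
  have h2 := congrArg C.gv e
  rw [gv_lift, map_mul, C.gv_const, hres, map_zero, zero_mul] at h2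
  exact hv0 (C.spec.comb_injective hn (h2.trans (map_zero _).symm))

/-! ### Values at points -/

/-- Values of integral sections at points off the marked place reduce. -/
theorem residue_evalAt {n : ℕ} {f : C.ring} (hf : (f : F) ∈ LL (C.base.lv n))
    {P : Place L F} (hP : C.red P ≠ C.spec.pt) :
    ∃ a : A, (a : L) = FF.evalAt P (f : F) ∧
      residue A a = FF.evalAt (C.red P) (C.gv f) := by
  have hPpt : P ≠ C.base.pt := fun h => hP (h ▸ C.red_pt)
  have hlvP : (C.base.lv n) P ≤ 0 := le_of_eq (C.base.lv_apply_of_ne n hPpt)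
  have hf0 : FF.OrdGE P (f : F) 0 := ordGE_of_mem_LL hf hlvP
  have hlvQ : (C.spec.lv n) (C.red P) ≤ 0 := le_of_eq (C.spec.lv_apply_of_ne n hP)
  -- sections vanishing at `P` have reductions vanishing at its image
  have key : ∀ w : C.ring, (w : F) ∈ LL (C.base.lv n) → FF.evalAt P (w : F) = 0 →
      FF.evalAt (C.red P) (C.gv w) = 0 := by
    intro w hw hw0
    have h1 : (w : F) ∈ LL (C.base.lv n - Finsupp.single P 1) := by
      rw [FF.mem_riemannRochSpace]
      intro v
      rcases eq_or_ne v P with rfl | hv
      · refine ((FF.evalAt_eq_zero_iff (ordGE_of_mem_LL hw hlvP)).mp hw0).mono ?_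
        rw [Finsupp.sub_apply, C.base.lv_apply_of_ne n hPpt, Finsupp.single_eq_same]
        omega
      · simpa [Finsupp.single_eq_of_ne hv] using FF.mem_riemannRochSpace.mp hw v
    have h2 := C.gv_mem_LL h1
    rw [map_sub, redD_lv, redD_apply, Finsupp.mapDomain_single] at h2
    refine evalAt_eq_zero_of_mem_LL h2 ?_
    rw [Finsupp.sub_apply, C.spec.lv_apply_of_ne n hP, Finsupp.single_eq_same]
    omega
  have hone : ((1 : C.ring) : F) ∈ LL (C.base.lv n) := by
    refine FF.riemannRochSpace_mono (C.base.lv_nonneg n) ?_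
    rw [FF.riemannRochSpace_zero]
    exact ⟨1, by simp⟩
  set a₀ := FF.evalAt P (f : F) with ha₀
  have haA : a₀ ∈ A := by
    by_contra hA
    have hinv := (A.mem_or_inv_mem a₀).resolve_left hA
    set c : A := ⟨a₀⁻¹, hinv⟩
    have hc : residue A c = 0 := by
      by_contra hne
      obtain ⟨u, hu⟩ := (residue_ne_zero_iff_isUnit _).mp hne
      refine hA ?_
      have ha : a₀ ≠ 0 := fun h => hA (h ▸ zero_mem A)
      have h1 := congrArg (fun a : A => (a : L)) u.mul_inv
      rw [hu] at h1
      have : a₀ = (((u⁻¹ : Aˣ) : A) : L) := (inv_mul_eq_one₀ ha).mp h1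
      rw [this]
      exact SetLike.coe_mem _
    have ha : a₀ ≠ 0 := fun h => hA (h ▸ zero_mem A)
    have hmem : ((⟨_, C.const_mem c⟩ * f - 1 : C.ring) : F) ∈ LL (C.base.lv n) := by
      rw [AddSubgroupClass.coe_sub, MulMemClass.coe_mul]
      refine sub_mem ?_ hone
      change algebraMap L F a₀⁻¹ * (f : F) ∈ _
      rw [← Algebra.smul_def]
      exact Submodule.smul_mem _ _ hf
    have := key _ hmem (FF.evalAt_eq (by
      have h1 := (FF.ordGE_algebraMap P a₀⁻¹).mul (FF.evalAt_spec hf0)
      rw [← ha₀, mul_sub, ← map_mul, inv_mul_cancel₀ ha, map_one] at h1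
      simpa [c] using h1))
    rw [map_sub, map_mul, C.gv_const, hc, map_zero, zero_mul, map_one, zero_sub,
      ← map_one (algebraMap (ResidueField A) Fk), ← map_neg, FF.evalAt_algebraMap] at this
    exact one_ne_zero (neg_eq_zero.mp this)
  refine ⟨⟨a₀, haA⟩, rfl, ?_⟩
  have hmem : ((f - ⟨_, C.const_mem ⟨a₀, haA⟩⟩ : C.ring) : F) ∈ LL (C.base.lv n) := by
    rw [AddSubgroupClass.coe_sub]
    refine sub_mem hf ?_
    refine FF.riemannRochSpace_mono (C.base.lv_nonneg n) ?_
    rw [FF.riemannRochSpace_zero]
    exact ⟨_, rfl⟩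
  have h1 := key _ hmem (FF.evalAt_eq (by
    rw [map_zero, sub_zero, AddSubgroupClass.coe_sub]
    exact FF.evalAt_spec hf0))
  rw [map_sub, C.gv_const, sub_eq_add_neg, ← map_neg] at h1
  rw [FF.evalAt_add (ordGE_of_mem_LL (C.redD_lv n ▸ C.gv_mem_LL hf) hlvQ) (FF.ordGE_algebraMap _ _),
    FF.evalAt_algebraMap] at h1
  exact (eq_of_sub_eq_zero (by rwa [sub_eq_add_neg])).symm

/-! ### Vectors over a ring of functions on points -/

/-- Products of basis vectors have integral coordinates, reducing to those of the reduced
products. -/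
theorem exists_mtab {a b N : ℕ} (ha : 2 * g ≤ a) (hb : 2 * g ≤ b) (hN : a + b = N) :
    ∃ m : Idx g a → Idx g b → Idx g N → A, ∀ i j,
      C.base.b a i * C.base.b b j = (C.base.comb N fun k => (m i j k : L)) ∧
      C.spec.b a i * C.spec.b b j = C.spec.comb N fun k => residue A (m i j k) := by
  have h : ∀ i j, ∃ m : Idx g N → A,
      C.base.b a i * C.base.b b j = (C.base.comb N fun k => (m k : L)) ∧
      C.spec.b a i * C.spec.b b j = C.spec.comb N fun k => residue A (m k) := by
    intro i j
    set f : C.ring := ⟨_, C.b_mem_ring a ha i⟩ * ⟨_, C.b_mem_ring b hb j⟩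
    have hf : (f : F) ∈ LL (C.base.lv N) := by
      rw [← hN, ← C.base.lv_add]
      exact mul_mem_LL (C.base.b_mem a ha i) (C.base.b_mem b hb j)
    obtain ⟨c, -, e⟩ := C.crd_mem (by omega) hf
    refine ⟨c, ?_, ?_⟩
    · have := congrArg Subtype.val e
      rwa [coe_lift] at this
    · have := congrArg C.gv e
      rwa [gv_lift, map_mul, C.gv_b a ha, C.gv_b b hb] at this
  choose m hm using h
  exact ⟨m, hm⟩

variable {R : Type*} [CommRing R] {S : Type*} (P : Pts A R S)

/-- The function given at the point `s` by the vector `v`. -/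
def val (n : ℕ) (s : S) (v : Idx g n → R) : F := C.base.comb n fun i => P.evL s (v i)

/-- The reduction of a vector. -/
def redv (n : ℕ) (v : Idx g n → R) : Fk := C.spec.comb n fun i => P.res (v i)

/-- The value at a point is a lift. -/
theorem val_eq_lift {n : ℕ} (hn : 2 * g ≤ n) (s : S) (v : Idx g n → R) :
    C.val P n s v = C.lift hn fun i => P.ev s (v i) := by
  rw [coe_lift]
  rfl

/-- The reduction of a vector is the reduction of any of its values. -/
theorem redv_eq_gv {n : ℕ} (hn : 2 * g ≤ n) (s : S) (v : Idx g n → R) :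
    C.redv P n v = C.gv (C.lift hn fun i => P.ev s (v i)) := by
  rw [gv_lift]
  simp only [P.residue_ev]
  rfl

/-- Values lie in `L(n ∞)`. -/
theorem val_mem {n : ℕ} (hn : 2 * g ≤ n) (s : S) (v : Idx g n → R) :
    C.val P n s v ∈ LL (C.base.lv n) := C.base.comb_mem hn _

/-- Reductions lie in `L(n ∞)`. -/
theorem redv_mem {n : ℕ} (hn : 2 * g ≤ n) (v : Idx g n → R) :
    C.redv P n v ∈ LL (C.spec.lv n) := C.spec.comb_mem hn _

/-- If a value is a section of `D`, the reduction is one of `redD D`. -/
theorem redv_mem_LL {n : ℕ} (hn : 2 * g ≤ n) {s : S} {v : Idx g n → R} {D : Divisor L F}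
    (h : C.val P n s v ∈ LL D) : C.redv P n v ∈ LL (C.redD D) := by
  rw [C.val_eq_lift P hn] at h
  rw [C.redv_eq_gv P hn s]
  exact C.gv_mem_LL h

/-- A vector with nonzero reduction has nonzero values. -/
theorem val_ne_zero {n : ℕ} (hn : 2 * g ≤ n) {v : Idx g n → R} (h : C.redv P n v ≠ 0) (s : S) :
    C.val P n s v ≠ 0 := by
  rw [C.val_eq_lift P hn]
  exact C.coe_ne_zero (by rwa [← C.redv_eq_gv P hn s])

/-- The divisors of the values reduce to that of the reduction. -/
theorem redD_divOf_val {n : ℕ} (hn : 2 * g ≤ n) {v : Idx g n → R} (h : C.redv P n v ≠ 0) (s : S) :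
    C.redD (FF.divOf L (C.val P n s v)) = FF.divOf (ResidueField A) (C.redv P n v) := by
  rw [C.val_eq_lift P hn, C.redv_eq_gv P hn s]
  exact C.redD_divOf (by rwa [← C.redv_eq_gv P hn s])

open Classical in
/-- Products of vectors. -/
def mulv {a b : ℕ} (N : ℕ) (v : Idx g a → R) (w : Idx g b → R) : Idx g N → R :=
  if h : 2 * g ≤ a ∧ 2 * g ≤ b ∧ a + b = N then
    fun k => ∑ i, ∑ j, v i * w j * P.const ((C.exists_mtab h.1 h.2.1 h.2.2).choose i j k)
  else 0

/-- The values of a product. -/
theorem val_mulv {a b N : ℕ} (ha : 2 * g ≤ a) (hb : 2 * g ≤ b) (hN : a + b = N) (s : S)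
    (v : Idx g a → R) (w : Idx g b → R) :
    C.val P N s (C.mulv P N v w) = C.val P a s v * C.val P b s w := by
  have hm := (C.exists_mtab ha hb hN).choose_spec
  rw [val, val, val, mulv, dif_pos ⟨ha, hb, hN⟩]
  simp only [map_sum, map_mul, Pts.evL_const, Frame.comb_apply, Finset.sum_smul, Finset.sum_mul,
    Finset.mul_sum]
  rw [Finset.sum_comm]
  conv_rhs => rw [Finset.sum_comm]
  refine Finset.sum_congr rfl fun i _ => ?_
  rw [Finset.sum_comm]
  refine Finset.sum_congr rfl fun j _ => ?_
  rw [smul_mul_smul_comm, (hm i j).1, Frame.comb_apply, Finset.smul_sum]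
  exact Finset.sum_congr rfl fun k _ => by rw [smul_smul]

/-- The reduction of a product. -/
theorem redv_mulv {a b N : ℕ} (ha : 2 * g ≤ a) (hb : 2 * g ≤ b) (hN : a + b = N)
    (v : Idx g a → R) (w : Idx g b → R) :
    C.redv P N (C.mulv P N v w) = C.redv P a v * C.redv P b w := by
  have hm := (C.exists_mtab ha hb hN).choose_spec
  rw [redv, redv, redv, mulv, dif_pos ⟨ha, hb, hN⟩]
  simp only [map_sum, map_mul, P.res_const, Frame.comb_apply, Finset.sum_smul, Finset.sum_mul,
    Finset.mul_sum]
  rw [Finset.sum_comm]
  conv_rhs => rw [Finset.sum_comm]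
  refine Finset.sum_congr rfl fun i _ => ?_
  rw [Finset.sum_comm]
  refine Finset.sum_congr rfl fun j _ => ?_
  rw [smul_mul_smul_comm, (hm i j).2, Frame.comb_apply, Finset.smul_sum]
  exact Finset.sum_congr rfl fun k _ => by rw [smul_smul]

/-- Vectors with independent reductions are independent at every point. -/
theorem linearIndependent_val {ι : Type*} [Fintype ι] {n : ℕ} (hn : 2 * g ≤ n)
    {B : ι → Idx g n → R}
    (h : LinearIndependent (ResidueField A) fun i => C.redv P n (B i)) (s : S) :
    LinearIndependent L fun i => C.val P n s (B i) := by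
  have h0 : LinearIndependent (ResidueField A) fun i j => residue A (P.ev s (B i j)) := by
    simp only [P.residue_ev]
    exact LinearIndependent.of_comp (C.spec.comb n) h
  exact (linearIndependent_of_residue h0).map' (C.base.comb n)
    (LinearMap.ker_eq_bot.mpr (C.base.comb_injective hn))

end IntCurve

end Fermat.RED.Flat
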