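import Fermat.Agent.RED.Flat.Family
import Fermat.Agent.RED.Flat.Fixed
import Fermat.Agent.RED.Flat.Generic

/-!
# The invariant of a regular family is a primitive vector over the ring

`Regular.exists_vec`: the invariants of `Rep` of the classes of a regular family form one vector of
functions, primitive at every point; `Recover` proves the converse.
-/

set_option autoImplicit false

noncomputable section

open AlgebraicCurve IsLocalRing Matrix

namespace Fermat.RED.Flat

section Frame

variable {K F : Type*} [Field K] [Field F] [Algebra K F]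
variable [IsAlgClosed K] [FF.IsFunctionField K F]
variable {g : ℕ} {T : Frame K F g} {x : Pic0 K F}

/-- The invariant is not zero. -/
theorem Rep.cvec_ne_zero (ρ : Rep T x) : ρ.cvec ≠ 0 := by
  classical
  obtain ⟨c, -, -, -⟩ := ρ.exists_config ∅
  -- a configuration of good points in general position
  set p : Col g → Place K F := Function.update (Sum.elim c.q₁ c.q₂) (Sum.inl (lastI g)) c.Q with hp
  have hgood : ∀ z, ρ.GoodPt (p z) := by
    intro z
    rcases eq_or_ne z (Sum.inl (lastI g)) with rfl | hz
    · rw [hp, Function.update_self]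
      exact c.goodQ
    · rw [hp, Function.update_of_ne hz]
      rcases z with r | r
      · exact c.good₁ r
      · exact c.good₂ r
  intro h0
  -- a zero invariant evaluates to zero there, but the value is a product of nonzero determinants
  have h1 := ρ.evalW_cvec_tpts hgood
  rw [h0, show evalW (0 : (Col g → Var g) → K) (Rep.tpts T p) = 0 by simp [evalW]] at h1
  refine mul_ne_zero (mul_ne_zero (Finset.prod_ne_zero_iff.mpr fun z _ =>
    inv_ne_zero (FF.evalAt_ne_zero ρ.f_ne (hgood z).ord_f)) ?_) (mul_ne_zero ?_ ?_) h1.symm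
  · exact c.detA
  · have e : (Matrix.of fun r l => FF.evalAt (p (Sum.inl r)) (ρ.b l)) =
        (evMat ρ.b (Function.update c.q₁ (lastI g) c.Q))ᵀ := by
      ext r l
      rcases eq_or_ne r (lastI g) with rfl | hr
      · simp only [evMat, Matrix.of_apply, Matrix.transpose_apply, hp, Function.update_self]
      · simp only [evMat, Matrix.of_apply, Matrix.transpose_apply, hp,
          Function.update_of_ne (fun h => hr (Sum.inl_injective h)), Function.update_of_ne hr,
          Sum.elim_inl]
    rw [e, Matrix.det_transpose]
    exact c.detBQ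
  · have e : (Matrix.of fun r l => FF.evalAt (p (Sum.inr r)) (ρ.b l)) = (evMat ρ.b c.q₂)ᵀ := by
      ext r l
      simp only [evMat, Matrix.of_apply, Matrix.transpose_apply, hp,
        Function.update_of_ne (Sum.inr_ne_inl), Sum.elim_inr]
    rw [e, Matrix.det_transpose]
    exact c.detB₂

end Frame

variable {L : Type*} [Field L] {A : ValuationSubring L}
variable [IsAlgClosed L] [IsAlgClosed (ResidueField A)]
variable {F Fk : Type*} [Field F] [Field Fk] [Algebra L F] [Algebra (ResidueField A) Fk]
variable [FF.IsFunctionField L F] [FF.IsFunctionField (ResidueField A) Fk]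
variable {g : ℕ} (C : IntCurve A F Fk g)
variable {R : Type*} [CommRing R] {S : Type*} (P : Pts A R S)

/-- Combinations of the rows of the division matrix. -/
theorem comb_divide {K F' : Type*} [Field K] [Field F'] [Algebra K F'] [IsAlgClosed K]
    [FF.IsFunctionField K F'] (T : Frame K F' g) (f : R →+* K) {q n N : ℕ}
    (u : Idx g q → R) (pr : Idx g N → R)
    (hmul : ∀ v : Idx g n → R, T.comb N (fun k => f (C.mulv P N u v k)) =
      T.comb q (fun i => f (u i)) * T.comb n fun i => f (v i))
    (M : Matrix (Idx g N) (Option (Idx g n)) R)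
    (hM : M = Matrix.of fun k o => o.casesOn' (-pr k) fun j => C.mulv P N u (Pi.single j 1) k)
    (x : Option (Idx g n) → K) :
    T.comb N (M.map f *ᵥ x) = T.comb q (fun i => f (u i)) * T.comb n (fun j => x (some j)) -
      x none • T.comb N fun k => f (pr k) := by
  classical
  subst hM
  have e : (Matrix.of fun (k : Idx g N) (o : Option (Idx g n)) =>
      o.casesOn' (-pr k) fun j => C.mulv P N u (Pi.single j 1) k).map f *ᵥ x =
      (∑ j, x (some j) • fun k => f (C.mulv P N u (Pi.single j 1) k)) -
        x none • fun k => f (pr k) := by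
    funext k
    simp only [Matrix.mulVec, dotProduct, Fintype.sum_option, Matrix.map_apply,
      Matrix.of_apply, Option.casesOn'_none, Option.casesOn'_some, map_neg, Pi.sub_apply,
      Finset.sum_apply, Pi.smul_apply, smul_eq_mul]
    rw [neg_mul, add_comm, sub_eq_add_neg, mul_comm (f (pr k))]
    congr 1
    exact Finset.sum_congr rfl fun j _ => mul_comm _ _
  have hb : ∀ j : Idx g n,
      T.comb n (fun i => f ((Pi.single j 1 : Idx g n → R) i)) = T.b n j := by
    intro j
    rw [T.comb_apply, Finset.sum_eq_single j]
    · simp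
    · intro i' _ hi'
      simp [Pi.single_eq_of_ne hi']
    · simp
  rw [e, map_sub, map_smul, map_sum, T.comb_apply n, Finset.mul_sum]
  congr 1
  exact Finset.sum_congr rfl fun j _ => by rw [map_smul, hmul, hb, mul_smul_comm]

/-- A primitive vector over the ring on the line of the invariants. -/
structure IsVec (x : S → Pic0 L F) (v : (Col g → Var g) → R) : Prop where
  /-- The vector is not zero residually. -/
  res_ne : (fun w => P.res (v w)) ≠ 0
  /-- At each point it is a nonzero multiple of the invariant. -/
  line : ∀ s, ∃ l : L, l ≠ 0 ∧ ∀ w, P.evL s (v w) = l * cvecOf C.base (x s) w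

section Divide

/-- The matrix whose kernel computes the quotient of `pr` by `u`. -/
def divideMat {q : ℕ} (n N : ℕ) (u : Idx g q → R) (pr : Idx g N → R) :
    Matrix (Idx g N) (Option (Idx g n)) R :=
  Matrix.of fun k o => o.casesOn' (-pr k) fun j => C.mulv P N u (Pi.single j 1) k

variable {q n N : ℕ} (hq : 2 * g ≤ q) (hn : 2 * g ≤ n) (hN : q + n = N) {u : Idx g q → R}
  (hu : C.redv P q u ≠ 0) (pr : Idx g N → R)

include hq hn hN in
/-- The divisible vectors give a kernel at every point. -/
theorem one_le_finrank_ker_divideMat (s : S) {z : F} (hz : z ∈ LL (C.base.lv n))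
    (hzu : C.val P q s u * z = C.base.comb N fun k => P.evL s (pr k)) :
    1 ≤ Module.finrank L (LinearMap.ker ((divideMat C P n N u pr).map (P.evL s)).mulVecLin) := by
  have hx : (fun o : Option (Idx g n) => o.casesOn' 1 (C.base.crd n z)) ∈
      LinearMap.ker ((divideMat C P n N u pr).map (P.evL s)).mulVecLin := by
    refine LinearMap.mem_ker.mpr (C.base.comb_injective (by omega) ?_)
    rw [Matrix.mulVecLin_apply]
    refine (comb_divide C P C.base (P.evL s) u pr
      (fun v => C.val_mulv P hq hn hN s u v) _ rfl _).trans ?_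
    simp only [Option.casesOn'_none, Option.casesOn'_some, one_smul, map_zero,
      C.base.comb_crd hn hz]
    exact sub_eq_zero.mpr hzu
  refine Submodule.one_le_finrank_iff.mpr fun hbot => ?_
  rw [hbot, Submodule.mem_bot] at hx
  simpa using congrFun hx none

include hq hn hN in
/-- A vector in the kernel of the reduction gives a multiple of `pr`. -/
theorem comb_of_mem_ker_divideMat {x : Option (Idx g n) → ResidueField A}
    (hx : x ∈ LinearMap.ker ((divideMat C P n N u pr).map P.res).mulVecLin) :
    C.redv P q u * C.spec.comb n (fun j => x (some j)) =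
      x none • C.spec.comb N fun k => P.res (pr k) :=
  sub_eq_zero.mp ((comb_divide C P C.spec P.res u pr
    (fun v => C.redv_mulv P hq hn hN u v) _ rfl x).symm.trans
    ((congrArg (C.spec.comb N) (LinearMap.mem_ker.mp hx)).trans (map_zero _)))

include hq hn hN hu in
/-- The kernel of the reduction is read off from the constant entry. -/
theorem eq_zero_of_mem_ker_divideMat {x : Option (Idx g n) → ResidueField A}
    (hx : x ∈ LinearMap.ker ((divideMat C P n N u pr).map P.res).mulVecLin) (h0 : x none = 0) :
    x = 0 := by
  have h1 := comb_of_mem_ker_divideMat C P hq hn hN pr hx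
  rw [h0, zero_smul, mul_eq_zero, or_iff_right hu] at h1
  funext o
  rcases o with _ | j
  · exact h0
  · exact congrFun (C.spec.comb_injective hn (h1.trans (map_zero _).symm)) j

include hq hn hN hu in
/-- **Division over the ring**: the quotient of `pr` by `u` comes from a vector over the ring. -/
theorem exists_divide_vec [Nonempty S]
    (hdiv : ∀ s, ∃ z ∈ LL (C.base.lv n),
      C.val P q s u * z = C.base.comb N fun k => P.evL s (pr k)) :
    ∃ y : Idx g n → R,
      (∀ s, C.val P q s u * C.val P n s y = C.base.comb N fun k => P.evL s (pr k)) ∧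
      C.redv P q u * C.redv P n y = C.spec.comb N fun k => P.res (pr k) := by
  set M := divideMat C P n N u pr
  -- the reduced division matrix has kernel at most a line, detected by the `none` entry
  have hsp : Module.finrank (ResidueField A) (LinearMap.ker (M.map P.res).mulVecLin) ≤ 1 := by
    refine (LinearMap.finrank_le_finrank_of_injective
      (f := ((LinearMap.proj none).comp (Submodule.subtype _) :
        LinearMap.ker (M.map P.res).mulVecLin →ₗ[ResidueField A] ResidueField A)) ?_).trans
      (le_of_eq (Module.finrank_self _))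
    rw [← LinearMap.ker_eq_bot, Submodule.eq_bot_iff]
    exact fun x hx => Subtype.ext
      (eq_zero_of_mem_ker_divideMat C P hq hn hN hu pr x.2 (LinearMap.mem_ker.mp hx))
  -- so the kernel is spanned by a vector over the ring whose `none` entry is a unit
  obtain ⟨-, w, hw, hwi⟩ := P.exists_kernel_basis M 1 (fun s => by
    obtain ⟨z, hz, hzu⟩ := hdiv s
    exact one_le_finrank_ker_divideMat C P hq hn hN pr s hz hzu) hsp
  have hres := P.res_mem_ker M (w 0) (Classical.arbitrary S) (hw 0 _)
  obtain ⟨U, hU⟩ := P.isUnit_of_res (w 0 none) fun h0 =>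
    hwi.ne_zero 0 (eq_zero_of_mem_ker_divideMat C P hq hn hN hu pr hres h0)
  -- normalise that entry and read off the quotient at each point and in the reduction
  refine ⟨fun j => (↑U⁻¹ : R) * w 0 (some j), fun s => ?_, ?_⟩
  · have h1 := (comb_divide C P C.base (P.evL s) u pr
      (fun v => C.val_mulv P hq hn hN s u v) M rfl _).symm.trans
      ((congrArg (C.base.comb N) (hw 0 s)).trans (map_zero _))
    rw [sub_eq_zero] at h1
    have hu1 : P.evL s (↑U⁻¹ : R) * P.evL s (w 0 none) = 1 := by
      rw [← map_mul, ← hU, Units.inv_mul, map_one]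
    change C.val P _ s u * C.base.comb n (fun j => P.evL s ((↑U⁻¹ : R) * w 0 (some j))) = _
    rw [show (fun j => P.evL s ((↑U⁻¹ : R) * w 0 (some j))) =
      P.evL s (↑U⁻¹ : R) • fun j => P.evL s (w 0 (some j)) from funext fun j => map_mul _ _ _,
      map_smul, mul_smul_comm]
    refine (congrArg (P.evL s (↑U⁻¹ : R) • ·) h1).trans ?_
    rw [smul_smul, hu1, one_smul]
  · have h1 := comb_of_mem_ker_divideMat C P hq hn hN pr hres
    have hu1 : P.res (↑U⁻¹ : R) * P.res (w 0 none) = 1 := by
      rw [← map_mul, ← hU, Units.inv_mul, map_one]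
    change C.redv P _ u * C.spec.comb n (fun j => P.res ((↑U⁻¹ : R) * w 0 (some j))) = _
    rw [show (fun j => P.res ((↑U⁻¹ : R) * w 0 (some j))) =
      P.res (↑U⁻¹ : R) • fun j => P.res (w 0 (some j)) from funext fun j => map_mul _ _ _,
      map_smul, mul_smul_comm, h1, smul_smul, hu1, one_smul]

end Divide

section Family

variable {C P} [Nonempty S] {E : S → Divisor L F}
  {B : Fin (5 * g + 3 - 2 * g + 1 - g) → Idx g (5 * g + 3) → R}
  {B' : Fin (5 * g + 4 - (5 * g + 3 - 2 * g) + 1 - g) → Idx g (5 * g + 4) → R}

/-- The products of two complementary families are divisible by the first vector over the ring. -/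
theorem IsFam.exists_quot_vec (h : IsFam C P (5 * g + 3) (2 * g) E B)
    (h' : IsFam C P (5 * g + 4) (5 * g + 3 - 2 * g) (flipDiv h) B')
    (i : Fin (5 * g + 3 - 2 * g + 1 - g)) (l : Fin (5 * g + 4 - (5 * g + 3 - 2 * g) + 1 - g)) :
    ∃ y : Idx g (5 * g + 4) → R,
      (∀ s, C.val P _ s (first h) * C.val P _ s y = C.val P _ s (B i) * C.val P _ s (B' l)) ∧
      C.redv P _ (first h) * C.redv P _ y = C.redv P _ (B i) * C.redv P _ (B' l) := by
  have h3 : 2 * g ≤ 5 * g + 3 := by omega
  have h4 : 2 * g ≤ 5 * g + 4 := by omega
  obtain ⟨y, hy, hy'⟩ := exists_divide_vec C P h3 h4 rfl h.redv_first_ne_zero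
    (C.mulv P (5 * g + 3 + (5 * g + 4)) (B i) (B' l)) fun s => by
    have hf := C.val_ne_zero P h3 h.redv_first_ne_zero s
    refine ⟨(C.val P (5 * g + 3) s (first h))⁻¹ * (C.val P _ s (B i) * C.val P _ s (B' l)), ?_,
      (mul_inv_cancel_left₀ hf _).trans (C.val_mulv P h3 h4 rfl s _ _).symm⟩
    have := inv_mul_mem_LL (C.val P (5 * g + 3) s (first h)) (mul_mem_LL (h.mem i s) (h'.mem l s))
    rwa [show C.base.lv (5 * g + 3) - E s + (C.base.lv (5 * g + 4) - flipDiv h s) +
      FF.divOf L (C.val P (5 * g + 3) s (first h)) = C.base.lv (5 * g + 4) by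
        rw [flipDiv, Frame.compl]; abel] at this
  exact ⟨y, fun s => (hy s).trans (C.val_mulv P h3 h4 rfl s _ _),
    hy'.trans (C.redv_mulv P h3 h4 rfl _ _)⟩

end Family

/-- The coefficients of the linear forms, from the quotients over the ring. -/
def quotCoef (y : Col g → Fin (g + 2) → Idx g (5 * g + 4) → R) (i c : Col g) (v : Var g) : R :=
  if v.1 = colB c then y i (colI c) v.2 else 0

/-- Data with quotients defined over the ring have their invariant defined over the ring. -/
theorem Rep.cvec_eq_map {K F' : Type*} [Field K] [Field F'] [Algebra K F'] [IsAlgClosed K]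
    [FF.IsFunctionField K F'] {T : Frame K F' g} {x : Pic0 K F'} (ρ : Rep T x) (f : R →+* K)
    (y : Col g → Fin (g + 2) → Idx g (5 * g + 4) → R)
    (hy : ∀ i l, ρ.quot i l = T.comb (5 * g + 4) fun j => f (y i l j)) :
    ρ.cvec = fun w => f (wvec (detForm (quotCoef y)) w) := by
  funext w
  rw [wvec_map]
  unfold Rep.cvec
  congr 2
  funext i c v
  simp only [quotCoef, Rep.coef, apply_ite f, map_zero, hy]
  congr 1
  exact congrFun (T.crd_comb (by omega) fun j => f (y i (colI c) j)) v.2

/-- The data of a family, with the reduction. -/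
theorem IsFam.exists_vec [Nonempty S] {E : S → Divisor L F}
    {B : Fin (5 * g + 3 - 2 * g + 1 - g) → Idx g (5 * g + 3) → R}
    (h : IsFam C P (5 * g + 3) (2 * g) E B) :
    ∃ v, IsVec C P (fun s => C.base.cls (E s)) v ∧
      ∀ s, ∃ ρ : Rep C.spec (C.spec.cls (C.redD (E s))),
        ρ.cvec = fun w => P.res (v w) := by
  classical
  obtain ⟨B', h'⟩ := h.exists_flip (m := 5 * g + 4) (by omega)
  let eA : Col g ≃ Fin (5 * g + 3 - 2 * g + 1 - g) := finSumFinEquiv.trans (finCongr (by omega))
  let eB : Fin (g + 2) ≃ Fin (5 * g + 4 - (5 * g + 3 - 2 * g) + 1 - g) := finCongr (by omega)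
  have h3 : 2 * g ≤ 5 * g + 3 := by omega
  have h4 : 2 * g ≤ 5 * g + 4 := by omega
  -- the quotient coordinates are common to the generic and special fibres
  choose y hy hy' using fun (i : Col g) (l : Fin (g + 2)) => h.exists_quot_vec h' (eA i) (eB l)
  -- read in the special fibre they give the reduction
  have hred : ∀ s, ∃ ρ : Rep C.spec (C.spec.cls (C.redD (E s))),
      ρ.cvec = fun w => P.res (wvec (detForm (quotCoef y)) w) := fun s => by
    let ρ : Rep C.spec (C.spec.cls (C.redD (E s))) :=
      { E := C.redD (E s)
        nonneg := C.redD_nonneg (h.nonneg s)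
        degree := h.degree_redD s
        cls_eq := rfl
        f := C.redv P _ (first h)
        f_mem := h.redv_mem _ s
        f_ne := h.redv_first_ne_zero
        a := fun i => C.redv P _ (B (eA i))
        a_mem := fun i => h.redv_mem _ s
        a_indep := h.indep.comp eA eA.injective
        b := fun l => C.redv P _ (B' (eB l))
        b_mem := fun l => by
          have := h'.redv_mem (eB l) s
          rwa [h.redD_flipDiv] at this
        b_indep := h'.indep.comp eB eB.injective }
    exact ⟨ρ, ρ.cvec_eq_map P.res y fun i l =>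
      (inv_mul_eq_iff_eq_mul₀ ρ.f_ne).mpr (hy' i l).symm⟩
  refine ⟨wvec (detForm (quotCoef y)), ⟨?_, fun s => ?_⟩, hred⟩
  · obtain ⟨ρ, e⟩ := hred (Classical.arbitrary S)
    exact e ▸ ρ.cvec_ne_zero
  -- read in the generic fibre they give the class of `E s`
  · let ρ : Rep C.base (C.base.cls (E s)) :=
      { E := E s
        nonneg := h.nonneg s
        degree := h.degree s
        cls_eq := rfl
        f := C.val P _ s (first h)
        f_mem := h.mem _ s
        f_ne := C.val_ne_zero P h3 h.redv_first_ne_zero s
        a := fun i => C.val P _ s (B (eA i))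
        a_mem := fun i => h.mem _ s
        a_indep := (C.linearIndependent_val P h3 h.indep s).comp eA eA.injective
        b := fun l => C.val P _ s (B' (eB l))
        b_mem := fun l => h'.mem _ s
        b_indep := (C.linearIndependent_val P h4 h'.indep s).comp eB eB.injective }
    have e' := ρ.cvec_eq_map (P.evL s) y fun i l =>
      (inv_mul_eq_iff_eq_mul₀ ρ.f_ne).mpr (hy i l s).symm
    obtain ⟨l, hl, e⟩ := exists_cvec_eq C.base ρ
    exact ⟨l, hl, fun w => (congrFun e' w).symm.trans (congrFun e w)⟩

variable {C P} in
/-- **A regular family of classes has a primitive vector of invariants.** -/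
theorem Regular.exists_vec [Nonempty S] {x : S → Pic0 L F} (h : Regular C P x) :
    ∃ v, IsVec C P x v := by
  obtain ⟨E, B, hB, hx⟩ := h.exists_fam (e' := 2 * g) (m := 5 * g + 3) le_rfl (by omega)
  obtain ⟨v, hv, -⟩ := hB.exists_vec
  exact ⟨v, hv.res_ne, fun s => by simpa only [hx s] using hv.line s⟩

/-! ### A single point -/

/-- The ring `A` seen as the functions on one point. -/
def Pts.single (A : ValuationSubring L) : Pts A A Unit where
  ev _ := RingHom.id A
  res := residue A
  residue_ev _ _ := rfl
  const := RingHom.id A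
  ev_const _ _ := rfl
  res_const _ := rfl
  isUnit_of_res _ h := (residue_ne_zero_iff_isUnit _).mp h

/-- Every class is a regular family over one point. -/
theorem regular_single (x : Pic0 L F) : Regular C (Pts.single A) fun _ : Unit => x := by
  obtain ⟨E, hE0, hEd, hEx, -⟩ := C.base.exists_rep x (e := 2 * g) le_rfl ∅
  have hn : 2 * g ≤ 4 * g := by omega
  set W : Submodule L (Idx g (4 * g) → L) :=
    (LL (C.base.lv (4 * g) - E)).comap (C.base.comb (4 * g)) with hW
  have hWd : Module.finrank L W = 4 * g - 2 * g + 1 - g := by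
    rw [← C.base.finrank_LL_sub hEd (n := 4 * g) (by omega)]
    refine LinearEquiv.finrank_eq
      ((W.equivMapOfInjective _ (C.base.comb_injective hn)).trans (LinearEquiv.ofEq _ _ ?_))
    rw [hW, Submodule.map_comap_eq, C.base.range_comb hn]
    exact inf_eq_right.mpr (C.base.LL_sub_le _ hE0)
  obtain ⟨v, hv, hvi⟩ := exists_integral_basis (A := A) W
  refine ⟨4 * g, 2 * g, fun _ => E, fun i => v (finCongr hWd.symm i),
    ⟨by omega, fun _ => hE0, fun _ => hEd, fun i _ => hv _, ?_⟩, fun _ => hEx⟩
  exact (hvi.map' (C.spec.comb (4 * g))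
    (LinearMap.ker_eq_bot.mpr (C.spec.comb_injective hn))).comp _ (finCongr hWd.symm).injective

end Fermat.RED.Flat
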