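import Fermat.Agent.RED.Flat.Invariant

/-!
# A primitive vector of invariants determines a regular family

Evaluating the form at points in general position gives two sections whose divisors differ by the
difference of two disjoint divisors; the colon space recovers the first of them, which is in the
class.
-/

set_option autoImplicit false
set_option linter.unusedSectionVars false

noncomputable section

open AlgebraicCurve IsLocalRing Matrix

namespace Fermat.RED.Flat

section Frame

variable {K F : Type*} [Field K] [Field F] [Algebra K F]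
variable [IsAlgClosed K] [FF.IsFunctionField K F]
variable {g : ℕ} {T : Frame K F g} {x : Pic0 K F}

/-- A minor function does not depend on the point of its column. -/
theorem minorFun_update {ι : Type*} [Fintype ι] [DecidableEq ι] (a : ι → F) (p : ι → Place K F)
    (j : ι) (Q : Place K F) : minorFun a (Function.update p j Q) j = minorFun a p j := by
  simp only [minorFun, Matrix.cramer_apply]
  refine Finset.sum_congr rfl fun i _ => ?_
  congr 2
  ext l c
  rcases eq_or_ne c j with rfl | hc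
  · simp
  · simp [evMat, hc]

/-- A function is a section of minus its divisor. -/
theorem mem_LL_neg_divOf {f : F} : f ∈ LL (-FF.divOf K f) := by
  rw [FF.mem_riemannRochSpace]
  intro v
  simpa using FF.ordGE_ord v f

namespace Rep

variable (ρ : Rep T x) (q₁ q₂ : Fin (g + 2) → Place K F)

/-- The section cut out by the two lists, with the first list as variable. -/
def sec₁ : F := ρ.f⁻¹ *
  (minorFun ρ.a (Sum.elim q₁ q₂) (Sum.inl (lastI g)) * minorFun ρ.b q₁ (lastI g))

/-- The section cut out by the two lists, with the second list as variable. -/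
def sec₂ : F := ρ.f⁻¹ *
  (minorFun ρ.a (Sum.elim q₁ q₂) (Sum.inl (lastI g)) * minorFun ρ.b q₂ (lastI g))

/-- The constant of `sec₁`. -/
def cst₁ : K := (∏ c ∈ Finset.univ.erase (Sum.inl (lastI g)),
    (FF.evalAt (Sum.elim q₁ q₂ c) ρ.f)⁻¹) * (evMat ρ.b q₂).det

/-- The constant of `sec₂`. -/
def cst₂ : K := -((∏ c ∈ Finset.univ.erase (Sum.inr (lastI g)),
    (FF.evalAt (Sum.elim q₁ q₂ c) ρ.f)⁻¹) * (evMat ρ.b q₁).det)

/-- The sections cut out by the lists lie in `L((5 g + 4) ∞)`. -/
theorem sec_mem (q : Fin (g + 2) → Place K F) :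
    ρ.f⁻¹ * (minorFun ρ.a (Sum.elim q₁ q₂) (Sum.inl (lastI g)) * minorFun ρ.b q (lastI g))
      ∈ LL (T.lv (5 * g + 4)) := by
  have := inv_mul_mem_LL ρ.f (mul_mem_LL
    (minorFun_mem ρ.a_mem (Sum.elim q₁ q₂) (Sum.inl (lastI g)))
    (minorFun_mem ρ.b_mem q (lastI g)))
  rwa [show T.lv (5 * g + 3) - ρ.E + (T.lv (5 * g + 4) - T.compl (5 * g + 3) ρ.E ρ.f) +
      FF.divOf K ρ.f = T.lv (5 * g + 4) by rw [Frame.compl]; abel] at this

variable {ρ q₁ q₂}

/-- The values of the sections at regular points. -/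
theorem evalAt_sec {q : Fin (g + 2) → Place K F} {Q : Place K F} (hQ : ρ.GoodPt Q) :
    FF.evalAt Q (ρ.f⁻¹ *
        (minorFun ρ.a (Sum.elim q₁ q₂) (Sum.inl (lastI g)) * minorFun ρ.b q (lastI g))) =
      (FF.evalAt Q ρ.f)⁻¹ *
        ((evMat ρ.a (Function.update (Sum.elim q₁ q₂) (Sum.inl (lastI g)) Q)).det *
          (evMat ρ.b (Function.update q (lastI g) Q)).det) := by
  have ha : FF.OrdGE Q (minorFun ρ.a (Sum.elim q₁ q₂) (Sum.inl (lastI g))) 0 :=
    FF.OrdGE.sum fun i _ => (hQ.ordGE_a i).smul _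
  have hb : FF.OrdGE Q (minorFun ρ.b q (lastI g)) 0 :=
    FF.OrdGE.sum fun i _ => (hQ.ordGE_b i).smul _
  rw [FF.evalAt_mul ((FF.ordGE_ord Q _).mono (by rw [Place.ord_inv, hQ.ord_f, neg_zero]))
      (by simpa using ha.mul hb),
    FF.evalAt_inv ρ.f_ne hQ.ord_f, FF.evalAt_mul ha hb, evalAt_minorFun hQ.ordGE_a,
    evalAt_minorFun hQ.ordGE_b]

/-- The form at the lists with a variable last point of the first list. -/
theorem evalW_update₁ (h₁ : ∀ r, ρ.GoodPt (q₁ r)) (h₂ : ∀ r, ρ.GoodPt (q₂ r))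
    {Q : Place K F} (hQ : ρ.GoodPt Q) :
    evalW ρ.cvec (Rep.tpts T (Function.update (Sum.elim q₁ q₂) (Sum.inl (lastI g)) Q)) =
      ρ.cst₁ q₁ q₂ * FF.evalAt Q (ρ.sec₁ q₁ q₂) := by
  classical
  set p := Function.update (Sum.elim q₁ q₂) (Sum.inl (lastI g)) Q with hp
  have hgood : ∀ c, ρ.GoodPt (p c) := by
    intro c
    rcases eq_or_ne c (Sum.inl (lastI g)) with rfl | hc
    · rw [hp, Function.update_self]; exact hQ
    · rw [hp, Function.update_of_ne hc]
      rcases c with r | r
      · exact h₁ r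
      · exact h₂ r
  rw [ρ.evalW_cvec_tpts hgood, sec₁, evalAt_sec hQ, cst₁]
  have eA : (Matrix.of fun i c => FF.evalAt (p c) (ρ.a i)) = evMat ρ.a p := rfl
  have e1 : (Matrix.of fun r l => FF.evalAt (p (Sum.inl r)) (ρ.b l)) =
      (evMat ρ.b (Function.update q₁ (lastI g) Q))ᵀ := by
    ext r l
    rcases eq_or_ne r (lastI g) with rfl | hr
    · simp only [evMat, Matrix.of_apply, Matrix.transpose_apply, hp, Function.update_self]
    · simp only [evMat, Matrix.of_apply, Matrix.transpose_apply, hp,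
        Function.update_of_ne (fun h => hr (Sum.inl_injective h)), Function.update_of_ne hr,
        Sum.elim_inl]
  have e2 : (Matrix.of fun r l => FF.evalAt (p (Sum.inr r)) (ρ.b l)) = (evMat ρ.b q₂)ᵀ := by
    ext r l
    simp only [evMat, Matrix.of_apply, Matrix.transpose_apply, hp,
      Function.update_of_ne (Sum.inr_ne_inl), Sum.elim_inr]
  rw [eA, e1, e2, Matrix.det_transpose, Matrix.det_transpose,
    ← Finset.mul_prod_erase Finset.univ _ (Finset.mem_univ (Sum.inl (lastI g))),
    Finset.prod_congr rfl (g := fun c => (FF.evalAt (Sum.elim q₁ q₂ c) ρ.f)⁻¹) fun c hc => by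
      rw [hp, Function.update_of_ne (Finset.ne_of_mem_erase hc)]]
  rw [hp, Function.update_self]
  ring

/-- The form at the lists with a variable last point of the second list. -/
theorem evalW_update₂ (hlast : q₁ (lastI g) = q₂ (lastI g)) (h₁ : ∀ r, ρ.GoodPt (q₁ r))
    (h₂ : ∀ r, ρ.GoodPt (q₂ r)) {Q : Place K F} (hQ : ρ.GoodPt Q) :
    evalW ρ.cvec (Rep.tpts T (Function.update (Sum.elim q₁ q₂) (Sum.inr (lastI g)) Q)) =
      ρ.cst₂ q₁ q₂ * FF.evalAt Q (ρ.sec₂ q₁ q₂) := by
  classical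
  set p := Function.update (Sum.elim q₁ q₂) (Sum.inr (lastI g)) Q with hp
  have hgood : ∀ c, ρ.GoodPt (p c) := by
    intro c
    rcases eq_or_ne c (Sum.inr (lastI g)) with rfl | hc
    · rw [hp, Function.update_self]; exact hQ
    · rw [hp, Function.update_of_ne hc]
      rcases c with r | r
      · exact h₁ r
      · exact h₂ r
  rw [ρ.evalW_cvec_tpts hgood, sec₂, evalAt_sec hQ, cst₂]
  -- swapping the two equal last points changes the sign
  have eA : (Matrix.of fun i c => FF.evalAt (p c) (ρ.a i)).det =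
      -(evMat ρ.a (Function.update (Sum.elim q₁ q₂) (Sum.inl (lastI g)) Q)).det := by
    have hswap := minorFun_swap (a := ρ.a) (p := Sum.elim q₁ q₂)
      (j := Sum.inl (lastI g)) (j' := Sum.inr (lastI g)) Sum.inl_ne_inr hlast
    have h := congrArg (FF.evalAt Q) hswap
    rw [evalAt_minorFun hQ.ordGE_a, ← neg_one_smul K (minorFun ρ.a (Sum.elim q₁ q₂) _),
      FF.evalAt_const_smul _ (f := minorFun ρ.a (Sum.elim q₁ q₂) (Sum.inl (lastI g)))
        (FF.OrdGE.sum fun i _ => (hQ.ordGE_a i).smul _),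
      evalAt_minorFun hQ.ordGE_a, neg_one_mul] at h
    exact h
  have e1 : (Matrix.of fun r l => FF.evalAt (p (Sum.inl r)) (ρ.b l)) = (evMat ρ.b q₁)ᵀ := by
    ext r l
    simp only [evMat, Matrix.of_apply, Matrix.transpose_apply, hp,
      Function.update_of_ne (Sum.inl_ne_inr), Sum.elim_inl]
  have e2 : (Matrix.of fun r l => FF.evalAt (p (Sum.inr r)) (ρ.b l)) =
      (evMat ρ.b (Function.update q₂ (lastI g) Q))ᵀ := by
    ext r l
    rcases eq_or_ne r (lastI g) with rfl | hr
    · simp only [evMat, Matrix.of_apply, Matrix.transpose_apply, hp, Function.update_self]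
    · simp only [evMat, Matrix.of_apply, Matrix.transpose_apply, hp,
        Function.update_of_ne (fun h => hr (Sum.inr_injective h)), Function.update_of_ne hr,
        Sum.elim_inr]
  rw [eA, e1, e2, Matrix.det_transpose, Matrix.det_transpose,
    ← Finset.mul_prod_erase Finset.univ _ (Finset.mem_univ (Sum.inr (lastI g))),
    Finset.prod_congr rfl (g := fun c => (FF.evalAt (Sum.elim q₁ q₂ c) ρ.f)⁻¹) fun c hc => by
      rw [hp, Function.update_of_ne (Finset.ne_of_mem_erase hc)]]
  rw [hp, Function.update_self]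
  ring

/-- The divisors of the two sections differ by the two divisors of zeros. -/
theorem divOf_sec_sub (h₁ : ρ.sec₁ q₁ q₂ ≠ 0) (h₂ : ρ.sec₂ q₁ q₂ ≠ 0) :
    FF.divOf K (ρ.sec₁ q₁ q₂) - FF.divOf K (ρ.sec₂ q₁ q₂) =
      ρ.zerosB (minorFun ρ.b q₁ (lastI g)) - ρ.zerosB (minorFun ρ.b q₂ (lastI g)) := by
  have ha : minorFun ρ.a (Sum.elim q₁ q₂) (Sum.inl (lastI g)) ≠ 0 := fun h => h₁ (by simp [sec₁, h])
  have hb₁ : minorFun ρ.b q₁ (lastI g) ≠ 0 := fun h => h₁ (by simp [sec₁, h])
  have hb₂ : minorFun ρ.b q₂ (lastI g) ≠ 0 := fun h => h₂ (by simp [sec₂, h])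
  have hf := inv_ne_zero ρ.f_ne
  rw [sec₁, sec₂, FF.divOf_mul hf (mul_ne_zero ha hb₁), FF.divOf_mul hf (mul_ne_zero ha hb₂),
    FF.divOf_mul ha hb₁, FF.divOf_mul ha hb₂, Rep.zerosB, Rep.zerosB, Frame.compl, Frame.compl]
  abel

/-- The divisors of zeros are effective. -/
theorem zerosB_nonneg {q : Fin (g + 2) → Place K F} (h : minorFun ρ.b q (lastI g) ≠ 0) :
    0 ≤ ρ.zerosB (minorFun ρ.b q (lastI g)) :=
  T.compl_nonneg (minorFun_mem ρ.b_mem _ _) h

/-- The divisors of zeros have degree `2 g + 1`. -/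
theorem degree_zerosB (φ : F) : Divisor.degree (ρ.zerosB φ) = ((2 * g + 1 : ℕ) : ℤ) := by
  rw [Rep.zerosB, T.degree_compl ρ.degree_E' (by omega)]
  congr 1
  omega

/-- The divisors of zeros represent the class. -/
theorem cls_zerosB (φ : F) : T.cls (ρ.zerosB φ) = x := by
  rw [Rep.zerosB, T.cls_compl, ρ.cls_E', neg_neg]

end Rep

/-- Equality with the first of two disjointly supported divisors, from equal differences. -/
theorem eq_left_of_sub_eq_sub {D D₂ E E₂ : Divisor K F} (hD : 0 ≤ D) (hD₂ : 0 ≤ D₂)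
    (hdis : ∀ Q, E Q = 0 ∨ E₂ Q = 0) (h : D - D₂ = E - E₂)
    (hdeg : Divisor.degree D = Divisor.degree E) : D = E := by
  have hnn : 0 ≤ D - E := by
    refine Finsupp.le_def.mpr fun Q => ?_
    have e := congrArg (fun G : Divisor K F => G Q) h
    have a1 := Finsupp.le_def.mp hD Q
    have a2 := Finsupp.le_def.mp hD₂ Q
    simp only [Finsupp.sub_apply, Finsupp.coe_zero, Pi.zero_apply] at e a1 a2 ⊢
    rcases hdis Q with hd | hd <;> omega
  exact sub_eq_zero.mp (FF.eq_zero_of_nonneg_of_degree hnn (by rw [map_sub, hdeg, sub_self]))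

/-- Evaluation of a combination of the basis away from the marked place. -/
theorem Frame.evalAt_comb (T : Frame K F g) {n : ℕ} (hn : 2 * g ≤ n) {Q : Place K F} (hQ : Q ≠ T.pt)
    (c : Idx g n → K) :
    FF.evalAt Q (T.comb n c) = ∑ l, c l * FF.evalAt Q (T.b n l) := by
  have hb : ∀ l, FF.OrdGE Q (T.b n l) 0 := fun l =>
    ordGE_of_mem_LL (T.b_mem n hn l) (T.lv_apply_of_ne n hQ).le
  rw [T.comb_apply, FF.evalAt_sum _ _ fun l _ => (hb l).smul _]
  exact Finset.sum_congr rfl fun l _ => FF.evalAt_const_smul _ (hb l)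

/-- A section which is `c` times another at enough points in general position is `c` times it. -/
theorem Frame.eq_smul_of_evalAt_eq (T : Frame K F g) {n : ℕ} (hn : 2 * g ≤ n)
    {Q : Idx g n → Place K F} (hQ : ∀ i, Q i ≠ T.pt)
    (hinj : Function.Injective (Matrix.of fun i l => FF.evalAt (Q i) (T.b n l)).mulVec)
    {z w : F} (hz : z ∈ LL (T.lv n)) (hw : w ∈ LL (T.lv n)) {c : K}
    (h : ∀ i, FF.evalAt (Q i) z = c * FF.evalAt (Q i) w) : z = c • w := by
  rw [← T.comb_crd hn hz, ← T.comb_crd hn hw, ← map_smul]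
  congr 1
  refine hinj (funext fun i => ?_)
  have e := h i
  rw [← T.comb_crd hn hz, ← T.comb_crd hn hw, T.evalAt_comb hn (hQ i), T.evalAt_comb hn (hQ i)] at e
  simp only [Pi.smul_apply, smul_eq_mul, Matrix.mulVec, dotProduct, Matrix.of_apply]
  refine (Finset.sum_congr rfl fun l _ => mul_comm _ _).trans (e.trans ?_)
  rw [Finset.mul_sum]
  exact Finset.sum_congr rfl fun l _ => by ring

/-- Two sections with the values of the form at the lists with variable last points have the
divisors of zeros of the two lists as difference of their divisors. -/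
theorem Rep.divOf_sub_of_evalW {ρ : Rep T x} {q₁ q₂ : Fin (g + 2) → Place K F}
    (hlast : q₁ (lastI g) = q₂ (lastI g)) (h₁ : ∀ r, ρ.GoodPt (q₁ r)) (h₂ : ∀ r, ρ.GoodPt (q₂ r))
    {Q : Idx g (5 * g + 4) → Place K F} (hQ : ∀ i, ρ.GoodPt (Q i))
    (hinj : Function.Injective
      (Matrix.of fun i l => FF.evalAt (Q i) (T.b (5 * g + 4) l)).mulVec)
    {κ : K} {z₁ z₂ : F} (hz₁ : z₁ ∈ LL (T.lv (5 * g + 4))) (hz₂ : z₂ ∈ LL (T.lv (5 * g + 4)))
    (he₁ : ∀ i, FF.evalAt (Q i) z₁ = κ * evalW ρ.cvec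
      (Rep.tpts T (Function.update (Sum.elim q₁ q₂) (Sum.inl (lastI g)) (Q i))))
    (he₂ : ∀ i, FF.evalAt (Q i) z₂ = κ * evalW ρ.cvec
      (Rep.tpts T (Function.update (Sum.elim q₁ q₂) (Sum.inr (lastI g)) (Q i)))) :
    z₁ = (κ * ρ.cst₁ q₁ q₂) • ρ.sec₁ q₁ q₂ ∧ z₂ = (κ * ρ.cst₂ q₁ q₂) • ρ.sec₂ q₁ q₂ ∧
      (z₁ ≠ 0 → z₂ ≠ 0 →
        minorFun ρ.b q₁ (lastI g) ≠ 0 ∧ minorFun ρ.b q₂ (lastI g) ≠ 0 ∧
          FF.divOf K z₁ - FF.divOf K z₂ =
            ρ.zerosB (minorFun ρ.b q₁ (lastI g)) - ρ.zerosB (minorFun ρ.b q₂ (lastI g))) := by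
  have h4 : 2 * g ≤ 5 * g + 4 := by omega
  have e₁ : z₁ = (κ * ρ.cst₁ q₁ q₂) • ρ.sec₁ q₁ q₂ :=
    T.eq_smul_of_evalAt_eq h4 (fun i => (hQ i).1) hinj hz₁
      (show ρ.sec₁ q₁ q₂ ∈ LL (T.lv (5 * g + 4)) from ρ.sec_mem q₁ q₂ q₁) fun i => by
      rw [he₁, Rep.evalW_update₁ h₁ h₂ (hQ i), mul_assoc]
  have e₂ : z₂ = (κ * ρ.cst₂ q₁ q₂) • ρ.sec₂ q₁ q₂ :=
    T.eq_smul_of_evalAt_eq h4 (fun i => (hQ i).1) hinj hz₂
      (show ρ.sec₂ q₁ q₂ ∈ LL (T.lv (5 * g + 4)) from ρ.sec_mem q₁ q₂ q₂) fun i => by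
      rw [he₂, Rep.evalW_update₂ hlast h₁ h₂ (hQ i), mul_assoc]
  refine ⟨e₁, e₂, fun n1 n2 => ?_⟩
  rw [e₁, smul_ne_zero_iff] at n1
  rw [e₂, smul_ne_zero_iff] at n2
  refine ⟨fun h => n1.2 (by simp [Rep.sec₁, h]), fun h => n2.2 (by simp [Rep.sec₂, h]), ?_⟩
  rw [e₁, e₂, FF.divOf_const_smul n1.1 n1.2, FF.divOf_const_smul n2.1 n2.2]
  exact Rep.divOf_sec_sub n1.2 n2.2

/-- In general position the two sections and their constants do not vanish. -/
theorem Config.sec_cst_ne_zero {ρ : Rep T x} (cfg : Config ρ) :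
    (ρ.sec₁ cfg.q₁ cfg.q₂ ≠ 0 ∧ ρ.sec₂ cfg.q₁ cfg.q₂ ≠ 0) ∧
      ρ.cst₁ cfg.q₁ cfg.q₂ ≠ 0 ∧ ρ.cst₂ cfg.q₁ cfg.q₂ ≠ 0 := by
  classical
  have hA : minorFun ρ.a (Sum.elim cfg.q₁ cfg.q₂) (Sum.inl (lastI g)) ≠ 0 := by
    rw [← minorFun_update _ _ _ cfg.Q]
    exact minorFun_ne_zero ρ.a_indep cfg.detA
  have hgood : ∀ c, ρ.GoodPt (Sum.elim cfg.q₁ cfg.q₂ c) := by
    rintro (r | r)
    exacts [cfg.good₁ r, cfg.good₂ r]
  have hpr : ∀ j : Col g, (∏ c ∈ Finset.univ.erase j,
      (FF.evalAt (Sum.elim cfg.q₁ cfg.q₂ c) ρ.f)⁻¹) ≠ 0 := fun j =>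
    Finset.prod_ne_zero_iff.mpr fun c _ =>
      inv_ne_zero (FF.evalAt_ne_zero ρ.f_ne (hgood c).ord_f)
  exact ⟨⟨mul_ne_zero (inv_ne_zero ρ.f_ne)
      (mul_ne_zero hA (minorFun_ne_zero ρ.b_indep cfg.detB₁)),
    mul_ne_zero (inv_ne_zero ρ.f_ne) (mul_ne_zero hA (minorFun_ne_zero ρ.b_indep cfg.detB₂))⟩,
    mul_ne_zero (hpr _) cfg.detB₂, neg_ne_zero.mpr (mul_ne_zero (hpr _) cfg.detB₁)⟩

end Frame

variable {L : Type*} [Field L] {A : ValuationSubring L}

/-- Primitive vectors on one line have proportional reductions. -/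
theorem exists_residue_smul_of_line {W : Type*} {u w : W → A} {l : L}
    (h : ∀ i, (u i : L) = l * (w i : L)) (hu : (fun i => residue A (u i)) ≠ 0)
    (hw : (fun i => residue A (w i)) ≠ 0) :
    ∃ c : ResidueField A, c ≠ 0 ∧ ∀ i, residue A (u i) = c * residue A (w i) := by
  obtain ⟨j, hj⟩ : ∃ j, residue A (w j) ≠ 0 := by
    by_contra hh
    push Not at hh
    exact hw (funext hh)
  obtain ⟨U, hU⟩ := (residue_ne_zero_iff_isUnit _).mp hj
  set a : A := u j * ((U⁻¹ : Aˣ) : A)
  have ha : (a : L) = l := by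
    have h1 : (w j : L) * (((U⁻¹ : Aˣ) : A) : L) = 1 := by
      rw [← hU, ← MulMemClass.coe_mul, Units.mul_inv]
      rfl
    simp only [a, MulMemClass.coe_mul]
    rw [h j, mul_assoc, h1, mul_one]
  have he : ∀ i, u i = a * w i := fun i => Subtype.ext (by rw [MulMemClass.coe_mul, ha, h i])
  refine ⟨residue A a, fun h0 => hu (funext fun i => ?_), fun i => by rw [he i, map_mul]⟩
  change residue A (u i) = 0
  rw [he i, map_mul, h0, zero_mul]

variable [IsAlgClosed L] [IsAlgClosed (ResidueField A)]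
variable {F Fk : Type*} [Field F] [Field Fk] [Algebra L F] [Algebra (ResidueField A) Fk]
variable [FF.IsFunctionField L F] [FF.IsFunctionField (ResidueField A) Fk]
variable {g : ℕ} (C : IntCurve A F Fk g)
variable {R : Type*} [CommRing R] {S : Type*} (P : Pts A R S)

/-- A lift of a place. -/
def liftPl (Q : Place (ResidueField A) Fk) : Place L F := Function.surjInv C.red_surj Q

/-- A lifted place reduces to the given one. -/
theorem red_liftPl (Q : Place (ResidueField A) Fk) : C.red (liftPl C Q) = Q :=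
  Function.surjInv_eq C.red_surj Q

/-- Integral values of the basis at lifted points. -/
theorem exists_evA {Q : Place (ResidueField A) Fk} (hQ : Q ≠ C.spec.pt) (j : Idx g (5 * g + 4)) :
    ∃ a : A, (a : L) = FF.evalAt (liftPl C Q) (C.base.b (5 * g + 4) j) ∧
      residue A a = FF.evalAt Q (C.spec.b (5 * g + 4) j) := by
  have hn : 2 * g ≤ 5 * g + 4 := by omega
  obtain ⟨a, h1, h2⟩ := C.residue_evalAt (f := ⟨_, C.b_mem_ring _ hn j⟩) (C.base.b_mem _ hn j)
    (P := liftPl C Q) (by rw [red_liftPl]; exact hQ)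
  rw [red_liftPl, C.gv_b _ hn] at h2
  exact ⟨a, h1, h2⟩

open Classical in
/-- The integral values. -/
def evA (Q : Place (ResidueField A) Fk) (j : Idx g (5 * g + 4)) : A :=
  if hQ : Q ≠ C.spec.pt then (exists_evA C hQ j).choose else 0

/-- The integral values are the values. -/
theorem evA_spec {Q : Place (ResidueField A) Fk} (hQ : Q ≠ C.spec.pt) (j : Idx g (5 * g + 4)) :
    (evA C Q j : L) = FF.evalAt (liftPl C Q) (C.base.b (5 * g + 4) j) ∧
      residue A (evA C Q j) = FF.evalAt Q (C.spec.b (5 * g + 4) j) := by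
  rw [evA, dif_pos hQ]
  exact (exists_evA C hQ j).choose_spec

/-- The variables at points, integrally. -/
def tvar (q : Col g → Place (ResidueField A) Fk) (v : Var g) : A :=
  ∑ r : Fin (g + 2), evA C (q (if v.1 = false then Sum.inl r else Sum.inr r)) v.2

variable {C} in
/-- The integral variables are the variables, above and below. -/
theorem tvar_spec {q : Col g → Place (ResidueField A) Fk} (hq : ∀ c, q c ≠ C.spec.pt) :
    (fun v => (tvar C q v : L)) = Rep.tpts C.base (fun c => liftPl C (q c)) ∧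
      (fun v => residue A (tvar C q v)) = Rep.tpts C.spec q := by
  constructor <;> funext v
  · rw [tvar, AddSubmonoidClass.coe_finsetSum]
    exact Finset.sum_congr rfl fun r _ => (evA_spec C (hq _) _).1
  · rw [tvar, map_sum]
    exact Finset.sum_congr rfl fun r _ => (evA_spec C (hq _) _).2

/-- Lifts of unmarked places are unmarked. -/
theorem liftPl_ne_pt {Q : Place (ResidueField A) Fk} (hQ : Q ≠ C.spec.pt) :
    liftPl C Q ≠ C.base.pt := fun h => hQ (by rw [← red_liftPl C Q, h, C.red_pt])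

/-- The integral evaluation matrix at points in general position is invertible. -/
theorem isUnit_evA {Qs : Idx g (5 * g + 4) → Place (ResidueField A) Fk}
    (hQ : ∀ i, Qs i ≠ C.spec.pt)
    (hind : LinearIndependent (ResidueField A) fun i => evVec (C.spec.b (5 * g + 4)) (Qs i)) :
    IsUnit (Matrix.of fun i j => evA C (Qs i) j) := by
  classical
  rw [Matrix.isUnit_iff_isUnit_det, ← residue_ne_zero_iff_isUnit, RingHom.map_det]
  refine IsUnit.ne_zero ((Matrix.isUnit_iff_isUnit_det _).mp ?_)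
  rw [← Matrix.linearIndependent_rows_iff_isUnit]
  convert hind using 1
  funext i j
  exact (evA_spec C (hQ i) j).2

/-- Evaluation at lifts of points in general position is injective. -/
theorem evalAt_liftPl_injective {Qs : Idx g (5 * g + 4) → Place (ResidueField A) Fk}
    (hQ : ∀ i, Qs i ≠ C.spec.pt)
    (hind : LinearIndependent (ResidueField A) fun i => evVec (C.spec.b (5 * g + 4)) (Qs i)) :
    Function.Injective (Matrix.of fun i l =>
      FF.evalAt (liftPl C (Qs i)) (C.base.b (5 * g + 4) l)).mulVec := by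
  classical
  have e : (Matrix.of fun i l => FF.evalAt (liftPl C (Qs i)) (C.base.b (5 * g + 4) l)) =
      A.subtype.mapMatrix (Matrix.of fun i j => evA C (Qs i) j) := by
    ext i l
    exact (evA_spec C (hQ i) l).1.symm
  rw [Matrix.mulVec_injective_iff_isUnit, e]
  exact (isUnit_evA C hQ hind).map _

/-- **Interpolation**: sections with given values at points in general position. -/
theorem exists_interp {Qs : Idx g (5 * g + 4) → Place (ResidueField A) Fk}
    (hQ : ∀ i, Qs i ≠ C.spec.pt)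
    (hind : LinearIndependent (ResidueField A) fun i => evVec (C.spec.b (5 * g + 4)) (Qs i))
    (w : Idx g (5 * g + 4) → R) :
    ∃ u : Idx g (5 * g + 4) → R,
      (∀ s i, FF.evalAt (liftPl C (Qs i)) (C.val P (5 * g + 4) s u) = P.evL s (w i)) ∧
      ∀ i, FF.evalAt (Qs i) (C.redv P (5 * g + 4) u) = P.res (w i) := by
  classical
  have h4 : 2 * g ≤ 5 * g + 4 := by omega
  obtain ⟨U, hU⟩ := isUnit_evA C hQ hind
  set u : Idx g (5 * g + 4) → R := ((↑U⁻¹ : Matrix _ _ A).map P.const) *ᵥ w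
  have hw : ((Matrix.of fun i j => evA C (Qs i) j).map P.const) *ᵥ u = w := by
    simp only [u, Matrix.mulVec_mulVec, ← Matrix.map_mul, ← hU, Units.mul_inv]
    rw [Matrix.map_one _ (map_zero _) (map_one _), Matrix.one_mulVec]
  refine ⟨u, fun s i => ?_, fun i => ?_⟩
  · rw [← hw, IntCurve.val, C.base.evalAt_comb h4 (liftPl_ne_pt C (hQ i))]
    simp only [Matrix.mulVec, dotProduct, Matrix.map_apply, map_sum, map_mul, Pts.evL_const]
    exact Finset.sum_congr rfl fun l _ => by rw [← (evA_spec C (hQ i) l).1, mul_comm]; rfl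
  · rw [← hw, IntCurve.redv, C.spec.evalAt_comb h4 (hQ i)]
    simp only [Matrix.mulVec, dotProduct, Matrix.map_apply, map_sum, map_mul, P.res_const]
    exact Finset.sum_congr rfl fun l _ => by rw [← (evA_spec C (hQ i) l).2, mul_comm]; rfl

/-- The form with coefficients `v` at integral points. -/
def formAt (v : (Col g → Var g) → R) (q : Col g → Place (ResidueField A) Fk) : R :=
  evalW v fun z => P.const (tvar C q z)

/-- The reduction of the form at points. -/
theorem res_formAt (v : (Col g → Var g) → R) {q : Col g → Place (ResidueField A) Fk}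
    (hq : ∀ c, q c ≠ C.spec.pt) :
    P.res (formAt C P v q) = evalW (fun w => P.res (v w)) (Rep.tpts C.spec q) := by
  rw [formAt, evalW_map]
  simp only [P.res_const]
  rw [(tvar_spec hq).2]

/-- The form at points, over one of the `S`-points. -/
theorem evL_formAt (v : (Col g → Var g) → R) {q : Col g → Place (ResidueField A) Fk}
    (hq : ∀ c, q c ≠ C.spec.pt) (s : S) :
    P.evL s (formAt C P v q) =
      evalW (fun w => P.evL s (v w)) (Rep.tpts C.base fun c => liftPl C (q c)) := by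
  rw [formAt, evalW_map]
  simp only [Pts.evL_const]
  rw [(tvar_spec hq).1]

/-- A vector of invariants reduces to that of data on the special fibre. -/
theorem exists_rep_res [Nonempty S] {x : S → Pic0 L F} {v : (Col g → Var g) → R}
    (hv : IsVec C P x v) :
    ∃ (y : Pic0 (ResidueField A) Fk) (ρ : Rep C.spec y) (κ : ResidueField A),
      κ ≠ 0 ∧ ∀ w, P.res (v w) = κ * ρ.cvec w := by
  set s₀ := Classical.arbitrary S
  obtain ⟨E₀, B₀, hB₀, hE₀x⟩ := (regular_single C (x s₀)).exists_fam (e' := 2 * g) (m := 5 * g + 3)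
    le_rfl (by omega)
  obtain ⟨v₀, hv₀, hrep⟩ := hB₀.exists_vec
  obtain ⟨ρ, hρ⟩ := hrep ()
  obtain ⟨l, hl, hlv⟩ := hv.line s₀
  obtain ⟨l₀, hl₀, hlv₀⟩ := hv₀.line ()
  have hline : ∀ w, (P.ev s₀ (v w) : L) = l / l₀ * (v₀ w : L) := fun w => by
    have h1 := hlv₀ w
    rw [hE₀x ()] at h1
    have h2 : (v₀ w : L) = l₀ * cvecOf C.base (x s₀) w := h1
    rw [h2, ← mul_assoc, div_mul_cancel₀ _ hl₀]
    exact hlv w
  obtain ⟨c, hc, hcw⟩ := exists_residue_smul_of_line hline
    (by simpa only [P.residue_ev] using hv.res_ne) hv₀.res_ne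
  exact ⟨_, ρ, c, hc, fun w => by rw [← P.residue_ev s₀, hcw, hρ]; rfl⟩

/-- At one point, two interpolating sections have as difference of divisors that of two effective
divisors, the first in the class and reducing to the first divisor of zeros below. -/
theorem exists_div_lift {y₀ : Pic0 (ResidueField A) Fk} {ρ : Rep C.spec y₀} (cfg : Config ρ)
    {Qs : Idx g (5 * g + 4) → Place (ResidueField A) Fk} (hQ : ∀ i, Qs i ≠ C.spec.pt)
    (hind : LinearIndependent (ResidueField A) fun i => evVec (C.spec.b (5 * g + 4)) (Qs i))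
    {v : (Col g → Var g) → R} {u₁ u₂ : Idx g (5 * g + 4) → R}
    (hne₁ : C.redv P _ u₁ ≠ 0) (hne₂ : C.redv P _ u₂ ≠ 0)
    (hdiv : FF.divOf (ResidueField A) (C.redv P _ u₁) - FF.divOf (ResidueField A) (C.redv P _ u₂) =
      ρ.zerosB (minorFun ρ.b cfg.q₁ (lastI g)) - ρ.zerosB (minorFun ρ.b cfg.q₂ (lastI g)))
    (s : S)
    (he₁ : ∀ i, FF.evalAt (liftPl C (Qs i)) (C.val P _ s u₁) = P.evL s
      (formAt C P v (Function.update (Sum.elim cfg.q₁ cfg.q₂) (Sum.inl (lastI g)) (Qs i))))
    (he₂ : ∀ i, FF.evalAt (liftPl C (Qs i)) (C.val P _ s u₂) = P.evL s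
      (formAt C P v (Function.update (Sum.elim cfg.q₁ cfg.q₂) (Sum.inr (lastI g)) (Qs i))))
    {y : Pic0 L F} {l : L} (hlv : ∀ w, P.evL s (v w) = l * cvecOf C.base y w) :
    ∃ D D₂ : Divisor L F, 0 ≤ D ∧ Divisor.degree D = ((2 * g + 1 : ℕ) : ℤ) ∧ C.base.cls D = y ∧
      0 ≤ D₂ ∧ FF.divOf L (C.val P _ s u₁) - FF.divOf L (C.val P _ s u₂) = D - D₂ ∧
      C.redD D = ρ.zerosB (minorFun ρ.b cfg.q₁ (lastI g)) := by
  classical
  have h4 : 2 * g ≤ 5 * g + 4 := by omega
  set q : Col g → Place (ResidueField A) Fk := Sum.elim cfg.q₁ cfg.q₂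
  have hq : ∀ c, q c ≠ C.spec.pt := by
    rintro (r | r)
    exacts [(cfg.good₁ r).1, (cfg.good₂ r).1]
  set pts : Finset (Place L F) :=
    (Finset.univ.image fun c => liftPl C (q c)) ∪ Finset.univ.image fun i => liftPl C (Qs i)
  -- data of `y` regular at the lifted points compute the same form up to a scalar
  obtain ⟨σ, hσ⟩ := exists_rep_avoid C.base y pts (by
    simp only [pts, Finset.mem_union, Finset.mem_image, Finset.mem_univ, true_and, not_or,
      not_exists]
    exact ⟨fun c => liftPl_ne_pt C (hq c), fun i => liftPl_ne_pt C (hQ i)⟩)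
  have hσq : ∀ c, σ.GoodPt (liftPl C (q c)) := fun c => hσ _ (by simp [pts])
  have hσQ : ∀ i, σ.GoodPt (liftPl C (Qs i)) := fun i => hσ _ (by simp [pts])
  obtain ⟨l', hl', hcv⟩ := exists_cvec_eq C.base σ
  set p₁ : Fin (g + 2) → Place L F := fun r => liftPl C (cfg.q₁ r)
  set p₂ : Fin (g + 2) → Place L F := fun r => liftPl C (cfg.q₂ r)
  have hwL : ∀ j i, P.evL s (formAt C P v (Function.update q j (Qs i))) = l / l' * evalW σ.cvec
      (Rep.tpts C.base (Function.update (Sum.elim p₁ p₂) j (liftPl C (Qs i)))) := by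
    intro j i
    have hupd : ∀ c, Function.update q j (Qs i) c ≠ C.spec.pt := fun c => by
      rcases eq_or_ne c j with rfl | hc
      · rw [Function.update_self]; exact hQ i
      · rw [Function.update_of_ne hc]; exact hq c
    have hp : (fun c => liftPl C (Function.update q j (Qs i) c)) =
        Function.update (Sum.elim p₁ p₂) j (liftPl C (Qs i)) := by
      funext c
      rcases eq_or_ne c j with rfl | hc
      · simp
      · rw [Function.update_of_ne hc, Function.update_of_ne hc]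
        rcases c with r | r <;> rfl
    rw [evL_formAt C P v hupd, hp]
    simp only [hlv]
    rw [evalW_smul, hcv, evalW_smul, ← mul_assoc, div_mul_cancel₀ _ hl']
  obtain ⟨-, -, hd⟩ := Rep.divOf_sub_of_evalW (ρ := σ) (congrArg (liftPl C) cfg.last_eq)
    (fun r => hσq (Sum.inl r)) (fun r => hσq (Sum.inr r)) hσQ (evalAt_liftPl_injective C hQ hind)
    (C.val_mem P h4 s u₁) (C.val_mem P h4 s u₂)
    (fun i => (he₁ i).trans (hwL _ i)) fun i => (he₂ i).trans (hwL _ i)
  obtain ⟨hb1, hb2, hdivL⟩ := hd (C.val_ne_zero P h4 hne₁ s) (C.val_ne_zero P h4 hne₂ s)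
  refine ⟨_, _, Rep.zerosB_nonneg hb1, Rep.degree_zerosB _, Rep.cls_zerosB _,
    Rep.zerosB_nonneg hb2, hdivL, ?_⟩
  have hred := congrArg C.redD hdivL
  rw [map_sub, map_sub, C.redD_divOf_val P h4 hne₁, C.redD_divOf_val P h4 hne₂, hdiv] at hred
  exact eq_left_of_sub_eq_sub (C.redD_nonneg (Rep.zerosB_nonneg hb1))
    (C.redD_nonneg (Rep.zerosB_nonneg hb2)) cfg.disjoint hred.symm
    (by rw [C.degree_redD, Rep.degree_zerosB, Rep.degree_zerosB])

/-- The value of a coordinate vector. -/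
theorem val_single (n : ℕ) (s : S) (i : Idx g n) : C.val P n s (Pi.single i 1) = C.base.b n i := by
  rw [IntCurve.val, Frame.comb_apply, Finset.sum_eq_single i]
  · simp
  · intro j _ hj
    simp [Pi.single_eq_of_ne hj]
  · simp

/-- The reduction of a coordinate vector. -/
theorem redv_single (n : ℕ) (i : Idx g n) : C.redv P n (Pi.single i 1) = C.spec.b n i := by
  rw [IntCurve.redv, Frame.comb_apply, Finset.sum_eq_single i]
  · simp
  · intro j _ hj
    simp [Pi.single_eq_of_ne hj]
  · simp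

/-- Two sections whose divisors differ at every point by effective divisors in the classes, with
disjointly supported reductions, make the family regular: the colon space recovers the first
divisor. -/
theorem regular_of_divOf_sub [Nonempty S] {n e : ℕ} (hn : 2 * g ≤ n) {x : S → Pic0 L F}
    {u₁ u₂ : Idx g n → R} (hne₁ : C.redv P n u₁ ≠ 0) (hne₂ : C.redv P n u₂ ≠ 0)
    {E₁ E₂ : Divisor (ResidueField A) Fk} (hdis : ∀ Q, E₁ Q = 0 ∨ E₂ Q = 0)
    (hdivK : FF.divOf (ResidueField A) (C.redv P n u₁) -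
      FF.divOf (ResidueField A) (C.redv P n u₂) = E₁ - E₂)
    (h : ∀ s, ∃ D D₂ : Divisor L F, 0 ≤ D ∧ Divisor.degree D = (e : ℤ) ∧ C.base.cls D = x s ∧
      0 ≤ D₂ ∧ FF.divOf L (C.val P n s u₁) - FF.divOf L (C.val P n s u₂) = D - D₂ ∧
      C.redD D = E₁) : Regular C P x := by
  choose D D₂ hD0 hDd hDx hD20 hdiv hDred using h
  set c := e + 2 * g with hc
  have hc2 : 2 * g ≤ c := by omega
  have hgen : ∀ s, ∀ w ∈ LL (C.base.lv c - D s), ∀ _j : Unit,
      ∃ y ∈ Submodule.span L (Set.range fun i : Idx g c => C.val P c s (Pi.single i 1)),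
        w * C.val P n s u₂ = C.val P n s u₁ * y := by
    intro s w hw _
    have n1 := C.val_ne_zero P hn hne₁ s
    refine ⟨(C.val P n s u₁)⁻¹ * (w * C.val P n s u₂), ?_, (mul_inv_cancel_left₀ n1 _).symm⟩
    have h1 := inv_mul_mem_LL (C.val P n s u₁)
      (mul_mem_LL hw (mem_LL_neg_divOf (f := C.val P n s u₂)))
    have h2 : C.base.lv c - D s + -FF.divOf L (C.val P n s u₂) +
        FF.divOf L (C.val P n s u₁) = C.base.lv c - D₂ s :=
      calc _ = C.base.lv c - D s + (FF.divOf L (C.val P n s u₁) -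
            FF.divOf L (C.val P n s u₂)) := by abel
        _ = _ := by rw [hdiv s]; abel
    rw [h2] at h1
    have h3 := C.base.LL_sub_le c (hD20 s) h1
    rw [show (fun i : Idx g c => C.val P c s (Pi.single i 1)) = C.base.b c from
      funext fun i => val_single C P c s i, ← C.base.comb_crd hc2 h3, C.base.comb_apply]
    exact Submodule.sum_mem _ fun i _ =>
      Submodule.smul_mem _ _ (Submodule.subset_span (Set.mem_range_self i))
  have hsp : ∀ w ∈ LL (C.spec.lv c), (∀ _j : Unit,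
      ∃ y ∈ Submodule.span (ResidueField A)
          (Set.range fun i : Idx g c => C.redv P c (Pi.single i 1)),
        w * C.redv P n u₂ = C.redv P n u₁ * y) →
      w ∈ LL (C.spec.lv c - C.redD (D (Classical.arbitrary S))) := by
    intro w hw hy
    rw [hDred, FF.mem_riemannRochSpace]
    intro Q
    rcases eq_or_ne w 0 with rfl | hw0
    · exact FF.ordGE_zero _ _
    obtain ⟨y, hy', e'⟩ := hy ()
    have hyc : y ∈ LL (C.spec.lv c) :=
      (Submodule.span_le.mpr (by rintro _ ⟨i, rfl⟩; exact C.redv_mem P hc2 _) : _ ≤ _) hy'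
    have hy0 : y ≠ 0 := fun h0 => mul_ne_zero hw0 hne₂ (by rw [e', h0, mul_zero])
    have e1 := congrArg Q.ord e'
    rw [Q.ord_mul hw0 hne₂, Q.ord_mul hne₁ hy0] at e1
    have e2 := (FF.mem_riemannRochSpace.mp hyc Q).le_ord hy0
    have e3 := (FF.mem_riemannRochSpace.mp hw Q).le_ord hw0
    have e4 := congrArg (fun E : Divisor (ResidueField A) Fk => E Q) hdivK
    simp only [Finsupp.sub_apply, FF.divOf_apply] at e4
    refine (FF.ordGE_iff_of_ne hw0).mpr ?_
    rw [Finsupp.sub_apply]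
    rcases hdis Q with hd | hd <;> omega
  -- the colon of the two vectors is the family of the divisors `D`
  obtain ⟨B, hB⟩ := exists_fam_colon C P (c := c) (b := n) (q := n) (a := c) (e := e)
    (N := c + n) rfl (add_comm _ _) hn hn hc2 le_rfl hne₁ (fun _ : Unit => u₂)
    (fun i : Idx g c => Pi.single i 1) (by simp only [redv_single]; exact C.spec.b_indep c hc2)
    hD0 hDd hgen ⟨Classical.arbitrary S, hsp⟩
  exact ⟨c, e, D, B, hB, hDx⟩

/-- **Recovery**: a primitive vector of invariants makes the family regular. -/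
theorem regular_of_isVec [Nonempty S] {x : S → Pic0 L F} {v : (Col g → Var g) → R}
    (hv : IsVec C P x v) : Regular C P x := by
  classical
  have h4 : 2 * g ≤ 5 * g + 4 := by omega
  obtain ⟨y₀, ρ, κ, hκ, hprop⟩ := exists_rep_res C P hv
  obtain ⟨cfg, -, -, -⟩ := ρ.exists_config ∅
  obtain ⟨Qs, hQs, hQi, -⟩ := exists_extend_many (I' := Empty) (C.spec.b (5 * g + 4))
    (C.spec.b_indep _ h4) (C.spec.b (5 * g + 4)) (C.spec.b_indep _ h4)
    (Fin.elim0 : Fin 0 → _ → ResidueField A) linearIndependent_empty_type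
    (fun i => (i.elim : Fin 0 → _ → ResidueField A)) (fun i => i.elim)
    ({C.spec.pt} ∪ ρ.E.support ∪ ρ.E'.support) (5 * g + 4 + 1 - g) (by simp) (by simp)
  simp only [Finset.mem_union, Finset.mem_singleton, Finsupp.mem_support_iff, not_or,
    not_not] at hQs
  have hQgood : ∀ i, ρ.GoodPt (Qs i) := fun i => ⟨(hQs i).1.1, (hQs i).1.2, (hQs i).2⟩
  have hind : LinearIndependent (ResidueField A)
      fun i => evVec (C.spec.b (5 * g + 4)) (Qs i) := hQi.comp Sum.inr Sum.inr_injective
  -- the two sections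
  set q : Col g → Place (ResidueField A) Fk := Sum.elim cfg.q₁ cfg.q₂
  have hupd : ∀ j i c, Function.update q j (Qs i) c ≠ C.spec.pt := by
    intro j i c
    rcases eq_or_ne c j with rfl | hc
    · rw [Function.update_self]; exact (hQgood i).1
    · rw [Function.update_of_ne hc]
      rcases c with r | r
      exacts [(cfg.good₁ r).1, (cfg.good₂ r).1]
  choose u hu hu' using fun j => exists_interp C P (fun i => (hQgood i).1) hind
    fun i => formAt C P v (Function.update q j (Qs i))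
  have hwK : ∀ j i, FF.evalAt (Qs i) (C.redv P _ (u j)) =
      κ * evalW ρ.cvec (Rep.tpts C.spec (Function.update q j (Qs i))) := fun j i => by
    rw [hu', res_formAt C P v (hupd j i)]
    simp only [hprop]
    rw [evalW_smul]
  obtain ⟨e₁, e₂, hd⟩ := Rep.divOf_sub_of_evalW cfg.last_eq cfg.good₁ cfg.good₂ hQgood
    (Matrix.mulVec_injective_iff_isUnit.mpr (Matrix.linearIndependent_rows_iff_isUnit.mp hind))
    (C.redv_mem P h4 _) (C.redv_mem P h4 _) (hwK _) (hwK _)
  obtain ⟨⟨hs₁, hs₂⟩, hc₁, hc₂⟩ := cfg.sec_cst_ne_zero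
  have hne₁ : C.redv P _ (u (Sum.inl (lastI g))) ≠ 0 :=
    e₁ ▸ smul_ne_zero (mul_ne_zero hκ hc₁) hs₁
  have hne₂ : C.redv P _ (u (Sum.inr (lastI g))) ≠ 0 :=
    e₂ ▸ smul_ne_zero (mul_ne_zero hκ hc₂) hs₂
  obtain ⟨-, -, hdivK⟩ := hd hne₁ hne₂
  exact regular_of_divOf_sub C P h4 hne₁ hne₂ cfg.disjoint hdivK fun s => by
    obtain ⟨l, -, hlv⟩ := hv.line s
    exact exists_div_lift C P cfg (fun i => (hQgood i).1) hind hne₁ hne₂ hdivK s (hu _ s) (hu _ s)
      hlv

/-- Classes with proportional invariants are equal. -/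
theorem eq_of_cvecOf_line {x y : Pic0 L F} {l : L} (hl : l ≠ 0)
    (h : ∀ w, cvecOf C.base x w = l * cvecOf C.base y w) : x = y := by
  classical
  obtain ⟨v, hv, hline⟩ := (regular_single C x).exists_vec
  obtain ⟨l₁, hl₁, hv₁⟩ := hline ()
  -- both classes have the invariant of one primitive vector, over two points
  let P₂ : Pts A A Bool :=
    { ev := fun _ => RingHom.id A
      res := residue A
      residue_ev := fun _ _ => rfl
      const := RingHom.id A
      ev_const := fun _ _ => rfl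
      res_const := fun _ => rfl
      isUnit_of_res := fun _ h => (residue_ne_zero_iff_isUnit _).mp h }
  have hr : Regular C P₂ (fun b : Bool => bif b then x else y) := by
    refine regular_of_isVec C P₂ (v := v) ⟨hv, fun b => ?_⟩
    cases b
    · exact ⟨l₁ * l, mul_ne_zero hl₁ hl, fun w => by
        change (v w : L) = _
        rw [show (v w : L) = _ from hv₁ w, h w, mul_assoc]
        rfl⟩
    · exact ⟨l₁, hl₁, hv₁⟩
  -- so both are given by one family, and the spaces of sections agree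
  obtain ⟨n, e, E, B, hB, hE⟩ := hr
  have h1 : LL (C.base.lv n - E true) = LL (C.base.lv n - E false) := by
    rw [← hB.span_val true, ← hB.span_val false]
    rfl
  -- hence so do the divisors
  have h2 : E true = E false := by
    refine Finsupp.ext fun Q => ?_
    have a1 := Finsupp.le_def.mp
      (le_of_LL_le (C.base.two_mul_genus_le (hB.degree false) hB.le) h1.ge) Q
    have a2 := Finsupp.le_def.mp
      (le_of_LL_le (C.base.two_mul_genus_le (hB.degree true) hB.le) h1.le) Q
    simp only [Finsupp.sub_apply] at a1 a2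
    omega
  have h3 := (hE true).symm.trans ((congrArg C.base.cls h2).trans (hE false))
  exact h3

end Fermat.RED.Flat
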