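import Fermat.Agent.RED.Flat.VecModel
import Fermat.Agent.RED.Flat.Recover

/-!
# Models of finite modules of classes

`nonempty_model`, `exists_model`: a finite Galois module with a jointly injective family of
equivariant homomorphisms to the classes of a curve with good reduction has a model over the fixed
ring of the place: the invariants are projective vectors, addition is locally given by functions
(`Invariant`, `Recover`), and `VecModel` builds the model. `Instance` applies it to good models of
curves over `ℚ`.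
-/

set_option autoImplicit false

noncomputable section

open AlgebraicCurve IsLocalRing

namespace Fermat.RED.Flat

local notation "ℚbar" => AlgebraicClosure ℚ
local notation "Γℚ" => (AlgebraicClosure ℚ ≃ₐ[ℚ] AlgebraicClosure ℚ)

variable {p : ℕ} [hp : Fact p.Prime] {A : ValuationSubring ℚbar}
variable [IsAlgClosed (ResidueField A)]
variable {F Fk : Type*} [Field F] [Field Fk] [Algebra ℚbar F] [Algebra (ResidueField A) Fk]
variable [FF.IsFunctionField ℚbar F] [FF.IsFunctionField (ResidueField A) Fk]
variable {g : ℕ} (C : IntCurve A F Fk g)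

section Local

variable {ι : Type*} (T : Subalgebra A (ι → A)) (z₀ : ι)

/-- The points not separated from `z₀` by the residues of `T`. -/
def Near : Type _ := {z : ι // ∀ f ∈ T, residue A (f z) = residue A (f z₀)}

/-- `z₀` is near itself. -/
instance : Nonempty (Near T z₀) := ⟨⟨z₀, fun _ _ => rfl⟩⟩

/-- Finitely many points have finitely many near `z₀`. -/
instance [Finite ι] : Finite (Near T z₀) := Subtype.finite

/-- Restriction to the points near `z₀`. -/
def nearRing : Subalgebra A (Near T z₀ → A) :=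
  T.map (AlgHom.pi fun z : Near T z₀ => Pi.evalAlgHom A (fun _ : ι => A) z.1)

variable [Finite ι]

/-- The functions near `z₀` form a ring of functions on points. -/
def nearPts : Pts A (nearRing T z₀) (Near T z₀) where
  ev s := (Pi.evalRingHom (fun _ : Near T z₀ => A) s).comp (nearRing T z₀).val.toRingHom
  res := (residue A).comp
    ((Pi.evalRingHom (fun _ : Near T z₀ => A) ⟨z₀, fun _ _ => rfl⟩).comp
      (nearRing T z₀).val.toRingHom)
  residue_ev s r := by
    obtain ⟨f, hf, e⟩ := r.2
    change residue A (r.1 s) = residue A (r.1 _)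
    rw [← e]
    exact s.2 f hf
  const := algebraMap A (nearRing T z₀)
  ev_const _ _ := rfl
  res_const _ := rfl
  isUnit_of_res r hr := by
    obtain ⟨w, hw, e⟩ := Fermat.FLAT.Curve.exists_inv_mem r.2 fun s => by
      refine (residue_ne_zero_iff_isUnit _).mp ?_
      obtain ⟨f, hf, e⟩ := r.2
      rw [← e]
      change residue A (f s.1) ≠ 0
      rw [s.2 f hf]
      intro h0
      refine hr ?_
      change residue A (r.1 _) = 0
      rw [← e]
      exact h0
    exact IsUnit.of_mul_eq_one (⟨w, hw⟩ : nearRing T z₀) (Subtype.ext ((mul_comm _ _).trans e))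

omit [IsAlgClosed (ResidueField ↥A)] in
/-- A function of `T` supported near `z₀`. -/
theorem exists_support :
    ∃ e ∈ T, residue A (e z₀) ≠ 0 ∧
      ∀ z, (¬ ∀ f ∈ T, residue A (f z) = residue A (f z₀)) → e z = 0 := by
  classical
  have := Fintype.ofFinite ι
  have hsep : ∀ z : {z : ι // ¬ ∀ f ∈ T, residue A (f z) = residue A (f z₀)},
      ∃ f ∈ T, residue A (f z.1) ≠ residue A (f z₀) := fun z => by
    have := z.2
    push Not at this
    exact this
  choose t htT ht using hsep
  refine ⟨∏ z, (t z - algebraMap A (ι → A) (t z z.1)),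
    prod_mem fun z _ => sub_mem (htT z) (T.algebraMap_mem _), ?_, fun z hz => ?_⟩
  · rw [Finset.prod_apply, map_prod, Finset.prod_ne_zero_iff]
    intro z _
    rw [Pi.sub_apply, Pi.algebraMap_apply, Algebra.algebraMap_self, RingHom.id_apply, map_sub]
    exact sub_ne_zero.mpr (ht z).symm
  · rw [Finset.prod_apply]
    refine Finset.prod_eq_zero (Finset.mem_univ ⟨z, hz⟩) ?_
    simp

variable {φ : ι → Pic0 ℚbar F}

variable {T z₀} in
/-- A vector of functions near a point gives a regular family there. -/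
theorem regular_of_hasVecAt (h : HasVecAt T (fun z => cvecOf C.base (φ z)) z₀) :
    Regular C (nearPts T z₀) fun s => φ s.1 := by
  obtain ⟨U, hU, hUr⟩ := h
  refine regular_of_isVec C (nearPts T z₀)
    (v := fun w => ⟨_, (U w).1, (U w).2, rfl⟩) ⟨hUr, fun s => ?_⟩
  obtain ⟨l, hl⟩ := hU s.1
  refine ⟨l, fun h0 => hUr (funext fun w => ?_), hl⟩
  rw [Pi.zero_apply, ← s.2 _ (U w).2,
    show (U w : ι → A) s.1 = 0 from Subtype.ext (by rw [hl w, h0, zero_mul]; rfl), map_zero]

variable {T z₀} in
/-- A regular family near a point gives a vector of functions. -/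
theorem hasVecAt_of_regular (h : Regular C (nearPts T z₀) fun s => φ s.1) :
    HasVecAt T (fun z => cvecOf C.base (φ z)) z₀ := by
  classical
  obtain ⟨v, hv, hline⟩ := h.exists_vec
  obtain ⟨e, heT, he₀, hsupp⟩ := exists_support T z₀
  choose f hfT hf using fun w => (v w).2
  refine ⟨fun w => ⟨e * f w, mul_mem heT (hfT w)⟩, fun z => ?_, fun h0 => hv (funext fun w => ?_)⟩
  · by_cases hz : ∀ f ∈ T, residue A (f z) = residue A (f z₀)
    · obtain ⟨l, -, hl⟩ := hline ⟨z, hz⟩
      refine ⟨(e z : ℚbar) * l, fun w => ?_⟩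
      rw [mul_assoc, ← hl w]
      change (((e * f w) z : A) : ℚbar) = (e z : ℚbar) * ((v w).1 ⟨z, hz⟩ : A)
      rw [Pi.mul_apply, MulMemClass.coe_mul, ← hf w]
      rfl
    · refine ⟨0, fun w => ?_⟩
      change (((e * f w) z : A) : ℚbar) = _
      rw [Pi.mul_apply, hsupp z hz, zero_mul, zero_mul]
      rfl
  · have h1 := congrFun h0 w
    simp only [Pi.zero_apply, Pi.mul_apply, map_mul, mul_eq_zero] at h1
    change residue A ((v w).1 _) = 0
    rw [← hf w]
    exact h1.resolve_left he₀

end Local

/-- Galois acts on the curve, fixing the point and the basis of `L((5g+4)∞)`. -/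
structure RatAct (act : Γℚ →* SemilinearAut ℚbar F) : Prop where
  /-- `act σ` is `σ` on constants. -/
  base_eq : ∀ σ : Γℚ, ∀ a, SemilinearAut.baseAut (act σ) a = σ a
  /-- The marked place is fixed. -/
  smul_pt : ∀ σ, act σ • C.base.pt = C.base.pt
  /-- The basis functions at level `5 g + 4` are fixed. -/
  smul_b : ∀ σ i, act σ • C.base.b (5 * g + 4) i = C.base.b (5 * g + 4) i

/-- The invariants of a class reduce to those of the reduced class. -/
theorem exists_red_vec (y : Pic0 ℚbar F) (χ : Pic0 ℚbar F →+ Pic0 (ResidueField A) Fk)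
    (hχ : ∀ D, χ (C.base.cls D) = C.spec.cls (C.redD D)) :
    ∃ (v : (Col g → Var g) → A) (l : ℚbar), (∀ k, (v k : ℚbar) = l * cvecOf C.base y k) ∧
      (fun k => residue A (v k)) ≠ 0 ∧
      ∃ l' : ResidueField A, l' ≠ 0 ∧ ∀ k, residue A (v k) = l' * cvecOf C.spec (χ y) k := by
  obtain ⟨E, B, hB, hE⟩ := (regular_single C y).exists_fam (e' := 2 * g) (m := 5 * g + 3) le_rfl
    (by omega)
  obtain ⟨v, hv, hρ⟩ := hB.exists_vec
  obtain ⟨ρ, hρv⟩ := hρ ()
  obtain ⟨l, -, hlv⟩ := hv.line ()
  obtain ⟨l', hl', e⟩ := exists_cvec_eq C.spec ρ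
  refine ⟨v, l, fun k => by rw [← hE ()]; exact hlv k, hv.res_ne, l', hl', fun k => ?_⟩
  rw [← hE (), hχ]
  exact (congrFun hρv k).symm.trans (congrFun e k)

/-- Classes with one reduction have invariants with proportional residues. -/
theorem resLine_of_red {y z : Pic0 ℚbar F} (χ : Pic0 ℚbar F →+ Pic0 (ResidueField A) Fk)
    (hχ : ∀ D, χ (C.base.cls D) = C.spec.cls (C.redD D)) (hyz : χ y = χ z) :
    ResLine A (cvecOf C.base y) (cvecOf C.base z) := by
  obtain ⟨v, l, hv, hvr, a, ha, hva⟩ := exists_red_vec C y χ hχ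
  obtain ⟨w, m, hw, hwr, b, hb, hwb⟩ := exists_red_vec C z χ hχ
  exact ⟨v, w, l, m, hv, hw, hvr, hwr, a / b, fun k => by
    rw [hva, hwb, hyz, ← mul_assoc, div_mul_cancel₀ a hb]⟩

variable {M : Type*} [AddCommGroup M] [Finite M] {τ : Type*} [Finite τ]

/-- **Good reduction gives models**, in which a point with vanishing reduction is connected. -/
theorem exists_model (h : Fermat.EC.Val.IsPlace A p) {act : Γℚ →* SemilinearAut ℚbar F}
    (hact : RatAct C act) (gM : Γℚ →* AddMonoid.End M) (x : τ → M →+ Pic0 ℚbar F)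
    (hx : ∀ t σ m, x t (gM σ m) = act σ • x t m)
    (hinj : ∀ m, (∀ t, x t m = 0) → m = 0) :
    ∃ G : Fermat.FLAT.Model A (⊤ : Subgroup Γℚ) (fun σ => gM σ),
      ∀ χ : Pic0 ℚbar F →+ Pic0 (ResidueField A) Fk,
        (∀ D, χ (C.base.cls D) = C.spec.cls (C.redD D)) →
        ∀ m, (∀ t, χ (x t m) = 0) → m ∈ G.conn h := by
  have hne : ∀ y : Pic0 ℚbar F, cvecOf C.base y ≠ 0 := fun y => by
    obtain ⟨l, -, e⟩ := exists_cvec_eq C.base (Classical.arbitrary (Rep C.base y))
    exact fun h0 => (Classical.arbitrary (Rep C.base y)).cvec_ne_zero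
      (by rw [e, h0]; funext w; simp)
  suffices ∃ G : Fermat.FLAT.Model A (⊤ : Subgroup Γℚ) (fun σ => gM σ),
      ∀ m, (∀ t, ResLine A (cvecOf C.base (x t m)) (cvecOf C.base (x t 0))) → m ∈ G.conn h by
    obtain ⟨G, hG⟩ := this
    exact ⟨G, fun χ hχ m hm => hG m fun t => resLine_of_red C χ hχ
      (by rw [hm t, map_zero, map_zero])⟩
  refine exists_model_of_vectors h (fun t m => cvecOf C.base (x t m)) (fun t m => hne _)
    (fun t σ m => ?_) (fun m n hmn => ?_) fun T h1 h2 t z₀ => ?_
  · obtain ⟨l, hl, e⟩ :=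
      exists_cvecOf_smul C.base (act σ) (hact.smul_pt σ) (hact.smul_b σ) (x t m)
    refine ⟨l, hl, ?_⟩
    show cvecOf C.base (x t (gM σ m)) = _
    rw [hx, e]
    funext w
    rw [hact.base_eq]
    rfl
  · refine eq_of_sub_eq_zero (hinj _ fun t => ?_)
    obtain ⟨l, hl, e⟩ := hmn t
    rw [map_sub, sub_eq_zero]
    exact eq_of_cvecOf_line C hl fun w => congrFun e w
  · have key := Regular.add (regular_of_hasVecAt C (φ := fun z : M × M => x t z.1) (h1 t z₀))
      (regular_of_hasVecAt C (φ := fun z : M × M => x t z.2) (h2 t z₀))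
    refine hasVecAt_of_regular C (φ := fun z : M × M => x t (z.1 + z.2)) ?_
    simp only [map_add]
    exact key

/-- **Good reduction gives models.** A finite module embedded equivariantly in `Pic⁰` of a curve
with good reduction has a model. -/
theorem nonempty_model (h : Fermat.EC.Val.IsPlace A p) {act : Γℚ →* SemilinearAut ℚbar F}
    (hact : RatAct C act) (gM : Γℚ →* AddMonoid.End M) (x : τ → M →+ Pic0 ℚbar F)
    (hx : ∀ t σ m, x t (gM σ m) = act σ • x t m)
    (hinj : ∀ m, (∀ t, x t m = 0) → m = 0) :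
    Nonempty (Fermat.FLAT.Model A (⊤ : Subgroup Γℚ) (fun σ => gM σ)) :=
  ⟨(exists_model C h hact gM x hx hinj).choose⟩

end Fermat.RED.Flat
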