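import Fermat.Agent.RED.Flat.Frame
import Fermat.Agent.RED.Flat.Form

/-!
# The determinant invariant of a divisor class

For a class `x`, an effective divisor `E` in it of degree `2g`, bases `a` of `L(m ∞ - E)` and `b`
of the sections vanishing on the complement of `E` in a section `f`, the products `a b / f` lie in
`L(n ∞)`; the determinant of the linear forms they give depends only on `x`, up to a scalar
(`exists_smul_cvec`). This is the map from classes to projective space behind the models:
`Invariant` makes it integral in families, `Recover` inverts it.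
-/

set_option autoImplicit false
set_option linter.unusedSectionVars false

noncomputable section

open AlgebraicCurve

namespace Fermat.RED.Flat

variable {K F : Type*} [Field K] [Field F] [Algebra K F]
variable [IsAlgClosed K] [FF.IsFunctionField K F]
variable {g : ℕ}

/-- The columns: `g + 2` of each kind. -/
abbrev Col (g : ℕ) : Type := Fin (g + 2) ⊕ Fin (g + 2)

/-- The variables: one coordinate vector of level `5g + 4` for each kind of column. -/
abbrev Var (g : ℕ) : Type := Bool × Idx g (5 * g + 4)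

/-- The kind of a column. -/
def colB {g : ℕ} : Col g → Bool := Sum.elim (fun _ => false) fun _ => true

/-- The index of a column. -/
def colI {g : ℕ} : Col g → Fin (g + 2) := Sum.elim id id

/-- The data computing the invariant of a class. -/
structure Rep (T : Frame K F g) (x : Pic0 K F) where
  /-- An effective divisor in the class. -/
  E : Divisor K F
  /-- `E` is effective. -/
  nonneg : 0 ≤ E
  /-- `E` has degree `2 g`. -/
  degree : Divisor.degree E = ((2 * g : ℕ) : ℤ)
  /-- The class of `E` is `x`. -/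
  cls_eq : T.cls E = x
  /-- A section vanishing on `E`. -/
  f : F
  /-- `f` lies in `L((5g+3) ∞ - E)`. -/
  f_mem : f ∈ LL (T.lv ((5 * g + 3)) - E)
  /-- `f` is not zero. -/
  f_ne : f ≠ 0
  /-- The sections of the first kind. -/
  a : Col g → F
  /-- They lie in `L((5g+3) ∞ - E)`. -/
  a_mem : ∀ i, a i ∈ LL (T.lv ((5 * g + 3)) - E)
  /-- They are independent. -/
  a_indep : LinearIndependent K a
  /-- The sections of the second kind. -/
  b : Fin (g + 2) → F
  /-- They vanish on the complement of `E` in `f`. -/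
  b_mem : ∀ l, b l ∈ LL (T.lv ((5 * g + 4)) - T.compl ((5 * g + 3)) E f)
  /-- They are independent. -/
  b_indep : LinearIndependent K b

namespace Rep

variable {T : Frame K F g} {x : Pic0 K F} (ρ : Rep T x)

/-- The complementary divisor. -/
def E' : Divisor K F := T.compl ((5 * g + 3)) ρ.E ρ.f

/-- The complement has degree `3 g + 3`. -/
theorem degree_E' : Divisor.degree ρ.E' = ((3 * g + 3 : ℕ) : ℤ) := by
  rw [E', T.degree_compl ρ.degree (by omega)]
  congr 1
  omega

/-- The complement has class `-x`. -/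
theorem cls_E' : T.cls ρ.E' = -x := by rw [E', T.cls_compl, ρ.cls_eq]

/-- There are `2 g + 4` columns. -/
theorem card_col : Fintype.card (Col g) = 2 * g + 4 := by
  rw [Fintype.card_sum, Fintype.card_fin]
  omega

/-- The sections of the first kind form a space of dimension `2 g + 4`. -/
theorem finrank_A : Module.finrank K (LL (T.lv ((5 * g + 3)) - ρ.E)) = 2 * g + 4 := by
  rw [T.finrank_LL_sub ρ.degree (by omega)]
  omega

/-- The sections of the second kind form a space of dimension `g + 2`. -/
theorem finrank_B : Module.finrank K (LL (T.lv ((5 * g + 4)) - ρ.E')) = g + 2 := by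
  rw [T.finrank_LL_sub ρ.degree_E' (by omega)]
  omega

/-- The products `a i * b l / f`. -/
def quot (i : Col g) (l : Fin (g + 2)) : F := ρ.f⁻¹ * (ρ.a i * ρ.b l)

/-- The products lie in `L((5 g + 4) ∞)`. -/
theorem quot_mem (i : Col g) (l : Fin (g + 2)) : ρ.quot i l ∈ LL (T.lv ((5 * g + 4))) := by
  have := inv_mul_mem_LL ρ.f (mul_mem_LL (ρ.a_mem i) (ρ.b_mem l))
  rw [show T.lv ((5 * g + 3)) - ρ.E + (T.lv ((5 * g + 4)) - T.compl ((5 * g + 3)) ρ.E ρ.f) +
    FF.divOf K ρ.f = T.lv ((5 * g + 4)) by rw [Frame.compl]; abel] at this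
  exact this

/-- The coefficients of the linear forms. -/
def coef (i c : Col g) (v : Var g) : K :=
  if v.1 = colB c then T.crd ((5 * g + 4)) (ρ.quot i (colI c)) v.2 else 0

/-- **The invariant.** The coefficients of the determinant form, as a function of the choices of
variables. -/
def cvec : (Col g → Var g) → K := wvec (detForm ρ.coef)

/-- The variables at points. -/
def tpts (T : Frame K F g) (p : Col g → Place K F) (v : Var g) : K :=
  ∑ r : Fin (g + 2),
    FF.evalAt (p (if v.1 = false then Sum.inl r else Sum.inr r)) (T.b ((5 * g + 4)) v.2)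

/-- A point at which the data are regular. -/
def GoodPt (P : Place K F) : Prop := P ≠ T.pt ∧ ρ.E P = 0 ∧ ρ.E' P = 0

variable {ρ}

/-- The first sections are regular at good points. -/
theorem GoodPt.ordGE_a {P : Place K F} (hP : ρ.GoodPt P) (i : Col g) :
    FF.OrdGE P (ρ.a i) 0 :=
  ordGE_of_mem_LL (ρ.a_mem i) (by rw [Finsupp.sub_apply, T.lv_apply_of_ne _ hP.1, hP.2.1, sub_zero])

/-- The second sections are regular at good points. -/
theorem GoodPt.ordGE_b {P : Place K F} (hP : ρ.GoodPt P) (l : Fin (g + 2)) :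
    FF.OrdGE P (ρ.b l) 0 :=
  ordGE_of_mem_LL (ρ.b_mem l) (by
    rw [Finsupp.sub_apply, T.lv_apply_of_ne _ hP.1]
    exact (sub_nonpos).mpr (le_of_eq hP.2.2.symm))

/-- `f` is a unit at good points. -/
theorem GoodPt.ord_f {P : Place K F} (hP : ρ.GoodPt P) : P.ord ρ.f = 0 := by
  have := hP.2.2
  rw [E', Frame.compl, Finsupp.sub_apply, Finsupp.add_apply, T.lv_apply_of_ne _ hP.1, hP.2.1,
    FF.divOf_apply] at this
  omega

/-- The values of the products at good points. -/
theorem GoodPt.evalAt_quot {P : Place K F} (hP : ρ.GoodPt P) (i : Col g) (l : Fin (g + 2)) :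
    FF.evalAt P (ρ.quot i l) = (FF.evalAt P ρ.f)⁻¹ *
      (FF.evalAt P (ρ.a i) * FF.evalAt P (ρ.b l)) := by
  have hab : FF.OrdGE P (ρ.a i * ρ.b l) 0 := by simpa using (hP.ordGE_a i).mul (hP.ordGE_b l)
  have hf : FF.OrdGE P ρ.f⁻¹ 0 :=
    (FF.ordGE_ord P ρ.f⁻¹).mono (by rw [Place.ord_inv, hP.ord_f, neg_zero])
  rw [quot, FF.evalAt_mul hf hab, FF.evalAt_inv ρ.f_ne hP.ord_f,
    FF.evalAt_mul (hP.ordGE_a i) (hP.ordGE_b l)]

variable (ρ)

/-- **Factorisation at points.** At good points the invariant is a product of determinants of the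
values of `a` and `b`, over that of `f`. -/
theorem evalW_cvec_tpts {p : Col g → Place K F} (hp : ∀ c, ρ.GoodPt (p c)) :
    evalW ρ.cvec (tpts T p) = (∏ c, (FF.evalAt (p c) ρ.f)⁻¹) *
      Matrix.det (Matrix.of fun i c => FF.evalAt (p c) (ρ.a i)) *
      (Matrix.det (Matrix.of fun r l => FF.evalAt (p (Sum.inl r)) (ρ.b l)) *
        Matrix.det (Matrix.of fun r l => FF.evalAt (p (Sum.inr r)) (ρ.b l))) := by
  classical
  have hn : 2 * g ≤ (5 * g + 4) := by omega
  rw [cvec, evalW_detForm]
  set Am : Matrix (Col g) (Col g) K := Matrix.of fun i c => FF.evalAt (p c) (ρ.a i)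
  set B₁ : Matrix (Fin (g + 2)) (Fin (g + 2)) K :=
    Matrix.of fun r l => FF.evalAt (p (Sum.inl r)) (ρ.b l)
  set B₂ : Matrix (Fin (g + 2)) (Fin (g + 2)) K :=
    Matrix.of fun r l => FF.evalAt (p (Sum.inr r)) (ρ.b l)
  have hval : ∀ i l (P : Place K F), P ≠ T.pt →
      ∑ j, T.crd ((5 * g + 4)) (ρ.quot i l) j * FF.evalAt P (T.b ((5 * g + 4)) j) =
        FF.evalAt P (ρ.quot i l) := by
    intro i l P hP
    conv_rhs => rw [← T.comb_crd hn (ρ.quot_mem i l), T.comb_apply]
    have hb : ∀ j, FF.OrdGE P (T.b ((5 * g + 4)) j) 0 := fun j =>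
      ordGE_of_mem_LL (T.b_mem _ hn j) (le_of_eq (Finsupp.single_eq_of_ne hP))
    rw [FF.evalAt_sum _ _ fun j _ => (hb j).smul _]
    exact Finset.sum_congr rfl fun j _ => (FF.evalAt_const_smul _ (hb j)).symm
  -- the matrix of forms factors through the values of `a`, `f⁻¹` and `b`
  have key : (Matrix.of fun i c => ∑ v, ρ.coef i c v * tpts T p v) =
      Am * Matrix.diagonal (fun c => (FF.evalAt (p c) ρ.f)⁻¹) * Matrix.fromBlocks B₁ 0 0 B₂ := by
    refine Matrix.ext fun i c => ?_
    have hsum : ∀ (β : Bool) (q : Fin (g + 2) → Col g),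
        (∀ r, (if β = false then Sum.inl r else Sum.inr r : Col g) = q r) →
        ∀ l, ∑ j, T.crd ((5 * g + 4)) (ρ.quot i l) j * tpts T p (β, j) =
          ∑ r, (FF.evalAt (p (q r)) ρ.f)⁻¹ *
            (FF.evalAt (p (q r)) (ρ.a i) * FF.evalAt (p (q r)) (ρ.b l)) := by
      intro β q hq l
      simp only [tpts, hq, Finset.mul_sum]
      rw [Finset.sum_comm]
      exact Finset.sum_congr rfl fun r _ => by
        rw [hval i l _ (hp _).1, (hp _).evalAt_quot]
    simp only [Matrix.of_apply, coef, Fintype.sum_prod_type, ite_mul, zero_mul]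
    rw [Fintype.sum_eq_single (colB c) fun β hβ => Finset.sum_eq_zero fun j _ => if_neg hβ]
    simp only [if_true]
    rw [Matrix.mul_apply]
    simp only [Matrix.mul_diagonal, Fintype.sum_sum_type]
    rcases c with l | l
    · simp only [colB, colI, Sum.elim_inl, id_eq, Matrix.fromBlocks_apply₁₁,
        Matrix.fromBlocks_apply₂₁, Matrix.zero_apply, mul_zero, Finset.sum_const_zero, add_zero]
      rw [hsum false Sum.inl (fun r => by simp)]
      exact Finset.sum_congr rfl fun r _ => by simp only [Am, B₁, Matrix.of_apply]; ring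
    · simp only [colB, colI, Sum.elim_inr, id_eq, Matrix.fromBlocks_apply₁₂,
        Matrix.fromBlocks_apply₂₂, Matrix.zero_apply, mul_zero, Finset.sum_const_zero, zero_add]
      rw [hsum true Sum.inr (fun r => by simp)]
      exact Finset.sum_congr rfl fun r _ => by simp only [Am, B₂, Matrix.of_apply]; ring
  rw [key, Matrix.det_mul, Matrix.det_mul, Matrix.det_diagonal, Matrix.det_fromBlocks_zero₁₂]
  ring

end Rep

/-! ### Independence of the choices -/

/-- Two bases of one space differ by an invertible matrix. -/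
theorem exists_change {ι : Type*} [Fintype ι] [DecidableEq ι] {W : Submodule K F}
    [FiniteDimensional K W] (hW : Module.finrank K W = Fintype.card ι) {a a' : ι → F}
    (ha : ∀ i, a i ∈ W) (ha' : ∀ i, a' i ∈ W) (hai : LinearIndependent K a)
    (ha'i : LinearIndependent K a') :
    ∃ G : Matrix ι ι K, G.det ≠ 0 ∧ ∀ i, a' i = ∑ j, G i j • a j := by
  have hspan : Submodule.span K (Set.range a) = W :=
    Submodule.eq_of_le_of_finrank_le (Submodule.span_le.mpr (by rintro _ ⟨i, rfl⟩; exact ha i))
      (by rw [finrank_span_eq_card hai, hW])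
  choose G hG using fun i =>
    (Submodule.mem_span_range_iff_exists_fun K).mp (hspan ▸ ha' i : a' i ∈
      Submodule.span K (Set.range a))
  refine ⟨Matrix.of G, ?_, fun i => (hG i).symm⟩
  rw [← isUnit_iff_ne_zero, ← Matrix.isUnit_iff_isUnit_det,
    ← Matrix.linearIndependent_rows_iff_isUnit]
  refine LinearIndependent.of_comp (Fintype.linearCombination K a) ?_
  convert ha'i using 1
  funext i
  simp [Fintype.linearCombination_apply, hG i]

namespace Rep

variable {T : Frame K F g} {x : Pic0 K F}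

/-- **The invariant does not depend on the choices**, up to a nonzero scalar. -/
theorem exists_smul_cvec (ρ ρ' : Rep T x) : ∃ l : K, l ≠ 0 ∧ ρ'.cvec = fun w => l * ρ.cvec w := by
  classical
  obtain ⟨φ, hφ, hE⟩ := T.exists_divOf_of_cls (ρ.cls_eq.trans ρ'.cls_eq.symm)
    (ρ.degree.trans ρ'.degree.symm)
  set u : F := ρ'.f / (φ * ρ.f) with hu
  have hu0 : u ≠ 0 := div_ne_zero ρ'.f_ne (mul_ne_zero hφ ρ.f_ne)
  have hE' : ρ'.E' = ρ.E' + FF.divOf K u := by
    rw [hu, div_eq_mul_inv, FF.divOf_mul ρ'.f_ne (inv_ne_zero (mul_ne_zero hφ ρ.f_ne)),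
      FF.divOf_inv, FF.divOf_mul hφ ρ.f_ne, E', E', Frame.compl, Frame.compl, hE]
    abel
  have hshift : ∀ (n : ℕ) (D : Divisor K F) (t v : F), t ≠ 0 → v ∈ LL (T.lv n - D) →
      t * v ∈ LL (T.lv n - (D + FF.divOf K t)) := by
    intro n D t v ht hv
    have h1 := inv_mul_mem_LL t⁻¹ hv
    rw [inv_inv, FF.divOf_inv] at h1
    rwa [show T.lv n - (D + FF.divOf K t) = T.lv n - D + -FF.divOf K t by abel]
  have hindep : ∀ {ι : Type} (v : ι → F) (t : F), t ≠ 0 → LinearIndependent K v →
      LinearIndependent K fun i => t * v i := fun v t ht hv =>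
    hv.map' (LinearMap.mulLeft K t) (LinearMap.ker_eq_bot.mpr fun z z' h => mul_left_cancel₀ ht h)
  -- both lists of sections differ by invertible matrices
  obtain ⟨G, hG, hGa⟩ := exists_change (W := LL (T.lv ((5 * g + 3)) - ρ'.E)) (ι := Col g)
    (by rw [ρ'.finrank_A, card_col]) (a := fun i => φ * ρ.a i) (a' := ρ'.a)
    (fun i => by rw [hE]; exact hshift _ _ φ _ hφ (ρ.a_mem i)) ρ'.a_mem
    (hindep _ φ hφ ρ.a_indep) ρ'.a_indep
  obtain ⟨H, hH, hHb⟩ := exists_change (W := LL (T.lv ((5 * g + 4)) - ρ'.E')) (ι := Fin (g + 2))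
    (by rw [ρ'.finrank_B, Fintype.card_fin]) (a := fun l => u * ρ.b l) (a' := ρ'.b)
    (fun l => by rw [hE']; exact hshift _ _ u _ hu0 (ρ.b_mem l)) ρ'.b_mem
    (hindep _ u hu0 ρ.b_indep) ρ'.b_indep
  have hq : ∀ i l, ρ'.quot i l = ∑ i', ∑ l', (G i i' * H l l') • ρ.quot i' l' := by
    intro i l
    rw [quot, hGa, hHb, Finset.sum_mul_sum, Finset.mul_sum]
    refine Finset.sum_congr rfl fun i' _ => ?_
    rw [Finset.mul_sum]
    refine Finset.sum_congr rfl fun l' _ => ?_
    have hfac : ρ'.f⁻¹ * (φ * u) = ρ.f⁻¹ := by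
      rw [hu]
      field_simp [ρ.f_ne, ρ'.f_ne, hφ]
    rw [quot, smul_mul_smul_comm, mul_smul_comm, ← hfac]
    congr 1
    ring
  set Hc : Matrix (Col g) (Col g) K := Matrix.fromBlocks H.transpose 0 0 H.transpose with hHc
  have hn : 2 * g ≤ (5 * g + 4) := by omega
  have hc : ∀ i c v, ρ'.coef i c v = ∑ i', ∑ c', G i i' * ρ.coef i' c' v * Hc c' c := by
    intro i c v
    have hcrd : ∀ l, T.crd ((5 * g + 4)) (ρ'.quot i l) v.2 =
        ∑ i', ∑ l', G i i' * H l l' * T.crd ((5 * g + 4)) (ρ.quot i' l') v.2 := by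
      intro l
      rw [hq, T.crd_sum hn _ fun i' _ => Submodule.sum_mem _ fun l' _ =>
        Submodule.smul_mem _ _ (ρ.quot_mem i' l'), Finset.sum_apply]
      refine Finset.sum_congr rfl fun i' _ => ?_
      rw [T.crd_sum hn _ fun l' _ => Submodule.smul_mem _ _ (ρ.quot_mem i' l'), Finset.sum_apply]
      exact Finset.sum_congr rfl fun l' _ => by
        rw [T.crd_smul hn _ (ρ.quot_mem i' l'), Pi.smul_apply, smul_eq_mul]
    rcases c with l | l <;>
      simp only [coef, colB, colI, Sum.elim_inl, Sum.elim_inr, id_eq, Fintype.sum_sum_type, hHc,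
        Matrix.fromBlocks_apply₁₁, Matrix.fromBlocks_apply₁₂, Matrix.fromBlocks_apply₂₁,
        Matrix.fromBlocks_apply₂₂, Matrix.zero_apply, Matrix.transpose_apply, mul_zero,
        Finset.sum_const_zero, zero_add, add_zero] <;>
      split_ifs with h <;>
      simp [hcrd, Fintype.sum_sum_type, mul_right_comm]
  -- so the determinant form changes by a scalar
  refine ⟨G.det * Hc.det, mul_ne_zero hG ?_, funext fun w => wvec_detForm_change G Hc hc w⟩
  rw [hHc, Matrix.det_fromBlocks_zero₁₂, Matrix.det_transpose]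
  exact mul_ne_zero hH hH

end Rep

/-- Every class has data regular at given points. -/
theorem exists_rep_avoid (T : Frame K F g) (x : Pic0 K F) (S : Finset (Place K F))
    (hS : T.pt ∉ S) : ∃ ρ : Rep T x, ∀ P ∈ S, ρ.GoodPt P := by
  classical
  obtain ⟨E, hE0, hEd, hEx, hES⟩ := T.exists_rep x (e := 2 * g) le_rfl S
  obtain ⟨f, hf, hf0, hfS⟩ := FF.exists_exact_ord (D := T.lv ((5 * g + 3)) - E) S
    (T.two_mul_genus_le (n := (5 * g + 3)) hEd (by omega))
  have hA := T.finrank_LL_sub (n := (5 * g + 3)) hEd (by omega)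
  have hB := T.finrank_LL_sub (n := (5 * g + 4))
    (T.degree_compl (n := (5 * g + 3)) hEd (by omega) f) (by omega)
  let ba := Module.finBasis K (LL (T.lv ((5 * g + 3)) - E))
  let bb := Module.finBasis K (LL (T.lv ((5 * g + 4)) - T.compl ((5 * g + 3)) E f))
  let eA : Col g ≃ Fin (Module.finrank K (LL (T.lv ((5 * g + 3)) - E))) :=
    finSumFinEquiv.trans (finCongr (by rw [hA]; omega))
  let eB : Fin (g + 2) ≃ Fin (Module.finrank K
      (LL (T.lv ((5 * g + 4)) - T.compl ((5 * g + 3)) E f))) :=
    finCongr (by rw [hB]; omega)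
  refine ⟨⟨E, hE0, hEd, hEx, f, hf, hf0, fun i => (ba (eA i) : F), fun i => (ba (eA i)).2, ?_,
    fun l => (bb (eB l) : F), fun l => (bb (eB l)).2, ?_⟩, fun P hP => ?_⟩
  · exact (ba.linearIndependent.comp eA eA.injective).map' (Submodule.subtype _)
      (Submodule.ker_subtype _)
  · exact (bb.linearIndependent.comp eB eB.injective).map' (Submodule.subtype _)
      (Submodule.ker_subtype _)
  · have hne : P ≠ T.pt := fun h => hS (h ▸ hP)
    refine ⟨hne, hES P hP, ?_⟩
    change T.compl ((5 * g + 3)) E f P = 0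
    rw [Frame.compl, Finsupp.sub_apply, Finsupp.add_apply, FF.divOf_apply, hfS P hP,
      Finsupp.sub_apply, T.lv_apply_of_ne _ hne, hES P hP]
    simp

/-- Data exist for every class. -/
instance Rep.nonempty (T : Frame K F g) (x : Pic0 K F) : Nonempty (Rep T x) :=
  let ⟨ρ, _⟩ := exists_rep_avoid T x ∅ (Finset.notMem_empty _)
  ⟨ρ⟩

/-- The invariant of a class. -/
def cvecOf (T : Frame K F g) (x : Pic0 K F) : (Col g → Var g) → K :=
  (Classical.arbitrary (Rep T x)).cvec

/-- The invariant is that of any data, up to a scalar. -/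
theorem exists_cvec_eq (T : Frame K F g) {x : Pic0 K F} (ρ : Rep T x) :
    ∃ l : K, l ≠ 0 ∧ ρ.cvec = fun w => l * cvecOf T x w :=
  Rep.exists_smul_cvec _ ρ

/-! ### Semilinear automorphisms -/

section Galois

variable (T : Frame K F g) (σ : SemilinearAut K F) (hpt : σ • T.pt = T.pt)
  (hb : ∀ i, σ • T.b (5 * g + 4) i = T.b (5 * g + 4) i)

include hpt in
/-- `n ∞` is fixed. -/
theorem smul_lv (n : ℕ) : σ • T.lv n = T.lv n := by
  rw [Frame.lv, SemilinearAut.smul_single, hpt]

/-- Semilinear automorphisms act semilinearly on the function field. -/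
theorem smul_smul_base (a : K) (f : F) : σ • (a • f) = SemilinearAut.baseAut σ a • (σ • f) := by
  rw [Algebra.smul_def, smul_mul', SemilinearAut.smul_algebraMap, ← Algebra.smul_def]

/-- Semilinear automorphisms preserve independence. -/
theorem linearIndependent_smul {ι : Type*} {v : ι → F} (h : LinearIndependent K v) :
    LinearIndependent K fun i => σ • v i := by
  rw [linearIndependent_iff'] at h ⊢
  intro s c hc i hi
  have h1 : ∑ j ∈ s, (SemilinearAut.baseAut σ).symm (c j) • v j = 0 := by
    refine (smul_eq_zero_iff_eq σ).mp ?_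
    rw [Finset.smul_sum, ← hc]
    exact Finset.sum_congr rfl fun j _ => by rw [smul_smul_base, RingEquiv.apply_symm_apply]
  simpa using h s _ h1 i hi

include hpt in
/-- Classes are equivariant. -/
theorem smul_cls (E : Divisor K F) : T.cls (σ • E) = σ • T.cls E := by
  change Pic0.mk _ = σ • Pic0.mk _
  rw [SemilinearAut.pic0_smul_mk]
  refine congrArg Pic0.mk (Subtype.ext ?_)
  rw [SemilinearAut.coe_degZeroSMulHom]
  change σ • E - Finsupp.single T.pt (Divisor.degree (σ • E)) = σ • (E - Finsupp.single T.pt _)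
  rw [smul_sub, SemilinearAut.smul_single, hpt, SemilinearAut.degree_smul]

/-- The data of `x` moved by `σ`, as data of `σ • x`. -/
def Rep.smul {x : Pic0 K F} (ρ : Rep T x) : Rep T (σ • x) where
  E := σ • ρ.E
  nonneg := Finsupp.le_def.mpr fun v => by
    rw [SemilinearAut.divisor_smul_apply]
    exact Finsupp.le_def.mp ρ.nonneg _
  degree := by rw [SemilinearAut.degree_smul, ρ.degree]
  cls_eq := by rw [smul_cls T σ hpt, ρ.cls_eq]
  f := σ • ρ.f
  f_mem := by
    have := FF.smul_mem_riemannRochSpace σ ρ.f_mem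
    rwa [smul_sub, smul_lv T σ hpt] at this
  f_ne := (smul_ne_zero_iff_ne σ).mpr ρ.f_ne
  a i := σ • ρ.a i
  a_mem i := by
    have := FF.smul_mem_riemannRochSpace σ (ρ.a_mem i)
    rwa [smul_sub, smul_lv T σ hpt] at this
  a_indep := linearIndependent_smul σ ρ.a_indep
  b l := σ • ρ.b l
  b_mem l := by
    have := FF.smul_mem_riemannRochSpace σ (ρ.b_mem l)
    rwa [Frame.compl, smul_sub, smul_sub, smul_add, smul_lv T σ hpt, smul_lv T σ hpt,
      FF.smul_divOf] at this
  b_indep := linearIndependent_smul σ ρ.b_indep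

include hpt hb in
/-- The invariant of a conjugate class is the conjugate invariant up to a scalar. -/
theorem exists_cvecOf_smul (x : Pic0 K F) :
    ∃ l : K, l ≠ 0 ∧ cvecOf T (σ • x) = fun w => l * SemilinearAut.baseAut σ (cvecOf T x w) := by
  set ρ := Classical.arbitrary (Rep T x)
  have hn : 2 * g ≤ (5 * g + 4) := by omega
  -- compare with the conjugate representation
  obtain ⟨l, hl, e⟩ := exists_cvec_eq T (Rep.smul T σ hpt ρ)
  -- coordinates in the rational basis are conjugated
  have hcrd : ∀ z ∈ LL (T.lv ((5 * g + 4))), ∀ j, T.crd ((5 * g + 4)) (σ • z) j =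
      SemilinearAut.baseAut σ (T.crd ((5 * g + 4)) z j) := by
    intro z hz j
    have h1 : σ • z = T.comb ((5 * g + 4)) fun j =>
        SemilinearAut.baseAut σ (T.crd ((5 * g + 4)) z j) := by
      conv_lhs => rw [← T.comb_crd hn hz, T.comb_apply, Finset.smul_sum]
      rw [T.comb_apply]
      exact Finset.sum_congr rfl fun i _ => by rw [smul_smul_base, hb]
    rw [h1, T.crd_comb hn]
  -- hence so are the coefficients and the invariant
  have hcoef : ∀ i c v, (Rep.smul T σ hpt ρ).coef i c v =
      (SemilinearAut.baseAut σ : K →+* K) (ρ.coef i c v) := by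
    intro i c v
    have hq : (Rep.smul T σ hpt ρ).quot i (colI c) = σ • ρ.quot i (colI c) := by
      simp only [Rep.quot, smul_mul', smul_inv'']
      rfl
    simp only [Rep.coef]
    by_cases h : v.1 = colB c
    · rw [if_pos h, if_pos h, hq, hcrd _ (ρ.quot_mem i (colI c))]
      rfl
    · rw [if_neg h, if_neg h, map_zero]
  have hc : (Rep.smul T σ hpt ρ).cvec = fun w => SemilinearAut.baseAut σ (ρ.cvec w) := by
    funext w
    have e1 := wvec_map (C := Col g) (SemilinearAut.baseAut σ : K →+* K) ρ.coef w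
    have e2 : (Rep.smul T σ hpt ρ).coef =
        fun i c v => (SemilinearAut.baseAut σ : K →+* K) (ρ.coef i c v) :=
      funext fun i => funext fun c => funext fun v => hcoef i c v
    unfold Rep.cvec
    rw [e2, ← e1]
    rfl
  refine ⟨l⁻¹, inv_ne_zero hl, funext fun w => ?_⟩
  rw [hc] at e
  change _ = l⁻¹ * SemilinearAut.baseAut σ (ρ.cvec w)
  rw [congrFun e w, inv_mul_cancel_left₀ hl]

end Galois

end Fermat.RED.Flat
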