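import Fermat.Agent.RED.Flat.Annihilator
import Fermat.Agent.GR.ES.Determined

/-!
# Annihilators of the torsion kill representations with the same traces

A representation whose traces of Frobenius come from a subring of the Hecke ring of an
Eichler-Shimura datum, and whose image spans the matrices, is killed modulo `m^n` by the
combinations of Galois elements killing enough `p`-power torsion.
-/

set_option autoImplicit false

noncomputable section

open Fermat.GR

namespace Fermat.RED.Flat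

local notation "ℚbar" => AlgebraicClosure ℚ
local notation "Γℚ" => (AlgebraicClosure ℚ ≃ₐ[ℚ] AlgebraicClosure ℚ)

variable {R J : Type} [CommRing R] [Module.Free ℤ R] [Module.Finite ℤ R] [AddCommGroup J]
  [DistribMulAction (AlgebraicClosure ℚ ≃ₐ[ℚ] AlgebraicClosure ℚ) J]
  {K p : ℕ} [Fact p.Prime] {T ε : ℕ → R} (D : ESData R J K p T ε)

omit [Module.Free ℤ R] [Module.Finite ℤ R] [Fact (Nat.Prime p)] in
/-- A combination with Hecke coefficients killing the `pᴹ`-torsion has its matrices divisible by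
`pᴹ`. -/
theorem pow_dvd_sum_act_aMat {M : ℕ} (s : Finset Γℚ) (c : Γℚ → R)
    (hc : ∀ x : J, p ^ M • x = 0 → ∑ σ ∈ s, D.act (c σ) (σ • x) = 0) (i j : Fin 2) :
    (p : R) ^ M ∣ ∑ σ ∈ s, c σ * D.aMat M σ i j := by
  have h : D.π M (∑ σ ∈ s, c σ • D.img M σ j) = D.π M 0 := by
    rw [map_sum, map_zero, ← hc _ (D.torsion_π M (D.e j))]
    exact Finset.sum_congr rfl fun σ _ => by rw [D.π_smul, D.π_img]; rfl
  have h0 : ∀ l, D.coeff (0 : D.Λ) l = 0 := fun l => by
    rw [← sub_self (0 : D.Λ), D.coeff_sub, sub_self]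
  have := D.coeff_cong h i
  rw [h0, sub_zero, D.coeff_eq_of (c := fun l => ∑ σ ∈ s, c σ * D.aMat M σ l j) ?_] at this
  · exact this
  rw [Finset.smul_sum]
  simp only [smul_comm D.k, D.coeff_spec (D.img M _ j), Finset.smul_sum, Finset.sum_smul]
  rw [Finset.sum_comm]
  exact Finset.sum_congr rfl fun l _ => Finset.sum_congr rfl fun σ _ => by
    rw [mul_smul, D.aMat_apply]

variable {R' O : Type} [CommRing R'] [CommRing O] [IsLocalRing O] (i : R' →+* R) (π : R' →+* O)

include D in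
/-- The traces of `r` modulo `mⁿ` and those of the datum modulo `pᴹ` come from common elements of
`R'`. -/
theorem exists_trace_approx {r : Γℚ →* Matrix (Fin 2) (Fin 2) O} (hr : MatCont r)
    (S : Finset ℕ)
    (hfrob : ∀ ℓ : ℕ, ℓ.Prime → ℓ ∉ S → ¬ ℓ ∣ K * p ∧ ∃ t d : R', i t = T ℓ ∧ i d = ℓ * ε ℓ ∧
      ∀ A : ValuationSubring ℚbar, A.LiesOverPrime ℓ → ∀ φ : Γℚ, A.IsFrobeniusAt φ ℓ →
        (r φ).trace = π t ∧ (r φ).det = π d)
    (n M : ℕ) :
    ∃ P : Γℚ → R', (∀ x, (r x).trace - π (P x) ∈ IsLocalRing.maximalIdeal O ^ n) ∧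
      ∀ x, ESData.modPow M ((D.k : PComp p R) * (D.bMat x).trace) =
        ESData.modPow M ((D.k : PComp p R) * (D.k : PComp p R) * toPComp p R (i (P x))) := by
  classical
  obtain ⟨L₁, hL₁, h₁⟩ := hr n
  obtain ⟨L₂, hL₂, h₂⟩ := D.exists_field M
  have hkey : ∀ x : Γℚ, ∃ P : R', (r x).trace - π P ∈ IsLocalRing.maximalIdeal O ^ n ∧
      ESData.modPow M ((D.k : PComp p R) * (D.bMat x).trace) =
        ESData.modPow M ((D.k : PComp p R) * (D.k : PComp p R) * toPComp p R (i P)) := by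
    intro x
    obtain ⟨ℓ, hℓ, hℓS, B, hB, φ, hφ, j, τ, hτ, rfl⟩ :=
      exists_frobenius_pow_mul_fixing (L₁ ⊔ L₂) x S
    obtain ⟨hℓKp, t, d, ht, hd, hφtr⟩ := hfrob ℓ hℓ hℓS
    obtain ⟨ht', hd'⟩ := hφtr B hB φ hφ
    exact ⟨powTrace t d j,
      trace_pow_mul_sub_mem r π ht' hd' j (h₁ τ fun y hy =>
        hτ y (SetLike.le_def.mp le_sup_left hy)),
      modPow_trace_bMat_pow_mul D i hℓ hℓKp hB hφ ht hd j M
        (h₂ τ fun y hy => hτ y (SetLike.le_def.mp le_sup_right hy))⟩
  choose P hP hPb using hkey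
  exact ⟨P, hP, hPb⟩

include D in
/-- Elements representing the traces, combined with weights whose combination of matrices is
divisible by `pᴹ`, add up to a multiple of `pᴹ`, up to the square of `k`. -/
theorem pow_dvd_sum_trace {M : ℕ} {P : Γℚ → R}
    (hPb : ∀ x, ESData.modPow M ((D.k : PComp p R) * (D.bMat x).trace) =
      ESData.modPow M ((D.k : PComp p R) * (D.k : PComp p R) * toPComp p R (P x)))
    (s : Finset Γℚ) (w : Γℚ → R)
    (hw : ∀ a, (p : R) ^ M ∣ ∑ σ ∈ s, w σ * D.aMat M σ a a) :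
    (p : R) ^ M ∣ ((D.k * D.k : ℕ) : R) * ∑ σ ∈ s, w σ * P σ := by
  have h2 : ∀ a, ESData.modPow M (∑ σ ∈ s, toPComp p R (w σ) * D.bMat σ a a) = 0 := by
    intro a
    have hb : ∀ σ, ESData.modPow M (D.bMat σ a a) =
        ESData.modPow M (toPComp p R (D.aMat M σ a a)) := fun σ =>
      congrFun (congrFun (D.modPow_bMat M σ) a) a
    have := ESData.modPow_toPComp_eq (p := p) (n := M) (y := (0 : R))
      (by simpa using hw a)
    rw [map_zero, map_zero] at this
    rw [← this]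
    simp only [map_sum, map_mul, hb]
  have h1 : ESData.modPow M (toPComp p R (((D.k * D.k : ℕ) : R) * ∑ σ ∈ s, w σ * P σ)) = 0 := by
    rw [show toPComp p R (((D.k * D.k : ℕ) : R) * ∑ σ ∈ s, w σ * P σ) = ∑ σ ∈ s,
      toPComp p R (w σ) * ((D.k : PComp p R) * (D.k : PComp p R) * toPComp p R (P σ)) by
        simp only [map_sum, map_mul, map_natCast, Finset.mul_sum, Nat.cast_mul]
        exact Finset.sum_congr rfl fun σ _ => by ring, map_sum]
    rw [show (∑ σ ∈ s, ESData.modPow M (toPComp p R (w σ) *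
      ((D.k : PComp p R) * (D.k : PComp p R) * toPComp p R (P σ)))) =
        ESData.modPow M (D.k : PComp p R) *
          ∑ a, ESData.modPow M (∑ σ ∈ s, toPComp p R (w σ) * D.bMat σ a a) by
      rw [Finset.mul_sum, Fin.sum_univ_two, ← mul_add, ← map_add, ← Finset.sum_add_distrib,
        map_sum, Finset.mul_sum]
      refine Finset.sum_congr rfl fun σ _ => ?_
      have e := hPb σ
      rw [Matrix.trace_fin_two] at e
      simp only [map_mul, map_add] at e ⊢
      linear_combination (-ESData.modPow M (toPComp p R (w σ))) * e]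
    simp only [h2, Finset.sum_const_zero, mul_zero]
  refine dvd_of_toPComp_dvd ?_
  have := (ESData.modPow_eq_iff M (toPComp p R (((D.k * D.k : ℕ) : R) * ∑ σ ∈ s, w σ * P σ)) 0).mp
    (by rw [h1, map_zero])
  rwa [sub_zero] at this

include D in
/-- **Annihilators and traces**, for combinations with coefficients in the subring. -/
theorem exists_trace_sum_mem (hi : Function.Injective i) (hp : (p : O) ∈ IsLocalRing.maximalIdeal O)
    {r : Γℚ →* Matrix (Fin 2) (Fin 2) O} (hr : MatCont r) (S : Finset ℕ)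
    (hfrob : ∀ ℓ : ℕ, ℓ.Prime → ℓ ∉ S → ¬ ℓ ∣ K * p ∧ ∃ t d : R', i t = T ℓ ∧ i d = ℓ * ε ℓ ∧
      ∀ A : ValuationSubring ℚbar, A.LiesOverPrime ℓ → ∀ φ : Γℚ, A.IsFrobeniusAt φ ℓ →
        (r φ).trace = π t ∧ (r φ).det = π d) (n : ℕ) :
    ∃ M : ℕ, ∀ (cs : Finset Γℚ) (c : Γℚ → R'),
      (∀ x : J, p ^ M • x = 0 → ∑ σ ∈ cs, D.act (i (c σ)) (σ • x) = 0) →
      (∑ σ ∈ cs, π (c σ) • r σ).trace ∈ IsLocalRing.maximalIdeal O ^ n := by
  classical
  obtain ⟨s, hs0, hs⟩ := exists_saturation_bound i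
  obtain ⟨e, u, hu, hsu⟩ := Nat.exists_eq_pow_mul_and_not_dvd
    (mul_ne_zero hs0 (mul_ne_zero D.k_ne_zero D.k_ne_zero)) p (Fact.out : p.Prime).one_lt.ne'
  set M := n + e with hM
  obtain ⟨P, hP, hPb⟩ := exists_trace_approx D i π hr S hfrob n M
  refine ⟨M, fun cs c hc => ?_⟩
  set Pc : R' := ∑ σ ∈ cs, c σ * P σ with hPc
  have hdvd : (p : R) ^ M ∣ ((D.k * D.k : ℕ) : R) * i Pc := by
    simpa [hPc] using pow_dvd_sum_trace D hPb cs (fun σ => i (c σ))
      fun a => pow_dvd_sum_act_aMat D cs (fun σ => i (c σ)) hc a a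
  have : IsAddTorsionFree R := .of_isTorsionFree ℤ R
  have : IsAddTorsionFree R' := hi.isAddTorsionFree i.toAddMonoidHom
  have hπ : π Pc ∈ IsLocalRing.maximalIdeal O ^ n := by
    simpa using map_sub_mem_of_dvd (k := D.k) (e := e) (P₁ := Pc) (P₂ := 0) hi π Fact.out hp hu hsu
      hs (by simpa [hM] using hdvd)
  have e1 : (∑ σ ∈ cs, π (c σ) • r σ).trace =
      (∑ σ ∈ cs, π (c σ) * ((r σ).trace - π (P σ))) + π Pc := by
    simp only [Matrix.trace_sum, Matrix.trace_smul, hPc, map_sum, map_mul, smul_eq_mul, mul_sub,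
      Finset.sum_sub_distrib, sub_add_cancel]
  rw [e1]
  exact add_mem (Ideal.sum_mem _ fun σ _ => Ideal.mul_mem_left _ _ (hP σ)) hπ

omit [IsLocalRing O] in
/-- An element all of whose translates by a spanning image have traces in an ideal has its entries
there. -/
theorem entries_mem_of_trace_mul_mem {r : Γℚ →* Matrix (Fin 2) (Fin 2) O}
    (hspan : Submodule.span O (Set.range r) = ⊤) {X : Matrix (Fin 2) (Fin 2) O} {I : Ideal O}
    (h : ∀ g, (r g * X).trace ∈ I) (a b : Fin 2) : X a b ∈ I := by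
  have hall : ∀ Y ∈ Submodule.span O (Set.range r), (Y * X).trace ∈ I := by
    intro Y hY
    induction hY using Submodule.span_induction with
    | mem Y hY => obtain ⟨g, rfl⟩ := hY; exact h g
    | zero => simp
    | add Y Y' _ _ hY hY' => rw [add_mul, Matrix.trace_add]; exact add_mem hY hY'
    | smul z Y _ hY => rw [smul_mul_assoc, Matrix.trace_smul]; exact Ideal.mul_mem_left _ _ hY
  have h' := hall (Matrix.single b a (1 : O)) (hspan ▸ Submodule.mem_top)
  fin_cases a <;> fin_cases b <;>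
    simpa [Matrix.trace_fin_two, Matrix.mul_apply, Fin.sum_univ_two, Matrix.single_apply] using h'

include D in
/-- **Annihilators of the torsion kill spanning representations with the same traces.** -/
theorem exists_comboMat_mem (hi : Function.Injective i) (hp : (p : O) ∈ IsLocalRing.maximalIdeal O)
    {r : Γℚ →* Matrix (Fin 2) (Fin 2) O} (hr : MatCont r)
    (hspan : Submodule.span O (Set.range r) = ⊤) (S : Finset ℕ)
    (hfrob : ∀ ℓ : ℕ, ℓ.Prime → ℓ ∉ S → ¬ ℓ ∣ K * p ∧ ∃ t d : R', i t = T ℓ ∧ i d = ℓ * ε ℓ ∧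
      ∀ A : ValuationSubring ℚbar, A.LiesOverPrime ℓ → ∀ φ : Γℚ, A.IsFrobeniusAt φ ℓ →
        (r φ).trace = π t ∧ (r φ).det = π d) (n : ℕ) :
    ∃ M : ℕ, ∀ c : Γℚ →₀ ℤ, (∀ x : J, p ^ M • x = 0 → comboHom (galEnd J) c x = 0) →
      ∀ a b, comboMat r c a b ∈ IsLocalRing.maximalIdeal O ^ n := by
  classical
  obtain ⟨M, hM⟩ := exists_trace_sum_mem D i π hi hp hr S hfrob n
  refine ⟨M, fun c hc => entries_mem_of_trace_mul_mem hspan fun g => ?_⟩
  have e : r g * comboMat r c = ∑ σ ∈ (c.mapDomain (g * ·)).support,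
      π (((c.mapDomain (g * ·)) σ : ℤ) : R') • r σ := by
    simp only [map_intCast, Int.cast_smul_eq_zsmul]
    change _ = comboMat r (c.mapDomain (g * ·))
    rw [comboMat, comboMat, Finsupp.sum_mapDomain_index (h := fun σ z => z • r σ)
      (fun _ => zero_smul _ _) (fun _ _ _ => add_smul _ _ _), Finsupp.mul_sum]
    exact Finsupp.sum_congr fun σ _ => by rw [map_mul, mul_smul_comm]
  rw [e]
  refine hM _ _ fun x hx => ?_
  have h : comboHom (galEnd J) (c.mapDomain (g * ·)) x = 0 := by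
    rw [comboHom_mapDomain_mul]
    change g • comboHom (galEnd J) c x = 0
    rw [hc x hx, smul_zero]
  rw [← h, comboHom_apply, Finsupp.sum]
  exact Finset.sum_congr rfl fun σ _ => by rw [map_intCast, map_intCast]; rfl

end Fermat.RED.Flat
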