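import Fermat.Agent.FLAT.Curve.Descent
import Fermat.Agent.FLAT.Curve.Vec
import Fermat.Agent.RED.Model.X0Normal
import Fermat.Agent.RED.Flat.LinAlg
import Fermat.Agent.FLAT.Conn
import Mathlib.Data.Nat.Choose.Sum

/-!
# Models from projective vectors

A finite Galois module `M` with a family of maps `c t : M → ℙ^W(ℚbar)`, equivariant up to scalars
and jointly injective, has a model over the fixed ring of a place as soon as, at every pair of
points, each `c t (x + y)` is locally a vector of functions of the `c t' x`, `c t' y`.  The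
generators are monomials over a form which is a unit at every primitive vector of the image.
-/

set_option autoImplicit false
set_option linter.unusedSectionVars false

noncomputable section

open IsLocalRing Fermat.EC.Val Fermat.FLAT.Curve Fermat.FLAT

namespace Fermat.RED.Flat

local notation "ℚbar" => AlgebraicClosure ℚ
local notation "Γℚ" => (AlgebraicClosure ℚ ≃ₐ[ℚ] AlgebraicClosure ℚ)

/-! ### The denominator -/

section Poly

variable {R R' : Type*} [CommRing R] [CommRing R'] {W : Type*} [Fintype W]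

/-- The product of the `d`-th powers of the coordinates in `s`, made homogeneous. -/
def subsetTerm (d : ℕ) (v : W → R) (s : Finset W) : R :=
  if h : s.Nonempty then (∏ i ∈ s, v i ^ d) * (v h.choose ^ d) ^ (Fintype.card W - s.card) else 0

/-- The denominator, of degree `d * card W`: inclusion-exclusion over the coordinates. -/
def wform (d : ℕ) (v : W → R) : R :=
  ∑ s : Finset W, (-1) ^ (s.card + 1) * subsetTerm d v s

/-- The monomial of a word. -/
def wmon {m : ℕ} (e : Fin m → W) (v : W → R) : R := ∏ i, v (e i)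

/-- Ring maps commute with the denominator. -/
theorem map_wform (f : R →+* R') (d : ℕ) (v : W → R) :
    f (wform d v) = wform d fun k => f (v k) := by
  simp only [wform, map_sum, map_mul, map_pow, map_neg, map_one]
  refine Finset.sum_congr rfl fun s _ => ?_
  congr 1
  unfold subsetTerm
  split_ifs <;> simp [map_prod]

/-- Ring maps commute with monomials. -/
theorem map_wmon (f : R →+* R') {m : ℕ} (e : Fin m → W) (v : W → R) :
    f (wmon e v) = wmon e fun k => f (v k) := by simp [wmon, map_prod]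

/-- The denominator is homogeneous. -/
theorem wform_smul (d : ℕ) (l : R) (v : W → R) :
    wform d (l • v) = l ^ (d * Fintype.card W) * wform d v := by
  simp only [wform, Finset.mul_sum]
  refine Finset.sum_congr rfl fun s _ => ?_
  unfold subsetTerm
  split_ifs with h
  · have hle : s.card ≤ Fintype.card W := s.card_le_univ
    obtain ⟨k, hk⟩ := Nat.exists_eq_add_of_le hle
    have e : l ^ (d * Fintype.card W) = (l ^ d) ^ s.card * (l ^ d) ^ k := by
      rw [← pow_add, ← hk, pow_mul]
    simp only [Pi.smul_apply, smul_eq_mul, mul_pow, Finset.prod_mul_distrib, Finset.prod_const, e,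
      show Fintype.card W - s.card = k by omega]
    ring
  · ring

/-- Monomials are homogeneous. -/
theorem wmon_smul {m : ℕ} (e : Fin m → W) (l : R) (v : W → R) :
    wmon e (l • v) = l ^ m * wmon e v := by simp [wmon, Finset.prod_mul_distrib]

/-- The word `k j j ... j`. -/
def wword (m : ℕ) (k j : W) : Fin (m + 1) → W := Fin.cons k fun _ => j

/-- The monomial of `k j ... j`. -/
theorem wmon_wword (m : ℕ) (k j : W) (v : W → R) : wmon (wword m k j) v = v k * v j ^ m := by
  simp [wmon, wword, Fin.prod_univ_succ]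

/-- The denominator at a vector whose nonzero coordinates have equal `d`-th powers. -/
theorem wform_of_pow_eq {d : ℕ} {v : W → R} {l : R} (hv : ∀ k, v k ^ d = 0 ∨ v k ^ d = l)
    (hne : ∃ k, v k ^ d = l) : wform d v = l ^ Fintype.card W := by
  classical
  set supp : Finset W := Finset.univ.filter fun k => v k ^ d = l with hsupp
  have hterm : ∀ s : Finset W, subsetTerm d v s =
      if s.Nonempty ∧ s ⊆ supp then l ^ Fintype.card W else 0 := by
    intro s
    unfold subsetTerm
    by_cases hs : s.Nonempty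
    · rw [dif_pos hs]
      by_cases hsub : s ⊆ supp
      · rw [if_pos ⟨hs, hsub⟩]
        have h1 : ∀ i ∈ s, v i ^ d = l := fun i hi => (Finset.mem_filter.mp (hsub hi)).2
        rw [Finset.prod_congr rfl h1, Finset.prod_const, h1 _ hs.choose_spec, ← pow_add,
          Nat.add_sub_cancel' s.card_le_univ]
      · rw [if_neg fun h => hsub h.2]
        obtain ⟨i, hi, hi'⟩ := Finset.not_subset.mp hsub
        have h0 : v i ^ d = 0 :=
          (hv i).resolve_right fun h => hi' (Finset.mem_filter.mpr ⟨Finset.mem_univ i, h⟩)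
        rw [Finset.prod_eq_zero hi h0, zero_mul]
    · rw [dif_neg hs, if_neg fun h => hs h.1]
  have hsne : supp.Nonempty := hne.imp fun k hk => Finset.mem_filter.mpr ⟨Finset.mem_univ k, hk⟩
  have hz : ∑ s ∈ supp.powerset, (-1 : R) ^ s.card = 0 := by
    have h := congrArg (Int.cast : ℤ → R) (Finset.sum_powerset_neg_one_pow_card_of_nonempty hsne)
    push_cast at h
    exact h
  -- the alternating sum runs over the nonempty subsets of the support
  have hsum : ∀ s : Finset W, (-1 : R) ^ (s.card + 1) * subsetTerm d v s =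
      (if s ⊆ supp then -((-1 : R) ^ s.card) * l ^ Fintype.card W else 0) +
        if s = ∅ then l ^ Fintype.card W else 0 := by
    intro s
    rw [hterm]
    rcases s.eq_empty_or_nonempty with rfl | hs
    · simp
    · rw [if_neg hs.ne_empty, add_zero]
      by_cases hsub : s ⊆ supp
      · rw [if_pos ⟨hs, hsub⟩, if_pos hsub, pow_succ]
        ring
      · rw [if_neg (fun h => hsub h.2), if_neg hsub, mul_zero]
  rw [wform, Finset.sum_congr rfl fun s _ => hsum s, Finset.sum_add_distrib, ← Finset.sum_filter,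
    Finset.sum_ite_eq' Finset.univ ∅, if_pos (Finset.mem_univ _)]
  have hfilt : Finset.univ.filter (fun s : Finset W => s ⊆ supp) = supp.powerset := by
    ext s
    simp
  rw [hfilt, ← Finset.sum_mul, Finset.sum_neg_distrib, hz]
  ring

end Poly

variable {p : ℕ} [hp : Fact p.Prime] {A : ValuationSubring ℚbar} {W : Type*} [Fintype W]

section Chart

variable {N : Type*} [Finite N] (c : N → W → ℚbar)

/-- The denominator is a unit at every primitive vector of the image. -/
def Avoids (A : ValuationSubring ℚbar) (d : ℕ) : Prop :=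
  0 < d ∧ ∀ x, ∀ (v : W → A) (l : ℚbar), (∀ k, (v k : ℚbar) = l * c x k) →
    (fun k => residue A (v k)) ≠ 0 → residue A (wform d v) ≠ 0

/-- Some form is a unit at every primitive vector of the image. -/
theorem exists_avoids (h : IsPlace A p) (hc : ∀ x, c x ≠ 0) : ∃ d, Avoids c A d := by
  classical
  have := Fintype.ofFinite N
  -- scale each vector to be primitive
  choose l _ v hv hvr j _ using fun x => exists_scale_primitive (A := A) (hc x)
  have hd : ∀ z : N × W × W, ∃ d, 0 < d ∧
      (residue A (v z.1 z.2.1) = 0 ∨ residue A (v z.1 z.2.2) = 0 ∨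
        residue A (v z.1 z.2.1) ^ d = residue A (v z.1 z.2.2) ^ d) := by
    intro z
    by_cases h1 : residue A (v z.1 z.2.1) = 0
    · exact ⟨1, one_pos, Or.inl h1⟩
    by_cases h2 : residue A (v z.1 z.2.2) = 0
    · exact ⟨1, one_pos, Or.inr (Or.inl h2)⟩
    obtain ⟨d, hd, hd'⟩ := exists_pow_eq_one h (div_ne_zero h1 h2)
    rw [div_pow, div_eq_one_iff_eq (pow_ne_zero _ h2)] at hd'
    exact ⟨d, hd, Or.inr (Or.inr hd')⟩
  -- a degree `D` making the `D`th powers of the nonzero residues equal
  choose d hd0 hd using hd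
  refine ⟨∏ z, d z, Finset.prod_pos fun z _ => hd0 z, fun x w l' hw hwr => ?_⟩
  set D := ∏ z, d z with hD
  have hDpos : 0 < D := Finset.prod_pos fun z _ => hd0 z
  -- any primitive vector of a line is a unit times the chosen one
  obtain ⟨u, hu, hur⟩ := exists_unit_smul_of_line hw (hv x) (hvr x)
  rw [hu, wform_smul, map_mul, map_pow]
  refine mul_ne_zero (pow_ne_zero _ (hur hwr)) ?_
  rw [map_wform]
  obtain ⟨i, hi⟩ := Function.ne_iff.mp (hvr x)
  simp only [Pi.zero_apply] at hi
  rw [wform_of_pow_eq (l := residue A (v x i) ^ D) (fun k => ?_) ⟨i, rfl⟩]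
  · exact pow_ne_zero _ (pow_ne_zero _ hi)
  by_cases hk : residue A (v x k) = 0
  · left
    rw [hk, zero_pow hDpos.ne']
  right
  obtain ⟨r, hr⟩ := Finset.dvd_prod_of_mem d (Finset.mem_univ (x, k, i))
  rcases hd (x, k, i) with h1 | h2 | h3
  · exact absurd h1 hk
  · exact absurd h2 hi
  · rw [hD, hr, pow_mul, pow_mul, h3]

variable {c} {d : ℕ}

/-- The denominator does not vanish on the image. -/
theorem Avoids.wform_ne_zero (hA : Avoids c A d) (hc : ∀ x, c x ≠ 0) (x : N) :
    wform d (c x) ≠ 0 := by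
  obtain ⟨l, hl, v, hv, hvr, -⟩ := exists_scale_primitive (A := A) (hc x)
  intro h0
  apply hA.2 x v l hv hvr
  have : ((wform d v : A) : ℚbar) = 0 := by
    rw [← A.subtype_apply, map_wform, show (fun k => A.subtype (v k)) = l • c x from funext hv,
      wform_smul, h0, mul_zero]
  rw [show wform d v = 0 from Subtype.ext this, map_zero]

variable (c d) in
/-- The generators: monomials over the denominator. -/
def wgen (e : Fin (d * Fintype.card W) → W) : N → ℚbar := fun x => wmon e (c x) / wform d (c x)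

/-- A generator times the denominator is the monomial. -/
theorem wform_mul_wgen (hA : Avoids c A d) (hc : ∀ x, c x ≠ 0) (e : Fin (d * Fintype.card W) → W)
    {x : N} {v : W → ℚbar} {l : ℚbar} (hv : v = l • c x) :
    wform d v * wgen c d e x = wmon e v := by
  subst hv
  rw [wform_smul, wmon_smul, wgen, mul_assoc, mul_div_cancel₀ _ (hA.wform_ne_zero hc x)]

/-- The generators take values in the place. -/
theorem wgen_mem (hA : Avoids c A d) (hc : ∀ x, c x ≠ 0) (e : Fin (d * Fintype.card W) → W)
    (x : N) : wgen c d e x ∈ A := by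
  obtain ⟨l, -, v, hv, hvr, -⟩ := exists_scale_primitive (A := A) (hc x)
  obtain ⟨u, hu⟩ := (residue_ne_zero_iff_isUnit _).mp (hA.2 x v l hv hvr)
  have h1 := wform_mul_wgen hA hc e (v := fun k => (v k : ℚbar)) (funext hv)
  rw [show wform d (fun k => (v k : ℚbar)) = ((u : A) : ℚbar) by
      rw [hu]; exact (map_wform A.subtype d v).symm,
    show wmon e (fun k => (v k : ℚbar)) = ((wmon e v : A) : ℚbar) from
      (map_wmon A.subtype e v).symm] at h1
  have : wgen c d e x = (((u⁻¹ : Aˣ) : A) : ℚbar) * (wmon e v : A) := by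
    rw [← h1, ← mul_assoc, ← MulMemClass.coe_mul, Units.inv_mul, OneMemClass.coe_one, one_mul]
  rw [this]
  exact mul_mem (SetLike.coe_mem _) (SetLike.coe_mem _)

end Chart

/-! ### Vectors of functions -/

section Vectors

variable {ι : Type*} {T : Subalgebra A (ι → A)}

/-- `φ` is given near `i₀` by a vector of functions in `T`, primitive at `i₀`. -/
def HasVecAt (T : Subalgebra A (ι → A)) (φ : ι → W → ℚbar) (i₀ : ι) : Prop :=
  ∃ U : W → T, (∀ i, ∃ l : ℚbar, ∀ k, (((U k : ι → A) i : A) : ℚbar) = l * φ i k) ∧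
    (fun k => residue A ((U k : ι → A) i₀)) ≠ 0

variable {N : Type*} [Finite N] {c : N → W → ℚbar} {d : ℕ}

/-- Projections have vectors. -/
theorem hasVecAt_proj (hA : Avoids c A d) (hc : ∀ x, c x ≠ 0) (π : ι → N)
    (hπ : ∀ e, (fun i => (⟨wgen c d e (π i), wgen_mem hA hc e (π i)⟩ : A)) ∈ T) (i₀ : ι) :
    HasVecAt T (fun i => c (π i)) i₀ := by
  obtain ⟨l₀, -, v, hv, hvr, -⟩ := exists_scale_primitive (A := A) (hc (π i₀))
  obtain ⟨j, hj⟩ := Function.ne_iff.mp hvr
  simp only [Pi.zero_apply] at hj
  have : Nonempty W := ⟨j⟩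
  obtain ⟨m, hm⟩ : ∃ m, d * Fintype.card W = m + 1 :=
    Nat.exists_eq_succ_of_ne_zero (Nat.mul_ne_zero hA.1.ne' Fintype.card_ne_zero)
  let U : W → T := fun k => ⟨_, hπ (fun i => wword m k j (Fin.cast hm i))⟩
  have hU : ∀ z (w : W → ℚbar) (l : ℚbar), w = l • c (π z) →
      ∀ k, wform d w * (((U k : ι → A) z : A) : ℚbar) = w k * w j ^ m := by
    intro z w l hw k
    rw [← wmon_wword]
    refine (wform_mul_wgen hA hc (fun i => wword m k j (Fin.cast hm i)) hw).trans ?_
    exact Fintype.prod_equiv (finCongr hm) _ _ fun i => rfl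
  refine ⟨U, fun z => ?_, fun h0 => ?_⟩
  · refine ⟨c (π z) j ^ m / wform d (c (π z)), fun k => ?_⟩
    rw [div_mul_eq_mul_div, eq_div_iff (hA.wform_ne_zero hc (π z)), mul_comm,
      hU z (c (π z)) 1 (one_smul ℚbar _).symm k, mul_comm]
  · have h1 : wform d v * (U j : ι → A) i₀ = v j * v j ^ m := Subtype.ext (by
      rw [MulMemClass.coe_mul, MulMemClass.coe_mul, SubmonoidClass.coe_pow,
        ← A.subtype_apply, map_wform]
      exact hU i₀ _ l₀ (funext hv) j)
    have h3 := congrArg (residue A) h1
    rw [map_mul, map_mul, map_pow, show residue A ((U j : ι → A) i₀) = 0 from congrFun h0 j,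
      mul_zero, ← pow_succ'] at h3
    exact pow_ne_zero _ hj h3.symm

/-- A composite with a map that has vectors everywhere gives functions of the algebra. -/
theorem wgen_comp_mem [Finite ι] (hA : Avoids c A d) (hc : ∀ x, c x ≠ 0) (π : ι → N)
    (hπ : ∀ i₀, HasVecAt T (fun i => c (π i)) i₀) (e : Fin (d * Fintype.card W) → W) :
    (fun i => (⟨wgen c d e (π i), wgen_mem hA hc e (π i)⟩ : A)) ∈ T := by
  have := Fermat.RED.Model.isAlgClosed_residue A
  refine mem_of_locally fun i₀ => ?_
  obtain ⟨U, hU, hUr⟩ := hπ i₀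
  have hev : ∀ (F : (W → T) → T) (G : (W → A) → A),
      (∀ f : T →+* A, f (F U) = G fun k => f (U k)) → ∀ i, (F U : ι → A) i = G fun k =>
        (U k : ι → A) i :=
    fun F G h i => h ((Pi.evalRingHom (fun _ : ι => A) i).comp T.val.toRingHom)
  refine ⟨((wform d U : T) : ι → A), (wform d U).2, ?_, ?_⟩
  · rw [hev _ (wform d) (fun f => map_wform f d U)]
    obtain ⟨l, hl⟩ := hU i₀
    exact hA.2 _ _ l hl hUr
  · have : ((wform d U : T) : ι → A) *
        (fun i => (⟨wgen c d e (π i), wgen_mem hA hc e (π i)⟩ : A)) = ((wmon e U : T) : ι → A) := by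
      funext i
      rw [Pi.mul_apply, hev _ (wform d) (fun f => map_wform f d U),
        hev _ (wmon e) (fun f => map_wmon f e U)]
      obtain ⟨l, hl⟩ := hU i
      refine Subtype.ext ?_
      rw [MulMemClass.coe_mul, ← A.subtype_apply, map_wform, ← A.subtype_apply (wmon e _), map_wmon]
      exact wform_mul_wgen hA hc e (l := l) (funext hl)
    rw [this]
    exact (wmon e U).2

end Vectors

/-! ### The model -/

/-- Two vectors have proportional primitive residues. -/
def ResLine (A : ValuationSubring ℚbar) (a b : W → ℚbar) : Prop :=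
  ∃ (v w : W → A) (l l' : ℚbar), (∀ k, (v k : ℚbar) = l * a k) ∧ (∀ k, (w k : ℚbar) = l' * b k) ∧
    (fun k => residue A (v k)) ≠ 0 ∧ (fun k => residue A (w k)) ≠ 0 ∧
    ∃ u : ResidueField A, ∀ k, residue A (v k) = u * residue A (w k)

/-- The generators agree residually at vectors with proportional primitive residues. -/
theorem gt_wgen_sub {N : Type*} [Finite N] {c : N → W → ℚbar} {d : ℕ} (h : IsPlace A p)
    (hA : Avoids c A d) (hc : ∀ x, c x ≠ 0) (e : Fin (d * Fintype.card W) → W) {x y : N}
    (hxy : ResLine A (c x) (c y)) : Gt A p (wgen c d e x - wgen c d e y) 0 := by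
  obtain ⟨v, w, l, l', hv, hw, hvr, hwr, u, hu⟩ := hxy
  set a : A := ⟨_, wgen_mem hA hc e x⟩ with ha
  set b : A := ⟨_, wgen_mem hA hc e y⟩ with hb
  have hkey : ∀ (z : N) (v : W → A) (l : ℚbar), (∀ k, (v k : ℚbar) = l * c z k) →
      wform d v * (⟨_, wgen_mem hA hc e z⟩ : A) = wmon e v := fun z v l hv => Subtype.ext (by
    rw [MulMemClass.coe_mul, ← A.subtype_apply, map_wform, ← A.subtype_apply (wmon e v), map_wmon]
    exact wform_mul_wgen hA hc e (l := l) (funext hv))
  have h1 := congrArg (residue A) (hkey x v l hv)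
  have h2 := congrArg (residue A) (hkey y w l' hw)
  rw [map_mul, map_wform, map_wmon] at h1 h2
  have hu0 : u ≠ 0 := fun h0 => hvr (funext fun k => by rw [hu k, h0, zero_mul]; rfl)
  rw [show (fun k => residue A (v k)) = u • fun k => residue A (w k) from funext hu, wform_smul,
    wmon_smul, ← h2, mul_assoc] at h1
  have h3 := mul_left_cancel₀ (map_wform (residue A) d w ▸ hA.2 y w l' hw hwr)
    (mul_left_cancel₀ (pow_ne_zero _ hu0) h1)
  refine (nonunit_iff_gt h _).mp ?_
  have h4 : a - b ∈ maximalIdeal A := by rw [← residue_eq_zero_iff, map_sub, h3, sub_self]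
  exact A.coe_mem_nonunits_iff.mpr h4

/-- A polynomial over `A` in functions from `s'` lies in the `A`-span of the `R`-algebra they
generate. -/
lemma coe_mem_span_adjoin {ι : Type*} {R : Type*} [CommRing R] [Algebra R ℚbar]
    {s : Set (ι → A)} {s' : Set (ι → ℚbar)}
    (hs : ∀ f ∈ s, (fun i => (f i : ℚbar)) ∈ s') {f : ι → A} (hf : f ∈ Algebra.adjoin A s) :
    (fun i => (f i : ℚbar)) ∈
      Submodule.span A (Algebra.adjoin R s' : Set (ι → ℚbar)) := by
  induction hf using Algebra.adjoin_induction with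
  | mem f hf => exact Submodule.subset_span (Algebra.subset_adjoin (hs f hf))
  | algebraMap a =>
    have : (fun i => ((algebraMap A (ι → A) a) i : ℚbar)) = a • (1 : ι → ℚbar) := by
      funext i
      rw [Pi.smul_apply, Pi.one_apply, Algebra.smul_def, mul_one]
      rfl
    rw [this]
    exact Submodule.smul_mem _ _ (Submodule.subset_span (one_mem _))
  | add f g _ _ hf hg => exact Submodule.add_mem _ hf hg
  | mul f g _ _ hf hg =>
    have h2 : (fun i => ((f * g) i : ℚbar)) = (fun i => (f i : ℚbar)) * fun i => (g i : ℚbar) := rfl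
    rw [h2]
    have h3 := Submodule.mul_mem_mul hf hg
    rw [Submodule.span_mul_span] at h3
    refine Submodule.span_mono ?_ h3
    rintro _ ⟨u, hu, w, hw, rfl⟩
    exact mul_mem (SetLike.mem_coe.mp hu) (SetLike.mem_coe.mp hw)

variable {M : Type*} [AddCommGroup M] [Finite M] {g : Γℚ →* AddMonoid.End M}
  {τ : Type*} [Finite τ]

/-- Vectors with the same generators are proportional. -/
private theorem exists_smul_of_wgen_eq {N : Type*} [Finite N] {c : N → W → ℚbar} {d : ℕ}
    (hA : Avoids c A d) (hc : ∀ x, c x ≠ 0) {x y : N}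
    (hxy : ∀ e, wgen c d e x = wgen c d e y) : ∃ l : ℚbar, l ≠ 0 ∧ c x = l • c y := by
  obtain ⟨j, hj⟩ := Function.ne_iff.mp (hc x)
  simp only [Pi.zero_apply] at hj
  have : Nonempty W := ⟨j⟩
  obtain ⟨m, hm⟩ : ∃ m, d * Fintype.card W = m + 1 :=
    Nat.exists_eq_succ_of_ne_zero (Nat.mul_ne_zero hA.1.ne' Fintype.card_ne_zero)
  have key : ∀ k, c x k * c x j ^ m / wform d (c x) = c y k * c y j ^ m / wform d (c y) := by
    intro k
    have h2 : ∀ w : W → ℚbar,
        wmon (fun i => wword m k j (Fin.cast hm i)) w = w k * w j ^ m := fun w => by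
      rw [← wmon_wword]
      exact Fintype.prod_equiv (finCongr hm) _ _ fun i => rfl
    simpa [wgen, h2] using hxy fun i => wword m k j (Fin.cast hm i)
  set a := c x j ^ m / wform d (c x) with ha
  set b := c y j ^ m / wform d (c y) with hb
  have ha0 : a ≠ 0 := div_ne_zero (pow_ne_zero _ hj) (hA.wform_ne_zero hc x)
  have h3 : ∀ k, c x k * a = c y k * b := fun k => by
    simpa only [ha, hb, mul_div_assoc] using key k
  have hb0 : b ≠ 0 := by
    intro e
    have := h3 j
    rw [e, mul_zero] at this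
    exact mul_ne_zero hj ha0 this
  refine ⟨b / a, div_ne_zero hb0 ha0, funext fun k => ?_⟩
  rw [Pi.smul_apply, smul_eq_mul, div_mul_eq_mul_div, eq_div_iff ha0, h3, mul_comm]

/-- The generators of a family of vectors, as functions on the module. -/
private def wgens (c : τ → M → W → ℚbar) (d : ℕ) :
    τ × (Fin (d * Fintype.card W) → W) → M → ℚbar :=
  fun te x => wgen (fun z : τ × M => c z.1 z.2) d te.2 (te.1, x)

/-- The generators are equivariant. -/
private theorem wgens_act (c : τ → M → W → ℚbar) (d : ℕ)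
    (heq : ∀ t σ x, ∃ l : ℚbar, l ≠ 0 ∧ c t (g σ x) = l • fun k => σ (c t x k))
    (te : τ × (Fin (d * Fintype.card W) → W)) (σ : Γℚ) (x : M) :
    wgens c d te (g σ x) = σ (wgens c d te x) := by
  obtain ⟨l, hl, e⟩ := heq te.1 σ x
  simp only [wgens, wgen, e, wform_smul, wmon_smul, map_div₀]
  rw [mul_div_mul_left _ _ (pow_ne_zero _ hl)]
  exact congrArg₂ (· / ·) (map_wmon (σ : ℚbar →+* ℚbar) te.2 _).symm
    (map_wform (σ : ℚbar →+* ℚbar) d _).symm

/-- The algebra of the generators is closed under comultiplication when the sums of two points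
have vectors. -/
private theorem decomposes_wgens_add (h : IsPlace A p) (c : τ → M → W → ℚbar) {d : ℕ}
    (hA : Avoids (fun z : τ × M => c z.1 z.2) A d) (hc : ∀ z : τ × M, c z.1 z.2 ≠ 0)
    (hbij : ∀ σ ∈ (⊤ : Subgroup Γℚ), Function.Bijective (g σ))
    (heq : ∀ t σ x, ∃ l : ℚbar, l ≠ 0 ∧ c t (g σ x) = l • fun k => σ (c t x k))
    (hsum : ∀ T : Subalgebra A (M × M → A),
      (∀ t z₀, HasVecAt T (fun z => c t z.1) z₀) → (∀ t z₀, HasVecAt T (fun z => c t z.2) z₀) →
      ∀ t z₀, HasVecAt T (fun z => c t (z.1 + z.2)) z₀)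
    {f : M → ℚbar} (hf : f ∈ Algebra.adjoin (Rfix A (⊤ : Subgroup Γℚ)) (Set.range (wgens c d))) :
    Decomposes (Algebra.adjoin (Rfix A (⊤ : Subgroup Γℚ)) (Set.range (wgens c d)))
      (fun z : M × M => f (z.1 + z.2)) := by
  classical
  have hGA : ∀ te x, wgens c d te x ∈ A := fun te x => wgen_mem hA hc te.2 _
  have hGe := wgens_act c d heq
  refine decomposes_of_mem (s := Set.range (wgens c d)) Algebra.subset_adjoin ?_
  induction hf using Algebra.adjoin_induction with
  | mem f hf =>
    obtain ⟨⟨t, e⟩, rfl⟩ := hf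
    refine mem_of_mem_span (g := fun σ z => (g σ z.1, g σ z.2)) h le_top
      (fun σ hσ => (hbij σ hσ).prodMap (hbij σ hσ)) ?_ ?_ ?_ ?_ ?_
    · exact ((Set.finite_range _).image _).union ((Set.finite_range _).image _)
    · rintro _ (⟨_, ⟨te, rfl⟩, rfl⟩ | ⟨_, ⟨te, rfl⟩, rfl⟩) z <;> exact hGA te _
    · rintro _ (⟨_, ⟨te, rfl⟩, rfl⟩ | ⟨_, ⟨te, rfl⟩, rfl⟩) σ hσ z <;> exact hGe te σ _
    · intro σ hσ z
      change wgens c d (t, e) (g σ z.1 + g σ z.2) = σ (wgens c d (t, e) (z.1 + z.2))
      rw [← map_add]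
      exact hGe (t, e) σ _
    · set T : Subalgebra A (M × M → A) := Algebra.adjoin A
        ((Set.range fun te => fun z : M × M => (⟨wgens c d te z.1, hGA te z.1⟩ : A)) ∪
          (Set.range fun te => fun z : M × M => (⟨wgens c d te z.2, hGA te z.2⟩ : A))) with hT
      refine coe_mem_span_adjoin (s := (Set.range fun te => fun z : M × M =>
          (⟨wgens c d te z.1, hGA te z.1⟩ : A)) ∪ (Set.range fun te => fun z : M × M =>
          (⟨wgens c d te z.2, hGA te z.2⟩ : A)))
        (f := fun z => ⟨wgens c d (t, e) (z.1 + z.2), hGA _ _⟩) ?_ ?_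
      · rintro _ (⟨te, rfl⟩ | ⟨te, rfl⟩)
        · exact Or.inl ⟨_, ⟨te, rfl⟩, rfl⟩
        · exact Or.inr ⟨_, ⟨te, rfl⟩, rfl⟩
      -- `hsum`: vectors of the sum exist over the algebra of the coordinates of both summands
      rw [← hT]
      refine wgen_comp_mem hA hc (fun z : M × M => (t, z.1 + z.2)) (fun z₀ => ?_) e
      refine hsum T (fun t' z => ?_) (fun t' z => ?_) t z₀
      · exact hasVecAt_proj hA hc (fun z : M × M => (t', z.1))
          (fun e' => Algebra.subset_adjoin (Or.inl ⟨(t', e'), rfl⟩)) z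
      · exact hasVecAt_proj hA hc (fun z : M × M => (t', z.2))
          (fun e' => Algebra.subset_adjoin (Or.inr ⟨(t', e'), rfl⟩)) z
  | algebraMap r => exact Subalgebra.algebraMap_mem _ r
  | add u v _ _ hu hv => exact add_mem hu hv
  | mul u v _ _ hu hv => exact mul_mem hu hv

/-- **Models from vectors.**  A point with the residues of the origin is connected. -/
theorem exists_model_of_vectors (h : IsPlace A p) (c : τ → M → W → ℚbar)
    (hc : ∀ t x, c t x ≠ 0)
    (heq : ∀ t σ x, ∃ l : ℚbar, l ≠ 0 ∧ c t (g σ x) = l • fun k => σ (c t x k))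
    (hsep : ∀ x y, (∀ t, ∃ l : ℚbar, l ≠ 0 ∧ c t x = l • c t y) → x = y)
    (hsum : ∀ T : Subalgebra A (M × M → A),
      (∀ t z₀, HasVecAt T (fun z => c t z.1) z₀) → (∀ t z₀, HasVecAt T (fun z => c t z.2) z₀) →
      ∀ t z₀, HasVecAt T (fun z => c t (z.1 + z.2)) z₀) :
    ∃ G : Model A (⊤ : Subgroup Γℚ) (fun σ => g σ),
      ∀ x, (∀ t, ResLine A (c t x) (c t 0)) → x ∈ G.conn h := by
  classical
  have hbij : ∀ σ ∈ (⊤ : Subgroup Γℚ), Function.Bijective (g σ) := fun σ _ => by
    refine Function.bijective_iff_has_inverse.mpr ⟨g σ⁻¹, fun x => ?_, fun x => ?_⟩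
    · change (g σ⁻¹ * g σ) x = x
      rw [← map_mul, inv_mul_cancel, map_one]
      rfl
    · change (g σ * g σ⁻¹) x = x
      rw [← map_mul, mul_inv_cancel, map_one]
      rfl
  have hcc0 : ∀ z : τ × M, c z.1 z.2 ≠ 0 := fun z => hc z.1 z.2
  obtain ⟨d, hA⟩ := exists_avoids (fun z : τ × M => c z.1 z.2) h hcc0
  set O := Algebra.adjoin (Rfix A (⊤ : Subgroup Γℚ)) (Set.range (wgens c d)) with hO
  let M₀ : Model A (⊤ : Subgroup Γℚ) (fun σ => g σ) := ⟨O, fg_adjoin_of_finite
    (Set.finite_range _) ?_, le_top, map_one g, fun σ _ ρ _ => map_mul g σ ρ, ?_, ?_, ?_⟩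
  -- a point with the residues of the origin is connected
  · refine ⟨M₀, fun x hx f hf hf0 => ?_⟩
    suffices ∀ u ∈ O, Gt A p (u x - u 0) 0 by
      have := this f hf
      rwa [hf0, sub_zero] at this
    intro u hu
    induction hu using Algebra.adjoin_induction with
    | mem f hf =>
      obtain ⟨⟨t, e⟩, rfl⟩ := hf
      exact gt_wgen_sub h hA hcc0 e (hx t)
    | algebraMap r => simp [Gt]
    | add u v _ _ hu hv =>
      have := hu.add h hv
      simpa [add_sub_add_comm] using this
    | mul u v hum hvm hu hv =>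
      have h1 := hu.mul_ge h (M₀.ge_zero h hvm x)
      have h2 := hv.mul_ge h (M₀.ge_zero h hum 0)
      rw [add_zero] at h1 h2
      have := h1.add h h2
      convert this using 1
      simp only [Pi.mul_apply]
      ring
  · rintro _ ⟨te, rfl⟩
    exact isIntegral_fun (g := fun σ => g σ) hbij (fun x => wgen_mem hA hcc0 te.2 _)
      fun σ _ x => wgens_act c d heq te σ x
  · intro f hf σ hσ x
    induction hf using Algebra.adjoin_induction with
    | mem f hf => obtain ⟨te, rfl⟩ := hf; exact wgens_act c d heq te σ x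
    | algebraMap r => simp [algebraMap_Rfix, apply_Rfix hσ]
    | add u v _ _ hu hv => rw [Pi.add_apply, Pi.add_apply, map_add, hu, hv]
    | mul u v _ _ hu hv => rw [Pi.mul_apply, Pi.mul_apply, map_mul, hu, hv]
  · exact fun x y hxy => hsep x y fun t => exists_smul_of_wgen_eq hA hcc0
      (x := (t, x)) (y := (t, y)) fun e => hxy _ (Algebra.subset_adjoin ⟨(t, e), rfl⟩)
  · intro f hf
    obtain ⟨n, a, b, hab, e⟩ := decomposes_wgens_add h c hA hcc0 hbij heq hsum hf
    exact ⟨n, a, b, hab, fun x y => e x y⟩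

end Fermat.RED.Flat
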