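import Fermat.Agent.RED.Flat.X0Data
import Fermat.Agent.FLAT.ToHopf
import Fermat.Prelude.Def_GaloisRep_Flat

/-!
# The `ℓ`-power torsion of `J₀(N)` as a Hopf algebra over `ℤ_(ℓ)`

The model of the torsion from `RED/Flat/X0Data` is made a Hopf algebra by `FLAT/ToHopf`, with the
Galois action on its points.
-/

set_option autoImplicit false
open ModularCurve

namespace Fermat.RED.Flat

/-- For `ℓ ∤ p` the `ℓᵏ`-torsion of `J₀(p)` is finite flat at `ℓ`; here `p` is any level. -/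
theorem exists_hopf_jZero_torsion
    (p : ℕ) [NeZero p] (ℓ : ℕ) [Fact ℓ.Prime] (hℓp : ¬ ℓ ∣ p) (k : ℕ) :
    ∃ (H : Type) (_ : CommRing H) (_ : HopfAlgebra (GaloisRep.ratLocalizedAt ℓ) H),
      Module.Finite (GaloisRep.ratLocalizedAt ℓ) H ∧ Module.Flat (GaloisRep.ratLocalizedAt ℓ) H ∧
      Coalgebra.IsCocomm (GaloisRep.ratLocalizedAt ℓ) H ∧
      ∃ e : WithConv (H →ₐ[GaloisRep.ratLocalizedAt ℓ] AlgebraicClosure ℚ) ≃
          ↥(Submodule.torsionBy ℤ (JZero p) ((ℓ : ℤ) ^ k)),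
        (∀ f g, e (f * g) = e f + e g) ∧
        ∀ (σ : AlgebraicClosure ℚ ≃ₐ[ℚ] AlgebraicClosure ℚ)
          (f g : WithConv (H →ₐ[GaloisRep.ratLocalizedAt ℓ] AlgebraicClosure ℚ)),
          (∀ h : H, g h = σ (f h)) → ((e g : JZero p)) = σ • (e f : JZero p) := by
  obtain ⟨A, hA⟩ := Fermat.CFT.exists_place (Fact.out : ℓ.Prime)
  have : Finite ↥(Submodule.torsionBy ℤ (JZero p) ((ℓ : ℤ) ^ k)) := by
    have := Fermat.JAC.finite_torsion (K := AlgebraicClosure ℚ) (F := modularFunctionFieldBar p)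
      (ℓ ^ k) (pow_ne_zero k (Fact.out : ℓ.Prime).ne_zero)
    refine Finite.of_injective (β := ↥(AlgebraicCurve.Pic0.torsion (AlgebraicClosure ℚ)
      (modularFunctionFieldBar p) (ℓ ^ k))) (fun x => ⟨x.1, AlgebraicCurve.Pic0.mem_torsion.2 ?_⟩)
      fun x y h => Subtype.ext (Subtype.ext_iff.mp h)
    push_cast
    exact x.2
  let T := Submodule.torsionBy ℤ (JZero p) ((ℓ : ℤ) ^ k)
  have hmem : ∀ (σ : AlgebraicClosure ℚ ≃ₐ[ℚ] AlgebraicClosure ℚ) (x : T),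
      σ • (x : JZero p) ∈ T := fun σ x => by
    change ((ℓ : ℤ) ^ k) • (σ • (x : JZero p)) = 0
    have h0 : ((ℓ : ℤ) ^ k) • (x : JZero p) = 0 := x.2
    refine (map_zsmul (DistribSMul.toAddMonoidHom (JZero p) σ) ((ℓ : ℤ) ^ k)
      (x : JZero p)).symm.trans ?_
    rw [h0, map_zero]
  let gM : (AlgebraicClosure ℚ ≃ₐ[ℚ] AlgebraicClosure ℚ) →* AddMonoid.End T :=
    { toFun := fun σ =>
        { toFun := fun x => ⟨σ • (x : JZero p), hmem σ x⟩
          map_zero' := Subtype.ext (smul_zero σ)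
          map_add' := fun x y => Subtype.ext (smul_add σ (x : JZero p) y) }
      map_one' := AddMonoidHom.ext fun x => Subtype.ext (one_smul _ _)
      map_mul' := fun σ τ => AddMonoidHom.ext fun x => Subtype.ext (mul_smul _ _ _) }
  obtain ⟨G⟩ := nonempty_model_jZero hℓp ⟨Fact.out, hA⟩ gM
    (fun _ : Unit => T.subtype.toAddMonoidHom) (fun _ _ _ => rfl)
    fun m hm => Subtype.ext (hm ())
  obtain ⟨Hh, i1, i2, h1, h2, h3, e, he, hgal⟩ := G.exists_hopf ⟨Fact.out, hA⟩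
  exact ⟨Hh, i1, i2, h1, h2, h3, e, he, fun σ f g hfg => congrArg Subtype.val (hgal σ f g hfg)⟩

end Fermat.RED.Flat
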